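/-
S56 marathon, TW/ (helper2).  File 14: the cyclotomic characters of `G_ℚ`: surjectivity of the mod `p`
cyclotomic character, triviality on the elements fixing `μ_p`, and the normal subgroup of `G_ℚ` fixing
`μ_N` (with abelian quotient).
-/
import Mathlib
import Fermat.Prelude.Def_ExtCitation_KummerBridge

set_option autoImplicit false
set_option linter.unusedSectionVars false
set_option linter.style.haveILetI false

namespace Fermat.Agent.S56lib.TW

open ExtCitation Polynomial

local notation "Qb" => AlgebraicClosure ℚ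
local notation "GQ" => (AlgebraicClosure ℚ ≃ₐ[ℚ] AlgebraicClosure ℚ)

section Fixer

/-- the subgroup of `G_ℚ` fixing the `N`-th roots of unity. -/
def rootFixer (N : ℕ) : Subgroup GQ where
  carrier := {σ | ∀ μ : Qb, μ ^ N = 1 → σ μ = μ}
  one_mem' := fun μ _ => rfl
  mul_mem' := by
    intro a b ha hb μ hμ
    rw [AlgEquiv.mul_apply, hb μ hμ, ha μ hμ]
  inv_mem' := by
    intro a ha μ hμ
    have := ha μ hμ
    calc a⁻¹ μ = a⁻¹ (a μ) := by rw [this]
      _ = μ := by rw [← AlgEquiv.mul_apply, inv_mul_cancel]; rfl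

theorem mem_rootFixer {N : ℕ} {σ : GQ} : σ ∈ rootFixer N ↔ ∀ μ : Qb, μ ^ N = 1 → σ μ = μ :=
  Iff.rfl

instance rootFixer_normal (N : ℕ) : (rootFixer N).Normal := by
  refine ⟨fun σ hσ g μ hμ => ?_⟩
  have h1 : (g⁻¹ μ) ^ N = 1 := by rw [← map_pow, hμ, map_one]
  have h2 := hσ _ h1
  rw [AlgEquiv.mul_apply, AlgEquiv.mul_apply, h2]
  exact g.apply_symm_apply μ

/-- the mod `N` cyclotomic character on `G_ℚ`. -/
noncomputable def chiN (N : ℕ) [NeZero N] : GQ →* (ZMod N)ˣ :=
  MonoidHom.mk'
    (fun σ => modularCyclotomicCharacter Qb (IsAlgClosed.card_rootsOfUnity_eq Qb N)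
      (σ : Qb ≃+* Qb))
    (fun a b => by rw [← map_mul]; congr 1)

theorem chiN_spec (N : ℕ) [NeZero N] (σ : GQ) (μ : Qb) (hμ : μ ^ N = 1) :
    σ μ = μ ^ ((chiN N σ : (ZMod N)ˣ) : ZMod N).val := by
  have hu : IsUnit μ := IsUnit.of_pow_eq_one hμ (NeZero.ne N)
  obtain ⟨u, rfl⟩ := hu
  have hmem : u ∈ rootsOfUnity N Qb := by
    rw [mem_rootsOfUnity]
    exact Units.ext (by simpa using hμ)
  exact modularCyclotomicCharacter.spec Qb (IsAlgClosed.card_rootsOfUnity_eq Qb N)
    (σ : Qb ≃+* Qb) hmem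

/-- commutators fix the roots of unity. -/
theorem comm_mem_rootFixer (N : ℕ) (hpos : 0 < N) (a b : GQ) :
    a * b * a⁻¹ * b⁻¹ ∈ rootFixer N := by
  intro μ hμ
  haveI : NeZero N := ⟨hpos.ne'⟩
  have h1 : chiN N (a * b * a⁻¹ * b⁻¹) = 1 := by
    simp only [map_mul, map_inv]
    rw [mul_comm (chiN N a) (chiN N b)]
    group
  by_cases hN1 : N = 1
  · subst hN1
    rw [pow_one] at hμ
    rw [hμ, map_one]
  · haveI : Fact (1 < N) := ⟨by omega⟩
    rw [chiN_spec N _ μ hμ, h1, Units.val_one, ZMod.val_one, pow_one]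

end Fixer

section CycloChar

variable (p : ℕ) [hp : Fact p.Prime]

/-- local copies of the basic instances on `ℚ̄` (not found by instance search). -/
theorem isAlgebraicQb : Algebra.IsAlgebraic ℚ Qb := AlgebraicClosure.isAlgebraic ℚ

attribute [local instance] isAlgebraicQb

theorem isAlgClosureQb : IsAlgClosure ℚ Qb := ⟨inferInstance, inferInstance⟩

attribute [local instance] isAlgClosureQb

theorem normalQb : Normal ℚ Qb := IsAlgClosure.normal ℚ Qb

attribute [local instance] normalQb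

theorem isIntegralQb : Algebra.IsIntegral ℚ Qb := Algebra.IsAlgebraic.isIntegral

attribute [local instance] isIntegralQb

theorem cycloChar_spec (σ : GQ) (μ : Qb) (hμ : μ ^ p = 1) :
    σ μ = μ ^ ((cycloChar p σ : (ZMod p)ˣ) : ZMod p).val := by
  haveI : NeZero p := ⟨hp.out.ne_zero⟩
  have hu : IsUnit μ := IsUnit.of_pow_eq_one hμ (NeZero.ne p)
  obtain ⟨u, rfl⟩ := hu
  have hmem : u ∈ rootsOfUnity p Qb := by
    rw [mem_rootsOfUnity]
    exact Units.ext (by simpa using hμ)
  exact modularCyclotomicCharacter.spec Qb (card_rootsOfUnity_eq_self p) (σ : Qb ≃+* Qb) hmem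

/-- uniqueness: an exponent describing the action on `μ_p` is the cyclotomic character. -/
theorem cycloChar_eq_of_spec (σ : GQ) (u : (ZMod p)ˣ)
    (h : ∀ μ : Qb, μ ^ p = 1 → σ μ = μ ^ ((u : ZMod p)).val) : cycloChar p σ = u := by
  haveI : NeZero p := ⟨hp.out.ne_zero⟩
  apply Units.ext
  symm
  refine modularCyclotomicCharacter.unique Qb (card_rootsOfUnity_eq_self p) (σ : Qb ≃+* Qb)
    (c := (u : ZMod p)) fun t ht => ?_
  have ht' : (t : Qb) ^ p = 1 := by
    rw [mem_rootsOfUnity] at ht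
    have := congrArg Units.val ht
    simpa using this
  have := h (t : Qb) ht'
  rw [← Units.val_pow_eq_pow_val] at this
  exact this

/-- the cyclotomic character is trivial on the elements fixing `μ_p`. -/
theorem cycloChar_eq_one_of_fixes (σ : GQ) (h : ∀ μ : Qb, μ ^ p = 1 → σ μ = μ) :
    cycloChar p σ = 1 := by
  haveI : Fact (1 < p) := ⟨hp.out.one_lt⟩
  refine cycloChar_eq_of_spec p σ 1 fun μ hμ => ?_
  rw [h μ hμ, Units.val_one, ZMod.val_one, pow_one]

/-- **the mod `p` cyclotomic character of `G_ℚ` is surjective.** -/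
theorem cycloChar_surjective : Function.Surjective (cycloChar p) := by
  intro u
  haveI : NeZero p := ⟨hp.out.ne_zero⟩
  obtain ⟨ζ, hζ⟩ := HasEnoughRootsOfUnity.exists_primitiveRoot Qb p
  set K : IntermediateField ℚ Qb := IntermediateField.adjoin ℚ {ζ} with hK
  haveI : IsCyclotomicExtension {p} ℚ K := hζ.intermediateField_adjoin_isCyclotomicExtension ℚ
  have hirr : Irreducible (cyclotomic p ℚ) := cyclotomic.irreducible_rat hp.out.pos
  set τ : K ≃ₐ[ℚ] K := (IsCyclotomicExtension.autEquivPow K hirr).symm u with hτ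
  have hτu : (IsCyclotomicExtension.zeta_spec p ℚ K).autToPow ℚ τ = u := by
    have := (IsCyclotomicExtension.autEquivPow K hirr).apply_symm_apply u
    rw [← hτ] at this
    rw [← this]
    rfl
  set z : K := IsCyclotomicExtension.zeta p ℚ K with hz
  have hzspec : IsPrimitiveRoot z p := IsCyclotomicExtension.zeta_spec p ℚ K
  have hτz : τ z = z ^ ((u : ZMod p)).val := by
    have := hzspec.autToPow_spec ℚ τ
    rw [hτu] at this
    exact this.symm
  set σ : GQ := τ.liftNormal Qb with hσ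
  have hσz : σ (z : Qb) = (z : Qb) ^ ((u : ZMod p)).val := by
    have := τ.liftNormal_commutes Qb z
    rw [← hσ] at this
    have h2 : algebraMap K Qb z = (z : Qb) := rfl
    rw [h2] at this
    rw [this, hτz]
    rfl
  have hzQ : IsPrimitiveRoot (z : Qb) p := by
    have := hzspec.map_of_injective (f := algebraMap K Qb) (algebraMap K Qb).injective
    exact this
  refine ⟨σ, cycloChar_eq_of_spec p σ u fun μ hμ => ?_⟩
  obtain ⟨j, -, rfl⟩ := hzQ.eq_pow_of_pow_eq_one hμ
  rw [map_pow, hσz, ← pow_mul, ← pow_mul, mul_comm]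

end CycloChar

end Fermat.Agent.S56lib.TW
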