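/-
S56 marathon, TW/ (helper2).  File 12: regular semisimple elements.  Under the Taylor–Wiles hypotheses,
(1) `r` stays irreducible on every normal subgroup with abelian quotient (Clifford-type lemma);
(2) such a subgroup contained in `SL₂` contains a regular semisimple element;
(3) a non-zero trace-zero matrix `w` cannot be orthogonal (for the trace form) to all the conjugates of
a regular semisimple element together with all its own conjugates (`TWHyp.exists_trace_ne_zero`).
-/
import Mathlib
import Fermat.Agent.S56lib.TW.StableLine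

set_option autoImplicit false
set_option linter.unusedSectionVars false
set_option linter.style.haveILetI false

namespace Fermat.Agent.S56lib.TW

open scoped LinearAlgebra.Projectivization Matrix Pointwise
open Projectivization MulAction Matrix

variable {k : Type*} [Field k] {G : Type*} [Group G]

section CrossId

theorem cross_trace (M : Matrix (Fin 2) (Fin 2) k) (v w : Fin 2 → k) :
    cross (M *ᵥ v) w + cross v (M *ᵥ w) = M.trace * cross v w := by
  rw [Matrix.trace_fin_two]
  simp only [cross, mulVec_zero', mulVec_one']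
  ring

theorem cross_mulVec_mulVec (M : Matrix (Fin 2) (Fin 2) k) (v w : Fin 2 → k) :
    cross (M *ᵥ v) (M *ᵥ w) = M.det * cross v w := by
  rw [Matrix.det_fin_two]
  simp only [cross, mulVec_zero', mulVec_one']
  ring

theorem cross_smul_left (v w : Fin 2 → k) (a : k) : cross (a • v) w = a * cross v w := by
  simp only [cross, Pi.smul_apply, smul_eq_mul]; ring

theorem cross_comm (v w : Fin 2 → k) : cross v w = -cross w v := by
  simp only [cross]; ring

theorem cross_zero_left (v : Fin 2 → k) : cross 0 v = 0 := by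
  simp [cross]

/-- two independent vectors: if `cross u v = 0` and `u, v ≠ 0` then they define the same point. -/
theorem mk_eq_of_cross (u v : Fin 2 → k) (hu : u ≠ 0) (hv : v ≠ 0) (h : cross u v = 0) :
    Projectivization.mk k u hu = Projectivization.mk k v hv :=
  (mk_eq_mk_iff_cross u v hu hv).mpr h

theorem isScal_smul_one (a : k) : IsScal (a • (1 : Matrix (Fin 2) (Fin 2) k)) :=
  ⟨by simp, by simp, by simp⟩

end CrossId

section Eigen

/-- Cayley–Hamilton for `2×2` matrices. -/
theorem cayley_hamilton_two (M : Matrix (Fin 2) (Fin 2) k) :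
    M * M = M.trace • M - M.det • (1 : Matrix (Fin 2) (Fin 2) k) := by
  ext i j
  fin_cases i <;> fin_cases j <;>
    simp [Matrix.mul_apply, Fin.sum_univ_two, Matrix.det_fin_two, Matrix.trace_fin_two] <;> ring

theorem exists_mulVec_ne_zero (N : Matrix (Fin 2) (Fin 2) k) (hN : N ≠ 0) :
    ∃ e : Fin 2 → k, N *ᵥ e ≠ 0 := by
  by_contra hcon
  push Not at hcon
  apply hN
  refine eq_zero_of_mulVec_eq_zero N e1 e2 ?_ (hcon e1) (hcon e2)
  simp [cross, e1, e2]

/-- an eigenbasis of a regular semisimple element with an eigenvector. -/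
theorem exists_eigenbasis (γ : GL (Fin 2) k) (hfix : ∃ x : P1 k, γ • x = x)
    (hreg : γ.1.trace ^ 2 ≠ 4 * γ.1.det) :
    ∃ (vp vm : Fin 2 → k) (ap am : k), cross vp vm ≠ 0 ∧ γ.1 *ᵥ vp = ap • vp ∧
      γ.1 *ᵥ vm = am • vm ∧ ap ≠ am := by
  obtain ⟨x, hx⟩ := hfix
  induction x using Projectivization.ind with
  | h vp hvp =>
    obtain ⟨ap, hap⟩ := exists_eigenvalue_of_fixed γ vp hvp hx
    set am := γ.1.trace - ap with ham
    -- `ap` is a root of the characteristic polynomial
    have hch := cayley_hamilton_two γ.1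
    have hroot : ap ^ 2 - γ.1.trace * ap + γ.1.det = 0 := by
      have h1 : (γ.1 * γ.1) *ᵥ vp = (γ.1.trace • γ.1 - γ.1.det • (1 : Matrix (Fin 2) (Fin 2) k)) *ᵥ vp := by
        rw [hch]
      rw [← Matrix.mulVec_mulVec, hap, Matrix.mulVec_smul, hap, Matrix.sub_mulVec,
        Matrix.smul_mulVec, hap, Matrix.smul_mulVec, Matrix.one_mulVec, smul_smul, smul_smul,
        ← sub_smul] at h1
      have h2 : (ap * ap - (γ.1.trace * ap - γ.1.det)) • vp = 0 := by
        rw [sub_smul, h1, sub_self]
      rcases smul_eq_zero.mp h2 with h3 | h3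
      · linear_combination h3
      · exact absurd h3 hvp
    have hne : ap ≠ am := by
      intro h
      apply hreg
      have htr : γ.1.trace = 2 * ap := by rw [ham] at h; linear_combination -h
      rw [htr] at hroot ⊢
      linear_combination -4 * hroot
    set N := γ.1 - ap • (1 : Matrix (Fin 2) (Fin 2) k) with hN
    have hN0 : N ≠ 0 := by
      intro h0
      apply hreg
      have hγ : γ.1 = ap • (1 : Matrix (Fin 2) (Fin 2) k) := sub_eq_zero.mp h0
      rw [hγ, Matrix.trace_smul, Matrix.det_smul, Matrix.trace_one, Matrix.det_one]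
      simp only [Fintype.card_fin, smul_eq_mul, mul_one]
      push_cast
      ring
    obtain ⟨e, he⟩ := exists_mulVec_ne_zero N hN0
    have hNN : (γ.1 - am • (1 : Matrix (Fin 2) (Fin 2) k)) * N = 0 := by
      rw [hN, sub_mul, mul_sub, mul_sub, hch]
      simp only [Matrix.smul_mul, Matrix.mul_smul, Matrix.one_mul, Matrix.mul_one, smul_smul]
      have hdet : γ.1.det = am * ap := by rw [ham]; linear_combination hroot
      rw [hdet, ham]
      module
    have hvm : γ.1 *ᵥ (N *ᵥ e) = am • (N *ᵥ e) := by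
      have : (γ.1 - am • (1 : Matrix (Fin 2) (Fin 2) k)) *ᵥ (N *ᵥ e) = 0 := by
        rw [Matrix.mulVec_mulVec, hNN, Matrix.zero_mulVec]
      rw [Matrix.sub_mulVec, Matrix.smul_mulVec, Matrix.one_mulVec] at this
      exact sub_eq_zero.mp this
    refine ⟨vp, N *ᵥ e, ap, am, ?_, hap, hvm, hne⟩
    intro hcr
    have hsame := mk_eq_of_cross vp (N *ᵥ e) hvp he hcr
    rw [mk_eq_mk_iff'] at hsame
    obtain ⟨a, ha⟩ := hsame
    have h1 : γ.1 *ᵥ vp = am • vp := by
      rw [← ha, Matrix.mulVec_smul, hvm, smul_comm]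
    rw [hap] at h1
    have h2 : (ap - am) • vp = 0 := by rw [sub_smul, h1, sub_self]
    rcases smul_eq_zero.mp h2 with h3 | h3
    · exact hne (sub_eq_zero.mp h3)
    · exact hvp h3

end Eigen

section Orth

variable {r : G →* GL (Fin 2) k}

/-- a point whose orbit lies in a pair of points contradicts the hypotheses. -/
theorem TWHyp.no_small_orbit (h : TWHyp r) (x₁ x₂ : P1 k)
    (hO : ∀ g, r g • x₁ = x₁ ∨ r g • x₁ = x₂) : False := by
  by_cases hne : x₁ = x₂
  · obtain ⟨g, hg⟩ := h.irr x₁
    rcases hO g with h1 | h1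
    · exact hg h1
    · exact hg (h1.trans hne.symm)
  by_cases hfix : ∀ g, r g • x₁ = x₁
  · obtain ⟨g, hg⟩ := h.irr x₁
    exact hg (hfix g)
  · push Not at hfix
    obtain ⟨g₂, hg₂⟩ := hfix
    have hg₂' : r g₂ • x₁ = x₂ := (hO g₂).resolve_left hg₂
    refine h.no_two_points x₁ x₂ hne fun g => ?_
    have h2 : r g • x₂ = x₁ ∨ r g • x₂ = x₂ := by
      have := hO (g * g₂)
      rwa [map_mul, mul_smul, hg₂'] at this
    have hinj : r g • x₁ ≠ r g • x₂ := fun hc => hne (smul_left_cancel _ hc)
    rcases hO g with h1 | h1 <;> rcases h2 with h2 | h2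
    · exact absurd (h1.trans h2.symm) hinj
    · exact Or.inl ⟨h1, h2⟩
    · exact Or.inr ⟨h1, h2⟩
    · exact absurd (h1.trans h2.symm) hinj

theorem mem_pair_of_fixedBy {F : Set (P1 k)} {y z p q : P1 k} (hF : F = {y, z}) (hp : p ∈ F)
    (hq : q ∈ F) (hpq : p ≠ q) {a : P1 k} (ha : a ∈ F) : a = p ∨ a = q := by
  rw [hF, Set.mem_insert_iff, Set.mem_singleton_iff] at hp hq ha
  rcases hp with rfl | rfl <;> rcases hq with rfl | rfl <;> rcases ha with rfl | rfl <;> simp_all

/-- **orthogonality is impossible.**  `γ₀` regular semisimple with eigenbasis `vp, vm`; a non-zero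
trace-zero `w` all of whose conjugates are orthogonal to `γ₀` for the trace form does not exist. -/
theorem TWHyp.orthogonal_false [NeZero (2 : k)] (h : TWHyp r) (γ₀ : GL (Fin 2) k)
    (vp vm : Fin 2 → k) (ap am : k) (hv : cross vp vm ≠ 0) (hp : γ₀.1 *ᵥ vp = ap • vp)
    (hm : γ₀.1 *ᵥ vm = am • vm) (hα : ap ≠ am)
    (w : Matrix (Fin 2) (Fin 2) k) (hw : w ≠ 0) (htr : w.trace = 0)
    (hort : ∀ g, ((r g).1 * w * ((r g)⁻¹).1 * γ₀.1).trace = 0) : False := by
  have hvp0 : vp ≠ 0 := by
    rintro rfl
    exact hv (cross_zero_left _)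
  have hvm0 : vm ≠ 0 := by
    rintro rfl
    exact hv (cross_zero_right _)
  -- the relations (E1), (E2)
  have hE : ∀ g, cross (w *ᵥ ((r g).1 *ᵥ vp)) ((r g).1 *ᵥ vm) = 0 ∧
      cross ((r g).1 *ᵥ vp) (w *ᵥ ((r g).1 *ᵥ vm)) = 0 := by
    intro g
    set A := (r g⁻¹).1 with hA
    set A' := ((r g⁻¹)⁻¹).1 with hA'
    have hAA' : A' * A = 1 := val_inv_mul_val _
    have hA'eq : A' = (r g).1 := by rw [hA', map_inv, inv_inv]
    obtain ⟨W, hW⟩ : ∃ W, W = A * w * A' := ⟨_, rfl⟩
    have hWtr : W.trace = 0 := by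
      rw [hW, Matrix.trace_mul_cycle, hAA', Matrix.one_mul, htr]
    have h1 := cross_trace (W * γ₀.1) vp vm
    have ho := hort g⁻¹
    rw [← hA, ← hA', ← hW] at ho
    have e1 : (W * γ₀.1) *ᵥ vp = ap • (W *ᵥ vp) := by
      rw [← Matrix.mulVec_mulVec, hp, Matrix.mulVec_smul]
    have e2 : (W * γ₀.1) *ᵥ vm = am • (W *ᵥ vm) := by
      rw [← Matrix.mulVec_mulVec, hm, Matrix.mulVec_smul]
    rw [ho, zero_mul, e1, e2, cross_smul_left, cross_smul_right] at h1
    have h2 := cross_trace W vp vm
    rw [hWtr, zero_mul] at h2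
    have h3 : (ap - am) * cross (W *ᵥ vp) vm = 0 := by linear_combination h1 - am * h2
    have h4 : cross (W *ᵥ vp) vm = 0 := (mul_eq_zero.mp h3).resolve_left (sub_ne_zero.mpr hα)
    have h5 : cross vp (W *ᵥ vm) = 0 := by linear_combination h2 - h4
    -- transport by `A' = r g`
    have hdet : A'.det ≠ 0 := by
      rw [hA'eq]
      exact (Matrix.isUnit_iff_isUnit_det _).mp (r g).isUnit |>.ne_zero
    have t1 : A' *ᵥ (W *ᵥ vp) = w *ᵥ (A' *ᵥ vp) := by
      rw [hW, Matrix.mulVec_mulVec, Matrix.mulVec_mulVec, ← Matrix.mul_assoc, ← Matrix.mul_assoc,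
        hAA', Matrix.one_mul]
    have t2 : A' *ᵥ (W *ᵥ vm) = w *ᵥ (A' *ᵥ vm) := by
      rw [hW, Matrix.mulVec_mulVec, Matrix.mulVec_mulVec, ← Matrix.mul_assoc, ← Matrix.mul_assoc,
        hAA', Matrix.one_mul]
    have c1 := cross_mulVec_mulVec A' (W *ᵥ vp) vm
    have c2 := cross_mulVec_mulVec A' vp (W *ᵥ vm)
    rw [t1, h4, mul_zero] at c1
    rw [t2, h5, mul_zero] at c2
    rw [← hA'eq]
    exact ⟨c1, c2⟩
  have hindep : ∀ g, cross ((r g).1 *ᵥ vp) ((r g).1 *ᵥ vm) ≠ 0 := by
    intro g
    rw [cross_mulVec_mulVec]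
    exact mul_ne_zero ((Matrix.isUnit_iff_isUnit_det _).mp (r g).isUnit).ne_zero hv
  set yp : P1 k := Projectivization.mk k vp hvp0 with hyp
  set ym : P1 k := Projectivization.mk k vm hvm0 with hym
  have hypm : yp ≠ ym := by
    rw [hyp, hym, Ne, mk_eq_mk_iff_cross]
    exact hv
  set d := -w.det with hd
  have hsq : w * w = d • (1 : Matrix (Fin 2) (Fin 2) k) := sq_of_trace_zero w htr
  by_cases hd0 : d = 0
  · -- nilpotent case
    rw [hd0, zero_smul] at hsq
    obtain ⟨e, he⟩ := exists_mulVec_ne_zero w hw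
    have hwu : w *ᵥ (w *ᵥ e) = 0 := by rw [Matrix.mulVec_mulVec, hsq, Matrix.zero_mulVec]
    set z : P1 k := Projectivization.mk k (w *ᵥ e) he with hz
    have hker : ∀ (u : Fin 2 → k) (hu : u ≠ 0), w *ᵥ u = 0 → Projectivization.mk k u hu = z := by
      intro u hu hwu'
      rw [hz, mk_eq_mk_iff_cross]
      by_contra hc
      exact hw (eq_zero_of_mulVec_eq_zero w u (w *ᵥ e) hc hwu' hwu)
    have hZ : ∀ g, r g • yp = z ∨ r g • ym = z := by
      intro g
      obtain ⟨E1, E2⟩ := hE g
      have hup : (r g).1 *ᵥ vp ≠ 0 := mulVec_ne_zero (r g) hvp0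
      have hum : (r g).1 *ᵥ vm ≠ 0 := mulVec_ne_zero (r g) hvm0
      by_cases hwp : w *ᵥ ((r g).1 *ᵥ vp) = 0
      · left
        rw [hyp, smul_mk_eq]
        exact hker _ hup hwp
      · right
        rw [hym, smul_mk_eq]
        apply hker _ hum
        have hsame := mk_eq_of_cross _ _ hwp hum E1
        rw [mk_eq_mk_iff'] at hsame
        obtain ⟨a, ha⟩ := hsame
        have h1 : w *ᵥ (w *ᵥ ((r g).1 *ᵥ vp)) = 0 := by
          rw [Matrix.mulVec_mulVec, hsq, Matrix.zero_mulVec]
        rw [← ha, Matrix.mulVec_smul] at h1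
        rcases smul_eq_zero.mp h1 with h2 | h2
        · exfalso
          apply hwp
          rw [← ha, h2, zero_smul]
        · exact h2
    -- the orbit of `z` lies in `{yp, ym}`
    have hO : ∀ g, r g • z = yp ∨ r g • z = ym := by
      intro g
      rcases hZ g⁻¹ with h1 | h1
      · left
        rw [← h1, map_inv, smul_inv_smul]
      · right
        rw [← h1, map_inv, smul_inv_smul]
    rcases hO 1 with h1 | h1
    · rw [map_one, one_smul] at h1
      refine h.no_small_orbit z ym fun g => ?_
      rcases hO g with h2 | h2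
      · left; rw [h2, h1]
      · right; exact h2
    · rw [map_one, one_smul] at h1
      refine h.no_small_orbit z yp fun g => ?_
      rcases hO g with h2 | h2
      · right; exact h2
      · left; rw [h2, h1]
  · -- invertible case
    have hdet : w.det ≠ 0 := by
      intro h0
      apply hd0
      rw [hd, h0, neg_zero]
    set wh : GL (Fin 2) k := Matrix.GeneralLinearGroup.mkOfDetNeZero w hdet with hwh
    have hwhval : wh.1 = w := rfl
    have P1' : ∀ g, wh • (r g • yp) = r g • ym := by
      intro g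
      obtain ⟨E1, -⟩ := hE g
      rw [hyp, hym, smul_mk_eq, smul_mk_eq, smul_mk_eq, mk_eq_mk_iff_cross, hwhval]
      exact E1
    have P2' : ∀ g, wh • (r g • ym) = r g • yp := by
      intro g
      obtain ⟨-, E2⟩ := hE g
      rw [hyp, hym, smul_mk_eq, smul_mk_eq, smul_mk_eq, mk_eq_mk_iff_cross, hwhval, cross_comm, E2,
        neg_zero]
    have P1i : ∀ g, wh⁻¹ • (r g • ym) = r g • yp := fun g => by
      rw [inv_smul_eq_iff, P1']
    have P2i : ∀ g, wh⁻¹ • (r g • yp) = r g • ym := fun g => by
      rw [inv_smul_eq_iff, P2']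
    have hcfix : ∀ g g', (r g * wh * (r g)⁻¹ * wh⁻¹) • (r g' • yp) = r g' • yp ∧
        (r g * wh * (r g)⁻¹ * wh⁻¹) • (r g' • ym) = r g' • ym := by
      intro g g'
      have e1 : (r g)⁻¹ • (r g' • ym) = r (g⁻¹ * g') • ym := by
        rw [map_mul, map_inv, mul_smul]
      have e2 : (r g)⁻¹ • (r g' • yp) = r (g⁻¹ * g') • yp := by
        rw [map_mul, map_inv, mul_smul]
      have e3 : r g • (r (g⁻¹ * g') • yp) = r g' • yp := by
        rw [← mul_smul, ← map_mul, mul_inv_cancel_left]
      have e4 : r g • (r (g⁻¹ * g') • ym) = r g' • ym := by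
        rw [← mul_smul, ← map_mul, mul_inv_cancel_left]
      constructor
      · rw [mul_smul, mul_smul, mul_smul, P2i, e1, P2', e3]
      · rw [mul_smul, mul_smul, mul_smul, P1i, e2, P1', e4]
    by_cases hall : ∀ g, IsScal (r g * wh * (r g)⁻¹ * wh⁻¹).1
    · -- stable line
      refine h.no_stable_line w htr hw fun g => ?_
      have hs := (isScal_iff_eq_scalar _).mp (hall g)
      set c := (r g * wh * (r g)⁻¹ * wh⁻¹).1 0 0 with hc
      refine ⟨c, ?_⟩
      have h1 : (r g * wh * (r g)⁻¹).1 = (r g * wh * (r g)⁻¹ * wh⁻¹).1 * wh.1 := by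
        rw [← Units.val_mul, inv_mul_cancel_right]
      rw [hs, Units.val_mul, Units.val_mul, hwhval] at h1
      rw [h1, Matrix.scalar_apply, ← Matrix.smul_eq_diagonal_mul]
    · push Not at hall
      obtain ⟨g, hg⟩ := hall
      set cg := r g * wh * (r g)⁻¹ * wh⁻¹ with hcg
      have hfp : yp ∈ fixedBy (P1 k) cg := by
        have := (hcfix g 1).1
        rwa [map_one, one_smul] at this
      have hfm : ym ∈ fixedBy (P1 k) cg := by
        have := (hcfix g 1).2
        rwa [map_one, one_smul] at this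
      rcases fixedBy_eq_one_or_two cg hg yp hfp with ⟨y, hy⟩ | ⟨y, z, -, hy⟩
      · rw [hy, Set.mem_singleton_iff] at hfp hfm
        exact hypm (hfp.trans hfm.symm)
      · refine h.no_two_points yp ym hypm fun g' => ?_
        have a1 : r g' • yp ∈ fixedBy (P1 k) cg := (hcfix g g').1
        have a2 : r g' • ym ∈ fixedBy (P1 k) cg := (hcfix g g').2
        have b1 := mem_pair_of_fixedBy hy hfp hfm hypm a1
        have b2 := mem_pair_of_fixedBy hy hfp hfm hypm a2
        have hinj : r g' • yp ≠ r g' • ym := fun hc => hypm (smul_left_cancel _ hc)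
        rcases b1 with b1 | b1 <;> rcases b2 with b2 | b2
        · exact absurd (b1.trans b2.symm) hinj
        · exact Or.inl ⟨b1, b2⟩
        · exact Or.inr ⟨b1, b2⟩
        · exact absurd (b1.trans b2.symm) hinj

end Orth

section Clifford

variable {r : G →* GL (Fin 2) k}

/-- **Clifford-type lemma**: `r` is irreducible on a normal subgroup with abelian quotient contained in
`SL₂`. -/
theorem TWHyp.irr_of_normal [NeZero (2 : k)] (h : TWHyp r) (G' : Subgroup G) [hn : G'.Normal]
    (hab : ∀ a b : G, a * b * a⁻¹ * b⁻¹ ∈ G') (hdet : ∀ g ∈ G', (r g).1.det = 1) :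
    ∀ x : P1 k, ∃ g ∈ G', r g • x ≠ x := by
  by_contra hcon
  push Not at hcon
  obtain ⟨x₁, hx₁⟩ := hcon
  -- the set of common fixed points is stable
  have hL : ∀ γ : G, ∀ x : P1 k, (∀ g ∈ G', r g • x = x) → ∀ g ∈ G', r g • (r γ • x) = r γ • x := by
    intro γ x hx g hg
    have h1 : γ⁻¹ * g * γ ∈ G' := by
      have := hn.conj_mem g hg γ⁻¹
      rwa [inv_inv] at this
    have h2 := hx _ h1
    rw [map_mul, map_mul, map_inv, mul_smul, mul_smul, inv_smul_eq_iff] at h2
    exact h2
  by_cases hB : ∃ g₁ ∈ G', ¬ IsScal (r g₁).1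
  · obtain ⟨g₁, hg₁, hns⟩ := hB
    have horb : ∀ γ : G, r γ • x₁ ∈ fixedBy (P1 k) (r g₁) := fun γ => hL γ x₁ hx₁ g₁ hg₁
    have hx₁F : x₁ ∈ fixedBy (P1 k) (r g₁) := hx₁ g₁ hg₁
    rcases fixedBy_eq_one_or_two (r g₁) hns x₁ hx₁F with ⟨y, hy⟩ | ⟨y, z, hyz, hy⟩
    · obtain ⟨γ, hγ⟩ := h.irr x₁
      have h1 := horb γ
      rw [hy, Set.mem_singleton_iff] at h1 hx₁F
      exact hγ (h1.trans hx₁F.symm)
    · have hx₁F' := hx₁F
      rw [hy, Set.mem_insert_iff, Set.mem_singleton_iff] at hx₁F'
      rcases hx₁F' with rfl | rfl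
      · refine h.no_small_orbit x₁ z fun γ => ?_
        have := horb γ
        rwa [hy, Set.mem_insert_iff, Set.mem_singleton_iff] at this
      · refine h.no_small_orbit x₁ y fun γ => ?_
        have := horb γ
        rw [hy, Set.mem_insert_iff, Set.mem_singleton_iff] at this
        exact this.symm
  · push Not at hB
    -- all of `r(G')` is scalar: every `r a` is scalar
    have hcomm : ∀ a b : G, (r a).1 * (r b).1 = (r b).1 * (r a).1 ∨
        (r a).1 * (r b).1 = -((r b).1 * (r a).1) := by
      intro a b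
      have hs := hB _ (hab a b)
      have hd := hdet _ (hab a b)
      have hs' := (isScal_iff_eq_scalar _).mp hs
      set s := (r (a * b * a⁻¹ * b⁻¹)).1 0 0 with hsdef
      have hval : (r a).1 * (r b).1 = (r (a * b * a⁻¹ * b⁻¹)).1 * ((r b).1 * (r a).1) := by
        rw [← Units.val_mul, ← Units.val_mul, ← Units.val_mul, ← map_mul, ← map_mul, ← map_mul]
        congr 2
        group
      rw [hs', Matrix.scalar_apply, ← Matrix.smul_eq_diagonal_mul] at hval
      have hs2 : s ^ 2 = 1 := by
        rw [hs', Matrix.scalar_apply, Matrix.det_diagonal, Fin.prod_univ_two] at hd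
        rw [sq]; exact hd
      have h0 : (s - 1) * (s + 1) = 0 := by ring_nf; rw [hs2]; ring
      rcases mul_eq_zero.mp h0 with h' | h'
      · left
        rw [hval, sub_eq_zero.mp h', one_smul]
      · right
        rw [hval, eq_neg_of_add_eq_zero_left h', neg_smul, one_smul]
    have hallscal : ∀ a : G, IsScal (r a).1 := by
      intro a
      by_contra hns
      -- the centraliser of `r a`
      set C : Subgroup G := (Subgroup.centralizer {r a}).comap r with hC
      have hmemC : ∀ b, b ∈ C ↔ (r a).1 * (r b).1 = (r b).1 * (r a).1 := by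
        intro b
        rw [hC, Subgroup.mem_comap, Subgroup.mem_centralizer_iff]
        constructor
        · intro hb
          have := hb (r a) rfl
          rw [← Units.val_mul, ← Units.val_mul, this]
        · intro hb g hg
          rw [Set.mem_singleton_iff] at hg
          rw [hg]
          exact Units.ext hb
      have hCirr : ∀ x : P1 k, ∃ b ∈ C, r b • x ≠ x := by
        by_cases hanti : ∃ b₀, (r a).1 * (r b₀).1 = -((r b₀).1 * (r a).1)
        · obtain ⟨b₀, hb₀⟩ := hanti
          have hidx : C.index = 2 := by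
            rw [Subgroup.index_eq_two_iff]
            refine ⟨b₀, fun b => ?_⟩
            have hprod : (r (b * b₀)).1 = (r b).1 * (r b₀).1 := by rw [map_mul, Units.val_mul]
            by_cases hb : b ∈ C
            · refine Or.inr ⟨hb, fun hc => ?_⟩
              rw [hmemC] at hb hc
              rw [hprod, ← Matrix.mul_assoc, hb, Matrix.mul_assoc, hb₀, Matrix.mul_neg,
                ← Matrix.mul_assoc] at hc
              -- `-(B B₀ A) = B B₀ A`
              have h2 : (2 : k) • ((r b).1 * (r b₀).1 * (r a).1) = 0 := by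
                rw [two_smul]
                nth_rewrite 1 [← hc]
                exact neg_add_cancel _
              have h3 : ((r b).1 * (r b₀).1 * (r a).1) = 0 :=
                (smul_eq_zero.mp h2).resolve_left (NeZero.ne _)
              have h4 : ((r b * r b₀ * r a : GL (Fin 2) k)).1 = 0 := by
                rw [Units.val_mul, Units.val_mul]; exact h3
              have h5 := (r b * r b₀ * r a).isUnit
              rw [h4] at h5
              exact not_isUnit_zero h5
            · refine Or.inl ⟨?_, hb⟩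
              rw [hmemC] at hb ⊢
              have hb' := (hcomm a b).resolve_left hb
              rw [hprod, ← Matrix.mul_assoc, hb', Matrix.neg_mul, Matrix.mul_assoc, hb₀,
                Matrix.mul_neg, neg_neg, Matrix.mul_assoc]
          exact h.irr2 C hidx
        · push Not at hanti
          intro x
          obtain ⟨b, hb⟩ := h.irr x
          refine ⟨b, ?_, hb⟩
          rw [hmemC]
          exact (hcomm a b).resolve_right (hanti b)
      -- `C` fixes an eigen-point of `r a`
      obtain ⟨x, hx⟩ := h.split a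
      induction x using Projectivization.ind with
      | h v hv =>
        obtain ⟨l, hl⟩ := exists_eigenvalue_of_fixed (r a) v hv hx
        set N := (r a).1 - l • (1 : Matrix (Fin 2) (Fin 2) k) with hN
        have hNv : N *ᵥ v = 0 := by
          rw [hN, Matrix.sub_mulVec, hl, Matrix.smul_mulVec, Matrix.one_mulVec, sub_self]
        have hN0 : N ≠ 0 := by
          intro h0
          apply hns
          exact isScal_of_eq_smul_one (r a) l (sub_eq_zero.mp h0)
        obtain ⟨b, hbC, hbx⟩ := hCirr (Projectivization.mk k v hv)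
        apply hbx
        rw [smul_mk_eq_iff]
        by_contra hc
        have hNb : N *ᵥ ((r b).1 *ᵥ v) = 0 := by
          have hcm : N * (r b).1 = (r b).1 * N := by
            rw [hN, sub_mul, mul_sub, (hmemC b).mp hbC, Matrix.smul_mul, Matrix.mul_smul,
              Matrix.one_mul, Matrix.mul_one]
          rw [Matrix.mulVec_mulVec, hcm, ← Matrix.mulVec_mulVec, hNv, Matrix.mulVec_zero]
        exact hN0 (eq_zero_of_mulVec_eq_zero N v _ hc hNv hNb)
    obtain ⟨g, hg⟩ := h.irr x₁
    exact hg ((isScal_iff_forall_smul (r g)).mp (hallscal g) x₁)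

end Clifford

section RegularExists

variable {r : G →* GL (Fin 2) k} [Fintype k]

/-- a subgroup of `SL₂(k)` (through `r`) which is irreducible contains a regular semisimple element. -/
theorem exists_regular (p : ℕ) [hp : Fact p.Prime] [CharP k p] (hp2 : p ≠ 2) (G' : Subgroup G)
    (hdet : ∀ g ∈ G', (r g).1.det = 1) (hirr : ∀ x : P1 k, ∃ g ∈ G', r g • x ≠ x) :
    ∃ g ∈ G', (r g).1.trace ^ 2 ≠ 4 * (r g).1.det := by
  classical
  by_contra hcon
  push Not at hcon
  have h2 : (2 : k) ≠ 0 := by
    intro h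
    have : ((2 : ℕ) : k) = 0 := by exact_mod_cast h
    rw [CharP.cast_eq_zero_iff k p] at this
    have := (Nat.prime_dvd_prime_iff_eq hp.out Nat.prime_two).mp this
    exact hp2 this
  -- `p`-th powers are scalar
  have hpow : ∀ g ∈ G', IsScal ((r g) ^ p).1 := by
    intro g hg
    have htr := hcon g hg
    have hd := hdet g hg
    rw [hd, mul_one] at htr
    set M := (r g).1 with hM
    set ε := M.trace / 2 with hε
    have hε2 : ε ^ 2 = 1 := by
      rw [hε, div_pow, htr]; field_simp; norm_num
    have htrε : M.trace = 2 * ε := by rw [hε]; field_simp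
    set N := ε • M - 1 with hN
    have hNN : N * N = 0 := by
      have hch := cayley_hamilton_two M
      rw [hd, htrε] at hch
      rw [hN, sub_mul, mul_sub, mul_sub, Matrix.smul_mul, Matrix.mul_smul, Matrix.mul_smul,
        Matrix.smul_mul, Matrix.one_mul, Matrix.mul_one, Matrix.mul_one, hch, smul_smul]
      have : ε * ε = 1 := by rw [← sq]; exact hε2
      rw [this]
      module
    have hMN : M = ε • (1 + N) := by
      rw [hN, smul_add, smul_sub, smul_smul]
      have : ε * ε = 1 := by rw [← sq]; exact hε2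
      rw [this, one_smul]; abel
    have hNp : N ^ p = 0 := by
      have : p = 2 + (p - 2) := by have := hp.out.two_le; omega
      rw [this, pow_add, sq, hNN, zero_mul]
    have h1Np : (1 + N) ^ p = 1 := by
      rw [add_pow_char_of_commute _ (Commute.one_left N), one_pow, hNp, add_zero]
    rw [Units.val_pow_eq_pow_val, ← hM, hMN, smul_pow, h1Np]
    exact isScal_smul_one _
  -- the image of `G'` in the permutations of the projective line
  set φ : G →* Equiv.Perm (P1 k) := (MulAction.toPermHom (GL (Fin 2) k) (P1 k)).comp r with hφ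
  set Δ : Subgroup (Equiv.Perm (P1 k)) := G'.map φ with hΔ
  have hΔp : IsPGroup p Δ := by
    rintro ⟨δ, hδ⟩
    obtain ⟨g, hg, rfl⟩ := hδ
    refine ⟨1, ?_⟩
    apply Subtype.ext
    rw [pow_one]
    show (φ g) ^ p = 1
    rw [← map_pow]
    ext x
    have hs := hpow g hg
    rw [← map_pow] at hs
    exact (isScal_iff_forall_smul _).mp hs x
  have hmod := hΔp.card_modEq_card_fixedPoints (P1 k)
  have hcardP : Nat.card (P1 k) = Nat.card k + 1 :=
    Projectivization.card_of_finrank_two k (Fin 2 → k) (by simp)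
  obtain ⟨n, hn⟩ := FiniteField.card k p
  have hck : Nat.card k = p ^ (n : ℕ) := by rw [Nat.card_eq_fintype_card]; exact hn.2
  have hne : Nat.card (fixedPoints Δ (P1 k)) ≠ 0 := by
    intro h0
    rw [h0, hcardP, hck] at hmod
    have h1 : p ∣ p ^ (n : ℕ) + 1 := (Nat.modEq_zero_iff_dvd).mp hmod
    have h2 : p ∣ p ^ (n : ℕ) := dvd_pow_self p n.ne_zero
    have h3 : p ∣ 1 := (Nat.dvd_add_right h2).mp h1
    exact hp.out.one_lt.ne' (Nat.dvd_one.mp h3)
  have hnonempty : Nonempty (fixedPoints Δ (P1 k)) := by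
    by_contra hemp
    rw [not_nonempty_iff] at hemp
    exact hne Nat.card_of_isEmpty
  obtain ⟨⟨x, hx⟩⟩ := hnonempty
  obtain ⟨g, hg, hgx⟩ := hirr x
  apply hgx
  have := hx ⟨φ g, Subgroup.mem_map_of_mem φ hg⟩
  exact this

end RegularExists

end Fermat.Agent.S56lib.TW
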