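/-
S56 marathon, TW/ (helper2).  File 19: **(Irr-alg)** for the flat local condition (helper3's Flat/
chain).  `r : G → GL₂(k)` irreducible over the finite field `k` of characteristic `p`, every `r g`
with split characteristic polynomial, `W ≤ I` normal subgroups of `G` with `r(W)` of `p`-power order
elements, `I / W` generated by `τ` of order prime to `p`, `G / I` generated by `φ`.  Then `r(W) = 1`,
`r τ` is diagonalisable with distinct eigenvalues, `r(I)` is diagonal and `r φ` is anti-diagonal in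
an eigenbasis of `r τ`, and `r(G)` is killed by `2 (|k| - 1)`.
-/
import Mathlib
import Fermat.Agent.S56lib.TW.Regular

set_option autoImplicit false
set_option linter.unusedSectionVars false
set_option linter.style.haveILetI false

namespace Fermat.Agent.S56lib.TW

open Matrix Polynomial

section Lemmas

variable {k : Type*} [Field k]

/-- an eigenvector from a root of the characteristic polynomial. -/
theorem exists_eigvec_of_charpoly (A : Matrix (Fin 2) (Fin 2) k) (α β : k)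
    (h : A.charpoly = (X - C α) * (X - C β)) :
    ∃ v : Fin 2 → k, v ≠ 0 ∧ A *ᵥ v = α • v := by
  classical
  have hdet : (Matrix.scalar (Fin 2) α - A).det = 0 := by
    rw [← Matrix.eval_charpoly, h]; simp
  obtain ⟨v, hv0, hv⟩ := Matrix.exists_mulVec_eq_zero_iff.2 hdet
  refine ⟨v, hv0, ?_⟩
  rw [Matrix.sub_mulVec, sub_eq_zero] at hv
  rw [← hv]
  funext i
  simp [Matrix.mulVec, dotProduct, Matrix.scalar_apply, Matrix.diagonal_apply]

/-- trace and determinant from a split characteristic polynomial. -/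
theorem trace_det_of_charpoly (A : Matrix (Fin 2) (Fin 2) k) (α β : k)
    (h : A.charpoly = (X - C α) * (X - C β)) : A.trace = α + β ∧ A.det = α * β := by
  have h2 := Matrix.charpoly_fin_two A
  rw [h] at h2
  have e0 := congrArg (eval 0) h2
  have e1 := congrArg (eval 1) h2
  simp only [eval_mul, eval_sub, eval_add, eval_pow, eval_X, eval_C] at e0 e1
  constructor
  · linear_combination e1 - e0
  · linear_combination -e0

/-- a `2×2` matrix with `N² = 0` satisfies `N X N = tr (X N) N`. -/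
theorem nilp_sandwich (N X : Matrix (Fin 2) (Fin 2) k) (htr : N.trace = 0) (hdet : N.det = 0) :
    N * X * N = (X * N).trace • N := by
  rw [Matrix.trace_fin_two] at htr
  rw [Matrix.det_fin_two] at hdet
  have h11 : N 1 1 = -N 0 0 := eq_neg_of_add_eq_zero_right htr
  rw [h11] at hdet
  ext i j
  fin_cases i <;> fin_cases j <;>
    simp only [Matrix.mul_apply, Fin.sum_univ_two, Matrix.trace_fin_two, Matrix.smul_apply,
      smul_eq_mul, Fin.zero_eta, Fin.mk_one, h11]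
  · linear_combination -X 1 1 * hdet
  · linear_combination X 0 1 * hdet
  · linear_combination X 1 0 * hdet
  · linear_combination -X 0 0 * hdet

/-- trace-zero, determinant-zero `2×2` matrices square to zero. -/
theorem nilp_sq (N : Matrix (Fin 2) (Fin 2) k) (htr : N.trace = 0) (hdet : N.det = 0) :
    N * N = 0 := by
  rw [cayley_hamilton_two, htr, hdet, zero_smul, zero_smul, sub_zero]

/-- elements of `p`-power order are unipotent. -/
theorem unipotent_of_pow (p : ℕ) [hp : Fact p.Prime] [CharP k p] (A : Matrix (Fin 2) (Fin 2) k)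
    (n : ℕ) (h : A ^ p ^ n = 1) : (A - 1).trace = 0 ∧ (A - 1).det = 0 := by
  have hnil : (A - 1) ^ p ^ n = 0 := by
    rw [sub_pow_char_pow_of_commute p n (Commute.one_right A), h, one_pow, sub_self]
  constructor
  · exact (Matrix.isNilpotent_trace_of_isNilpotent ⟨_, hnil⟩).eq_zero
  · have h1 := congrArg Matrix.det hnil
    rw [Matrix.det_pow, Matrix.det_zero] at h1
    exact (pow_eq_zero_iff (pow_pos hp.out.pos n).ne').mp h1

/-- **Kolchin for `2×2` matrices**: a multiplicatively closed set of unipotent matrices has a common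
fixed vector. -/
theorem exists_common_fixed (S : Set (Matrix (Fin 2) (Fin 2) k))
    (hmul : ∀ A ∈ S, ∀ B ∈ S, A * B ∈ S)
    (huni : ∀ A ∈ S, (A - 1).trace = 0 ∧ (A - 1).det = 0) :
    ∃ v : Fin 2 → k, v ≠ 0 ∧ ∀ A ∈ S, A *ᵥ v = v := by
  by_cases hall : ∀ A ∈ S, A = 1
  · exact ⟨e1, e1_ne_zero, fun A hA => by rw [hall A hA, Matrix.one_mulVec]⟩
  push Not at hall
  obtain ⟨B, hB, hB1⟩ := hall
  set N₀ := B - 1 with hN₀
  have hN₀0 : N₀ ≠ 0 := fun h => hB1 (sub_eq_zero.mp h)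
  obtain ⟨htr₀, hdet₀⟩ := huni B hB
  have hsq₀ : N₀ * N₀ = 0 := nilp_sq N₀ htr₀ hdet₀
  obtain ⟨u, hu⟩ := exists_mulVec_ne_zero N₀ hN₀0
  set v₀ := N₀ *ᵥ u with hv₀
  have hN₀v₀ : N₀ *ᵥ v₀ = 0 := by rw [hv₀, Matrix.mulVec_mulVec, hsq₀, Matrix.zero_mulVec]
  refine ⟨v₀, hu, fun A hA => ?_⟩
  set N := A - 1 with hN
  obtain ⟨htr, hdet⟩ := huni A hA
  have hsq : N * N = 0 := nilp_sq N htr hdet
  have hAB := (huni (A * B) (hmul A hA B hB)).1
  have hexp : A * B - 1 = N + N₀ + N * N₀ := by rw [hN, hN₀]; noncomm_ring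
  rw [hexp, Matrix.trace_add, Matrix.trace_add, htr, htr₀, zero_add, zero_add] at hAB
  have hsand : N₀ * N * N₀ = 0 := by rw [nilp_sandwich N₀ N htr₀ hdet₀, hAB, zero_smul]
  set x := N *ᵥ v₀ with hx
  have hN₀x : N₀ *ᵥ x = 0 := by
    rw [hx, hv₀, Matrix.mulVec_mulVec, Matrix.mulVec_mulVec, hsand, Matrix.zero_mulVec]
  have hx0 : x = 0 := by
    by_contra hxne
    have hcr : cross v₀ x = 0 := by
      by_contra hc
      exact hN₀0 (eq_zero_of_mulVec_eq_zero N₀ v₀ x hc hN₀v₀ hN₀x)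
    have hsame := mk_eq_of_cross v₀ x hu hxne hcr
    rw [Projectivization.mk_eq_mk_iff'] at hsame
    obtain ⟨a, ha⟩ := hsame
    apply hxne
    have : N *ᵥ x = 0 := by rw [hx, Matrix.mulVec_mulVec, hsq, Matrix.zero_mulVec]
    rw [hx, ← ha, Matrix.mulVec_smul, this, smul_zero]
  have : A = N + 1 := by rw [hN]; abel
  rw [this, Matrix.add_mulVec, Matrix.one_mulVec, ← hx, hx0, zero_add]

/-- powers of `a + N` with `N² = 0`. -/
theorem pow_scalar_add_nilp (N : Matrix (Fin 2) (Fin 2) k) (hsq : N * N = 0) (a : k) (j : ℕ) :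
    ∃ c : k, (a • (1 : Matrix (Fin 2) (Fin 2) k) + N) ^ j = a ^ j • 1 + c • N ∧
      c * a = j * a ^ j := by
  induction j with
  | zero => exact ⟨0, by simp, by simp⟩
  | succ j ih =>
    obtain ⟨c, hc, hca⟩ := ih
    refine ⟨a ^ j + c * a, ?_, ?_⟩
    · rw [pow_succ, hc]
      have h1 : (a ^ j • (1 : Matrix (Fin 2) (Fin 2) k) + c • N) * (a • 1 + N) =
          (a ^ j * a) • (1 : Matrix (Fin 2) (Fin 2) k) + (a ^ j + c * a) • N + c • (N * N) := by
        simp only [add_mul, mul_add, Matrix.smul_mul, Matrix.mul_smul, Matrix.one_mul,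
          Matrix.mul_one, smul_smul, add_smul]
        rw [mul_comm a (a ^ j), mul_comm a c]
        abel
      rw [h1, hsq, smul_zero, add_zero, pow_succ]
    · push_cast
      rw [add_mul, hca, pow_succ]
      ring

/-- a matrix of order prime to the characteristic with a double eigenvalue is scalar. -/
theorem eq_scalar_of_pow_eq_one (h2 : (2 : k) ≠ 0) (A : Matrix (Fin 2) (Fin 2) k) (α : k)
    (htr : A.trace = 2 * α) (hdet : A.det = α * α) (e : ℕ) (he : (e : k) ≠ 0) (hA : A ^ e = 1) :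
    A = α • (1 : Matrix (Fin 2) (Fin 2) k) := by
  set N := A - α • (1 : Matrix (Fin 2) (Fin 2) k) with hN
  have hNtr : N.trace = 0 := by
    rw [hN, Matrix.trace_sub, Matrix.trace_smul, Matrix.trace_one, htr, Fintype.card_fin]
    simp only [smul_eq_mul]
    push_cast
    ring
  have hNdet : N.det = 0 := by
    rw [Matrix.trace_fin_two] at htr
    rw [Matrix.det_fin_two] at hdet
    rw [hN, Matrix.det_fin_two]
    simp only [Matrix.sub_apply, Matrix.smul_apply, Matrix.one_apply_eq, smul_eq_mul, mul_one,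
      Matrix.one_apply_ne (show (0 : Fin 2) ≠ 1 by decide),
      Matrix.one_apply_ne (show (1 : Fin 2) ≠ 0 by decide), mul_zero, sub_zero]
    linear_combination hdet - α * htr
  have hsq : N * N = 0 := nilp_sq N hNtr hNdet
  have hAN : A = α • (1 : Matrix (Fin 2) (Fin 2) k) + N := by rw [hN]; abel
  obtain ⟨c, hc, hca⟩ := pow_scalar_add_nilp N hsq α e
  rw [← hAN, hA] at hc
  have hα0 : α ≠ 0 := by
    rintro rfl
    have h0 : (A ^ e).det = 1 := by rw [hA, Matrix.det_one]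
    rw [Matrix.det_pow, hdet, mul_zero, zero_pow] at h0
    · exact zero_ne_one h0
    · rintro rfl
      exact he Nat.cast_zero
  have hαe : α ^ e = 1 := by
    have h1 := congrArg Matrix.trace hc
    rw [Matrix.trace_add, Matrix.trace_smul, Matrix.trace_smul, hNtr, Matrix.trace_one,
      Fintype.card_fin] at h1
    simp only [smul_eq_mul, mul_zero, add_zero] at h1
    push_cast at h1
    have : (2 : k) * (α ^ e - 1) = 0 := by linear_combination -h1
    rcases mul_eq_zero.mp this with h | h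
    · exact absurd h h2
    · exact sub_eq_zero.mp h
  have hc0 : c ≠ 0 := by
    rintro rfl
    rw [zero_mul, hαe, mul_one] at hca
    exact he hca.symm
  have hN0 : c • N = 0 := by
    rw [hαe, one_smul] at hc
    exact (add_eq_left.mp hc.symm)
  rcases smul_eq_zero.mp hN0 with h | h
  · exact absurd h hc0
  · rw [hAN, h, add_zero]

/-- eigenvectors for distinct eigenvalues are independent. -/
theorem cross_ne_zero_of_eigen (A : Matrix (Fin 2) (Fin 2) k) (v w : Fin 2 → k) (a b : k)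
    (hv : v ≠ 0) (hw : w ≠ 0) (hav : A *ᵥ v = a • v) (hbw : A *ᵥ w = b • w) (hab : a ≠ b) :
    cross v w ≠ 0 := by
  intro hc
  have hsame := mk_eq_of_cross v w hv hw hc
  rw [Projectivization.mk_eq_mk_iff'] at hsame
  obtain ⟨c, hcw⟩ := hsame
  have h1 : A *ᵥ v = b • v := by rw [← hcw, Matrix.mulVec_smul, hbw, smul_comm]
  rw [hav] at h1
  have h2 : (a - b) • v = 0 := by rw [sub_smul, h1, sub_self]
  rcases smul_eq_zero.mp h2 with h3 | h3
  · exact hab (sub_eq_zero.mp h3)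
  · exact hv h3

/-- the eigenvectors of a matrix which is diagonal with distinct eigenvalues in the basis
`(vα, vβ)`. -/
theorem cross_eq_zero_of_eigen (A' : Matrix (Fin 2) (Fin 2) k) (vα vβ : Fin 2 → k) (a' b' : k)
    (hd : cross vα vβ ≠ 0) (hα : A' *ᵥ vα = a' • vα) (hβ : A' *ᵥ vβ = b' • vβ) (hab : a' ≠ b')
    (y : Fin 2 → k) (c : k) (hy : A' *ᵥ y = c • y) : cross y vα = 0 ∨ cross y vβ = 0 := by
  have htr : A'.trace = a' + b' := by
    have h1 := cross_trace A' vα vβ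
    rw [hα, hβ, cross_smul_left, cross_smul_right] at h1
    have : (A'.trace - (a' + b')) * cross vα vβ = 0 := by linear_combination -h1
    rcases mul_eq_zero.mp this with h | h
    · exact sub_eq_zero.mp h
    · exact absurd h hd
  have h1 := cross_trace A' y vβ
  rw [hy, hβ, cross_smul_left, cross_smul_right, htr] at h1
  have h2 := cross_trace A' y vα
  rw [hy, hα, cross_smul_left, cross_smul_right, htr] at h2
  by_contra hcon
  push Not at hcon
  obtain ⟨hya, hyb⟩ := hcon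
  have e1 : c = a' := by
    have : (c - a') * cross y vβ = 0 := by linear_combination h1
    rcases mul_eq_zero.mp this with h | h
    · exact sub_eq_zero.mp h
    · exact absurd h hyb
  have e2 : c = b' := by
    have : (c - b') * cross y vα = 0 := by linear_combination h2
    rcases mul_eq_zero.mp this with h | h
    · exact sub_eq_zero.mp h
    · exact absurd h hya
  exact hab (e1.symm.trans e2)

/-- powers act on eigenvectors by powers of the eigenvalue. -/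
theorem pow_mulVec_eigen (A : Matrix (Fin 2) (Fin 2) k) (v : Fin 2 → k) (a : k)
    (h : A *ᵥ v = a • v) (j : ℕ) : (A ^ j) *ᵥ v = a ^ j • v := by
  induction j with
  | zero => simp
  | succ j ih =>
    rw [pow_succ, ← Matrix.mulVec_mulVec, h, Matrix.mulVec_smul, ih, smul_smul, pow_succ, mul_comm]

end Lemmas

section EigenBasis

variable {k : Type*} [Field k]

/-- the matrix whose columns are `vα`, `vβ`. -/
def eigQ (vα vβ : Fin 2 → k) : Matrix (Fin 2) (Fin 2) k := !![vα 0, vβ 0; vα 1, vβ 1]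

/-- the inverse of `eigQ`. -/
noncomputable def eigP (vα vβ : Fin 2 → k) : Matrix (Fin 2) (Fin 2) k :=
  (cross vα vβ)⁻¹ • !![vβ 1, -vβ 0; -vα 1, vα 0]

theorem eigQ_entries (vα vβ : Fin 2 → k) :
    eigQ vα vβ 0 0 = vα 0 ∧ eigQ vα vβ 0 1 = vβ 0 ∧ eigQ vα vβ 1 0 = vα 1 ∧
      eigQ vα vβ 1 1 = vβ 1 := ⟨rfl, rfl, rfl, rfl⟩

theorem eigP_entries (vα vβ : Fin 2 → k) :
    eigP vα vβ 0 0 = (cross vα vβ)⁻¹ * vβ 1 ∧ eigP vα vβ 0 1 = (cross vα vβ)⁻¹ * -vβ 0 ∧
      eigP vα vβ 1 0 = (cross vα vβ)⁻¹ * -vα 1 ∧ eigP vα vβ 1 1 = (cross vα vβ)⁻¹ * vα 0 :=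
  ⟨rfl, rfl, rfl, rfl⟩

theorem eigP_mul_eigQ (vα vβ : Fin 2 → k) (hd : cross vα vβ ≠ 0) :
    eigP vα vβ * eigQ vα vβ = 1 := by
  obtain ⟨q00, q01, q10, q11⟩ := eigQ_entries vα vβ
  obtain ⟨p00, p01, p10, p11⟩ := eigP_entries vα vβ
  have hd' : vα 0 * vβ 1 - vα 1 * vβ 0 ≠ 0 := hd
  ext i j
  fin_cases i <;> fin_cases j <;>
    simp only [Matrix.mul_apply, Fin.sum_univ_two, Fin.zero_eta, Fin.mk_one, q00, q01, q10, q11,
      p00, p01, p10, p11, cross, Matrix.one_apply_eq, ne_eq, zero_ne_one, one_ne_zero,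
      not_false_eq_true, Matrix.one_apply_ne] <;>
    field_simp <;> ring

theorem eigP_inv (vα vβ : Fin 2 → k) (hd : cross vα vβ ≠ 0) :
    (eigP vα vβ)⁻¹ = eigQ vα vβ :=
  Matrix.inv_eq_right_inv (eigP_mul_eigQ vα vβ hd)

theorem isUnit_eigP (vα vβ : Fin 2 → k) (hd : cross vα vβ ≠ 0) : IsUnit (eigP vα vβ) :=
  IsUnit.of_mul_eq_one _ (eigP_mul_eigQ vα vβ hd)

/-- the entries of a matrix in the basis `(vα, vβ)`. -/
theorem eigP_conj_entries (vα vβ : Fin 2 → k) (hd : cross vα vβ ≠ 0)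
    (Y : Matrix (Fin 2) (Fin 2) k) :
    (eigP vα vβ * Y * eigQ vα vβ) 0 0 = cross (Y *ᵥ vα) vβ / cross vα vβ ∧
    (eigP vα vβ * Y * eigQ vα vβ) 1 0 = cross vα (Y *ᵥ vα) / cross vα vβ ∧
    (eigP vα vβ * Y * eigQ vα vβ) 0 1 = cross (Y *ᵥ vβ) vβ / cross vα vβ ∧
    (eigP vα vβ * Y * eigQ vα vβ) 1 1 = cross vα (Y *ᵥ vβ) / cross vα vβ := by
  obtain ⟨q00, q01, q10, q11⟩ := eigQ_entries vα vβ
  obtain ⟨p00, p01, p10, p11⟩ := eigP_entries vα vβ
  have hd' : vα 0 * vβ 1 - vα 1 * vβ 0 ≠ 0 := hd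
  refine ⟨?_, ?_, ?_, ?_⟩ <;>
    simp only [Matrix.mul_apply, Fin.sum_univ_two, q00, q01, q10, q11, p00, p01, p10, p11, cross,
      mulVec_zero', mulVec_one'] <;>
    field_simp <;> ring

end EigenBasis

section DiagAnti

variable {k : Type*} [Field k] (vα vβ : Fin 2 → k)

/-- diagonal in the basis `(vα, vβ)`. -/
def DiagV (Y : Matrix (Fin 2) (Fin 2) k) : Prop :=
  ∃ a b : k, Y *ᵥ vα = a • vα ∧ Y *ᵥ vβ = b • vβ

/-- anti-diagonal in the basis `(vα, vβ)`. -/
def AntiV (Y : Matrix (Fin 2) (Fin 2) k) : Prop :=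
  ∃ a b : k, Y *ᵥ vα = a • vβ ∧ Y *ᵥ vβ = b • vα

variable {vα vβ}

theorem diagAnti_mul {Y Z : Matrix (Fin 2) (Fin 2) k} (hY : DiagV vα vβ Y ∨ AntiV vα vβ Y)
    (hZ : DiagV vα vβ Z ∨ AntiV vα vβ Z) : DiagV vα vβ (Y * Z) ∨ AntiV vα vβ (Y * Z) := by
  rcases hY with ⟨a, b, ha, hb⟩ | ⟨a, b, ha, hb⟩ <;> rcases hZ with ⟨c, d, hc, hd⟩ | ⟨c, d, hc, hd⟩
  · exact Or.inl ⟨c * a, d * b, by rw [← Matrix.mulVec_mulVec, hc, Matrix.mulVec_smul, ha, smul_smul],
      by rw [← Matrix.mulVec_mulVec, hd, Matrix.mulVec_smul, hb, smul_smul]⟩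
  · exact Or.inr ⟨c * b, d * a, by rw [← Matrix.mulVec_mulVec, hc, Matrix.mulVec_smul, hb, smul_smul],
      by rw [← Matrix.mulVec_mulVec, hd, Matrix.mulVec_smul, ha, smul_smul]⟩
  · exact Or.inr ⟨c * a, d * b, by rw [← Matrix.mulVec_mulVec, hc, Matrix.mulVec_smul, ha, smul_smul],
      by rw [← Matrix.mulVec_mulVec, hd, Matrix.mulVec_smul, hb, smul_smul]⟩
  · exact Or.inl ⟨c * b, d * a, by rw [← Matrix.mulVec_mulVec, hc, Matrix.mulVec_smul, hb, smul_smul],
      by rw [← Matrix.mulVec_mulVec, hd, Matrix.mulVec_smul, ha, smul_smul]⟩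

theorem diagAnti_pow {Y : Matrix (Fin 2) (Fin 2) k} (hY : DiagV vα vβ Y ∨ AntiV vα vβ Y) (m : ℕ) :
    DiagV vα vβ (Y ^ m) ∨ AntiV vα vβ (Y ^ m) := by
  induction m with
  | zero => exact Or.inl ⟨1, 1, by simp, by simp⟩
  | succ m ih => rw [pow_succ]; exact diagAnti_mul ih hY

/-- an invertible matrix which is diagonal or anti-diagonal in some basis is killed by
`2 (|k| - 1)`. -/
theorem pow_eq_one_of_diagAnti [Fintype k] (hd : cross vα vβ ≠ 0) {Y : Matrix (Fin 2) (Fin 2) k}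
    (hY : DiagV vα vβ Y ∨ AntiV vα vβ Y) (Z : Matrix (Fin 2) (Fin 2) k) (hZ : Z * Y = 1) :
    Y ^ (2 * (Fintype.card k - 1)) = 1 := by
  have hvα : vα ≠ 0 := by
    rintro rfl
    exact hd (cross_zero_left vβ)
  have hvβ : vβ ≠ 0 := by
    rintro rfl
    exact hd (cross_zero_right vα)
  have hinj : ∀ v : Fin 2 → k, Y *ᵥ v = 0 → v = 0 := fun v hv => by
    have h1 : Z *ᵥ (Y *ᵥ v) = 0 := by rw [hv, Matrix.mulVec_zero]
    rwa [Matrix.mulVec_mulVec, hZ, Matrix.one_mulVec] at h1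
  -- the square is diagonal with non-zero entries
  have hsq : ∃ a b : k, a ≠ 0 ∧ b ≠ 0 ∧ (Y * Y) *ᵥ vα = a • vα ∧ (Y * Y) *ᵥ vβ = b • vβ := by
    rcases hY with ⟨a, b, ha, hb⟩ | ⟨a, b, ha, hb⟩
    · have ha0 : a ≠ 0 := by
        rintro rfl
        rw [zero_smul] at ha
        exact hvα (hinj _ ha)
      have hb0 : b ≠ 0 := by
        rintro rfl
        rw [zero_smul] at hb
        exact hvβ (hinj _ hb)
      exact ⟨a * a, b * b, mul_ne_zero ha0 ha0, mul_ne_zero hb0 hb0,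
        by rw [← Matrix.mulVec_mulVec, ha, Matrix.mulVec_smul, ha, smul_smul],
        by rw [← Matrix.mulVec_mulVec, hb, Matrix.mulVec_smul, hb, smul_smul]⟩
    · have ha0 : a ≠ 0 := by
        rintro rfl
        rw [zero_smul] at ha
        exact hvα (hinj _ ha)
      have hb0 : b ≠ 0 := by
        rintro rfl
        rw [zero_smul] at hb
        exact hvβ (hinj _ hb)
      exact ⟨a * b, b * a, mul_ne_zero ha0 hb0, mul_ne_zero hb0 ha0,
        by rw [← Matrix.mulVec_mulVec, ha, Matrix.mulVec_smul, hb, smul_smul],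
        by rw [← Matrix.mulVec_mulVec, hb, Matrix.mulVec_smul, ha, smul_smul]⟩
  obtain ⟨a, b, ha0, hb0, ha, hb⟩ := hsq
  rw [pow_mul, pow_two]
  have h1 := pow_mulVec_eigen (Y * Y) vα a ha (Fintype.card k - 1)
  have h2 := pow_mulVec_eigen (Y * Y) vβ b hb (Fintype.card k - 1)
  rw [FiniteField.pow_card_sub_one_eq_one a ha0, one_smul] at h1
  rw [FiniteField.pow_card_sub_one_eq_one b hb0, one_smul] at h2
  have h3 : (Y * Y) ^ (Fintype.card k - 1) - 1 = 0 := by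
    refine eq_zero_of_mulVec_eq_zero _ vα vβ hd ?_ ?_
    · rw [Matrix.sub_mulVec, h1, Matrix.one_mulVec, sub_self]
    · rw [Matrix.sub_mulVec, h2, Matrix.one_mulVec, sub_self]
  exact sub_eq_zero.mp h3

end DiagAnti

section Main

variable {G : Type*} [Group G] {k : Type*} [Field k] [Finite k]

/-- **(Irr-alg)**: the shape of an irreducible `r : G → GL₂(k)` on a group `G` with a "tame–wild"
filtration `W ≤ I ≤ G`. -/
theorem irr_alg (p : ℕ) [hp : Fact p.Prime] [CharP k p] (hp2 : p ≠ 2)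
    (r : G →* Matrix (Fin 2) (Fin 2) k)
    (hsplit : ∀ g, ∃ α β : k, (r g).charpoly = (X - C α) * (X - C β))
    (hirr : ∀ v : Fin 2 → k, v ≠ 0 → ∃ g, ∀ c : k, r g *ᵥ v ≠ c • v)
    (W I : Subgroup G) [hWn : W.Normal] [hIn : I.Normal] (hWI : W ≤ I)
    (hW : ∀ w ∈ W, ∃ n : ℕ, r w ^ (p ^ n) = 1)
    (τ φ : G) (hτ : τ ∈ I) (hτe : ∃ e : ℕ, ¬ p ∣ e ∧ τ ^ e ∈ W)
    (hI : ∀ g ∈ I, ∃ j : ℕ, g * (τ ^ j)⁻¹ ∈ W)
    (hφ : ∀ g, ∃ j : ℕ, g * (φ ^ j)⁻¹ ∈ I) :
    (∀ w ∈ W, r w = 1) ∧ ∃ P : Matrix (Fin 2) (Fin 2) k, IsUnit P ∧ ∃ α β : k, α ≠ β ∧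
      P * r τ * P⁻¹ = Matrix.diagonal ![α, β] ∧
      (∀ g ∈ I, (P * r g * P⁻¹) 0 1 = 0 ∧ (P * r g * P⁻¹) 1 0 = 0) ∧
      (P * r φ * P⁻¹) 0 0 = 0 ∧ (P * r φ * P⁻¹) 1 1 = 0 ∧
      ∀ g, r g ^ (2 * (Nat.card k - 1)) = 1 := by
  classical
  cases nonempty_fintype k
  have h2 : (2 : k) ≠ 0 := by
    intro h
    have h' : ((2 : ℕ) : k) = 0 := by exact_mod_cast h
    rw [CharP.cast_eq_zero_iff k p] at h'
    exact hp2 ((Nat.prime_dvd_prime_iff_eq hp.out Nat.prime_two).mp h')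
  have hinvl : ∀ g, r g⁻¹ * r g = 1 := fun g => by rw [← map_mul, inv_mul_cancel, map_one]
  have hne0 : ∀ g (v : Fin 2 → k), v ≠ 0 → r g *ᵥ v ≠ 0 := fun g v hv h0 => by
    apply hv
    have h1 : r g⁻¹ *ᵥ (r g *ᵥ v) = 0 := by rw [h0, Matrix.mulVec_zero]
    rwa [Matrix.mulVec_mulVec, hinvl, Matrix.one_mulVec] at h1
  -- Step A: the wild part acts trivially
  have hW1 : ∀ w ∈ W, r w = 1 := by
    obtain ⟨v₀, hv₀, hfix⟩ := exists_common_fixed {A | ∃ w ∈ W, r w = A}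
      (by
        rintro A ⟨w, hw, rfl⟩ B ⟨w', hw', rfl⟩
        exact ⟨w * w', W.mul_mem hw hw', map_mul r w w'⟩)
      (by
        rintro A ⟨w, hw, rfl⟩
        obtain ⟨n, hn⟩ := hW w hw
        exact unipotent_of_pow p (r w) n hn)
    obtain ⟨g, hg⟩ := hirr v₀ hv₀
    set v₁ := r g *ᵥ v₀ with hv₁
    have hv₁0 : v₁ ≠ 0 := hne0 g v₀ hv₀
    have hfix₁ : ∀ w ∈ W, r w *ᵥ v₁ = v₁ := by
      intro w hw
      have hconj : g⁻¹ * w * g ∈ W := by
        have := hWn.conj_mem w hw g⁻¹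
        rwa [inv_inv] at this
      have h1 : r w * r g = r g * r (g⁻¹ * w * g) := by
        rw [← map_mul, ← map_mul]
        congr 1
        group
      rw [hv₁, Matrix.mulVec_mulVec, h1, ← Matrix.mulVec_mulVec, hfix _ ⟨_, hconj, rfl⟩]
    have hcr : cross v₁ v₀ ≠ 0 := by
      intro hc
      have hsame := mk_eq_of_cross v₁ v₀ hv₁0 hv₀ hc
      rw [Projectivization.mk_eq_mk_iff'] at hsame
      obtain ⟨a, ha⟩ := hsame
      exact hg a ha.symm
    intro w hw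
    have h3 : r w - 1 = 0 := by
      refine eq_zero_of_mulVec_eq_zero _ v₁ v₀ hcr ?_ ?_
      · rw [Matrix.sub_mulVec, hfix₁ w hw, Matrix.one_mulVec, sub_self]
      · rw [Matrix.sub_mulVec, hfix _ ⟨w, hw, rfl⟩, Matrix.one_mulVec, sub_self]
    exact sub_eq_zero.mp h3
  refine ⟨hW1, ?_⟩
  -- Step B: the inertia acts through powers of `r τ`
  set A := r τ with hA
  set Φ := r φ with hΦ
  have hIpow : ∀ g ∈ I, ∃ j : ℕ, r g = A ^ j := by
    intro g hg
    obtain ⟨j, hj⟩ := hI g hg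
    refine ⟨j, ?_⟩
    have h1 : r g = r (g * (τ ^ j)⁻¹) * r (τ ^ j) := by
      rw [← map_mul]
      congr 1
      group
    rw [h1, hW1 _ hj, one_mul, map_pow]
  -- Step D: no common eigenvector of `r τ` and `r φ`
  have hcommon : ∀ v : Fin 2 → k, v ≠ 0 → (∃ a : k, A *ᵥ v = a • v) →
      (∃ l : k, Φ *ᵥ v = l • v) → False := by
    rintro v hv ⟨a, ha⟩ ⟨l, hl⟩
    obtain ⟨g, hg⟩ := hirr v hv
    obtain ⟨m, hm⟩ := hφ g
    obtain ⟨j, hj⟩ := hIpow _ hm
    have h1 : r g = r (g * (φ ^ m)⁻¹) * Φ ^ m := by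
      rw [hΦ, ← map_pow, ← map_mul]
      congr 1
      group
    apply hg (l ^ m * a ^ j)
    rw [h1, hj, ← Matrix.mulVec_mulVec, pow_mulVec_eigen Φ v l hl m, Matrix.mulVec_smul,
      pow_mulVec_eigen A v a ha j, smul_smul]
  -- Step E: `r τ` is not scalar
  have hAns : ∀ a : k, A ≠ a • (1 : Matrix (Fin 2) (Fin 2) k) := by
    intro a hAa
    obtain ⟨α', β', hch'⟩ := hsplit φ
    obtain ⟨v, hv, hv'⟩ := exists_eigvec_of_charpoly Φ α' β' hch'
    exact hcommon v hv ⟨a, by rw [hAa, Matrix.smul_mulVec, Matrix.one_mulVec]⟩ ⟨α', hv'⟩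
  -- Step F: distinct eigenvalues
  obtain ⟨α, β, hch⟩ := hsplit τ
  obtain ⟨htrA, hdetA⟩ := trace_det_of_charpoly A α β hch
  obtain ⟨e, hpe, hτe'⟩ := hτe
  have hAe : A ^ e = 1 := by rw [hA, ← map_pow]; exact hW1 _ hτe'
  have he : (e : k) ≠ 0 := by
    rw [Ne, CharP.cast_eq_zero_iff k p]; exact hpe
  have hαβ : α ≠ β := by
    rintro rfl
    exact hAns α (eq_scalar_of_pow_eq_one h2 A α (by rw [htrA]; ring) hdetA e he hAe)
  obtain ⟨vα, hvα0, hvα⟩ := exists_eigvec_of_charpoly A α β hch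
  obtain ⟨vβ, hvβ0, hvβ⟩ := exists_eigvec_of_charpoly A β α (by rw [hch, mul_comm])
  have hd : cross vα vβ ≠ 0 := cross_ne_zero_of_eigen A vα vβ α β hvα0 hvβ0 hvα hvβ hαβ
  -- Step H: `r φ` exchanges the eigenlines
  have hconjI : φ * τ * φ⁻¹ ∈ I := hIn.conj_mem τ hτ φ
  obtain ⟨j, hj⟩ := hIpow _ hconjI
  set A' := A ^ j with hA'
  have hA'Φ : A' * Φ = Φ * A := by
    rw [← hj, map_mul, map_mul, mul_assoc, hinvl φ, mul_one]
  have hA'α : A' *ᵥ vα = α ^ j • vα := pow_mulVec_eigen A vα α hvα j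
  have hA'β : A' *ᵥ vβ = β ^ j • vβ := pow_mulVec_eigen A vβ β hvβ j
  have hab' : α ^ j ≠ β ^ j := by
    intro hab
    have h3 : A' - (α ^ j) • (1 : Matrix (Fin 2) (Fin 2) k) = 0 := by
      refine eq_zero_of_mulVec_eq_zero _ vα vβ hd ?_ ?_
      · rw [Matrix.sub_mulVec, hA'α, Matrix.smul_mulVec, Matrix.one_mulVec, sub_self]
      · rw [Matrix.sub_mulVec, hA'β, hab, Matrix.smul_mulVec, Matrix.one_mulVec, sub_self]
    have hA's : A' = (α ^ j) • (1 : Matrix (Fin 2) (Fin 2) k) := sub_eq_zero.mp h3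
    apply hAns (α ^ j)
    have h4 : A = r φ⁻¹ * (A' * Φ) := by rw [hA'Φ, ← mul_assoc, hinvl, one_mul]
    rw [h4, hA's, Matrix.smul_mul, Matrix.one_mul, Matrix.mul_smul, hinvl]
  have hy : A' *ᵥ (Φ *ᵥ vα) = α • (Φ *ᵥ vα) := by
    rw [Matrix.mulVec_mulVec, hA'Φ, ← Matrix.mulVec_mulVec, hvα, Matrix.mulVec_smul]
  have hz : A' *ᵥ (Φ *ᵥ vβ) = β • (Φ *ᵥ vβ) := by
    rw [Matrix.mulVec_mulVec, hA'Φ, ← Matrix.mulVec_mulVec, hvβ, Matrix.mulVec_smul]
  have hΦα : cross (Φ *ᵥ vα) vβ = 0 := by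
    rcases cross_eq_zero_of_eigen A' vα vβ _ _ hd hA'α hA'β hab' _ α hy with h | h
    · exfalso
      have hsame := mk_eq_of_cross (Φ *ᵥ vα) vα (hne0 φ vα hvα0) hvα0 h
      rw [Projectivization.mk_eq_mk_iff'] at hsame
      obtain ⟨l, hl⟩ := hsame
      exact hcommon vα hvα0 ⟨α, hvα⟩ ⟨l, hl.symm⟩
    · exact h
  have hΦβ : cross (Φ *ᵥ vβ) vα = 0 := by
    rcases cross_eq_zero_of_eigen A' vα vβ _ _ hd hA'α hA'β hab' _ β hz with h | h
    · exact h
    · exfalso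
      have hsame := mk_eq_of_cross (Φ *ᵥ vβ) vβ (hne0 φ vβ hvβ0) hvβ0 h
      rw [Projectivization.mk_eq_mk_iff'] at hsame
      obtain ⟨l, hl⟩ := hsame
      exact hcommon vβ hvβ0 ⟨β, hvβ⟩ ⟨l, hl.symm⟩
  have hΦanti : AntiV vα vβ Φ := by
    have h1 := mk_eq_of_cross (Φ *ᵥ vα) vβ (hne0 φ vα hvα0) hvβ0 hΦα
    have h2 := mk_eq_of_cross (Φ *ᵥ vβ) vα (hne0 φ vβ hvβ0) hvα0 hΦβ
    rw [Projectivization.mk_eq_mk_iff'] at h1 h2
    obtain ⟨s, hs⟩ := h1
    obtain ⟨t, ht⟩ := h2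
    exact ⟨s, t, hs.symm, ht.symm⟩
  have hIdiag : ∀ g ∈ I, DiagV vα vβ (r g) := by
    intro g hg
    obtain ⟨i, hi⟩ := hIpow g hg
    exact ⟨α ^ i, β ^ i, by rw [hi]; exact pow_mulVec_eigen A vα α hvα i,
      by rw [hi]; exact pow_mulVec_eigen A vβ β hvβ i⟩
  -- Step I: conclusions
  refine ⟨eigP vα vβ, isUnit_eigP vα vβ hd, α, β, hαβ, ?_, ?_, ?_, ?_, ?_⟩
  · rw [eigP_inv vα vβ hd]
    obtain ⟨e00, e10, e01, e11⟩ := eigP_conj_entries vα vβ hd A
    ext a b
    fin_cases a <;> fin_cases b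
    · show (eigP vα vβ * A * eigQ vα vβ) 0 0 = Matrix.diagonal ![α, β] 0 0
      rw [e00, hvα, cross_smul_left, Matrix.diagonal_apply_eq, mul_div_assoc, div_self hd, mul_one]
      rfl
    · show (eigP vα vβ * A * eigQ vα vβ) 0 1 = Matrix.diagonal ![α, β] 0 1
      rw [e01, hvβ, cross_smul_left, cross_self, mul_zero, zero_div,
        Matrix.diagonal_apply_ne _ (by decide)]
    · show (eigP vα vβ * A * eigQ vα vβ) 1 0 = Matrix.diagonal ![α, β] 1 0
      rw [e10, hvα, cross_smul_right, cross_self, mul_zero, zero_div,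
        Matrix.diagonal_apply_ne _ (by decide)]
    · show (eigP vα vβ * A * eigQ vα vβ) 1 1 = Matrix.diagonal ![α, β] 1 1
      rw [e11, hvβ, cross_smul_right, Matrix.diagonal_apply_eq, mul_div_assoc, div_self hd, mul_one]
      rfl
  · intro g hg
    rw [eigP_inv vα vβ hd]
    obtain ⟨e00, e10, e01, e11⟩ := eigP_conj_entries vα vβ hd (r g)
    obtain ⟨a, b, ha, hb⟩ := hIdiag g hg
    constructor
    · rw [e01, hb, cross_smul_left, cross_self, mul_zero, zero_div]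
    · rw [e10, ha, cross_smul_right, cross_self, mul_zero, zero_div]
  · rw [eigP_inv vα vβ hd]
    obtain ⟨e00, e10, e01, e11⟩ := eigP_conj_entries vα vβ hd Φ
    rw [e00, hΦα, zero_div]
  · rw [eigP_inv vα vβ hd]
    obtain ⟨e00, e10, e01, e11⟩ := eigP_conj_entries vα vβ hd Φ
    rw [e11, cross_comm, hΦβ, neg_zero, zero_div]
  · intro g
    rw [Nat.card_eq_fintype_card]
    obtain ⟨m, hm⟩ := hφ g
    have h1 : r g = r (g * (φ ^ m)⁻¹) * Φ ^ m := by
      rw [hΦ, ← map_pow, ← map_mul]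
      congr 1
      group
    refine pow_eq_one_of_diagAnti hd ?_ (r g⁻¹) (hinvl g)
    rw [h1]
    exact diagAnti_mul (Or.inl (hIdiag _ hm)) (diagAnti_pow (Or.inr hΦanti) m)

end Main

end Fermat.Agent.S56lib.TW
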