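/-
S56 marathon, TW/ (helper2).  File 1: `GL₂(k)` acting on the projective line, in coordinates.

* `cross v w` the `2×2` determinant; two non-zero vectors define the same point iff it vanishes;
* the fixed points of an upper triangular matrix;
* every `g ∈ GL₂(k)` with an eigenvector is conjugate to an upper triangular matrix;
* a non-scalar `g` with split characteristic polynomial fixes exactly one or exactly two points.
-/
import Mathlib

set_option autoImplicit false

namespace Fermat.Agent.S56lib.TW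

open scoped LinearAlgebra.Projectivization Matrix Pointwise
open Projectivization

variable {k : Type*} [Field k]

/-- the projective line over `k`. -/
abbrev P1 (k : Type*) [Field k] : Type _ := ℙ k (Fin 2 → k)

/-- the `2×2` determinant of two plane vectors. -/
def cross (v w : Fin 2 → k) : k := v 0 * w 1 - v 1 * w 0

theorem cross_self (v : Fin 2 → k) : cross v v = 0 := by
  unfold cross; ring

theorem cross_smul_right (v w : Fin 2 → k) (a : k) : cross v (a • w) = a * cross v w := by
  simp only [cross, Pi.smul_apply, smul_eq_mul]; ring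

theorem vec_ne_zero_iff (v : Fin 2 → k) : v ≠ 0 ↔ v 0 ≠ 0 ∨ v 1 ≠ 0 := by
  constructor
  · intro h
    by_contra hcon
    rw [not_or, not_not, not_not] at hcon
    apply h
    funext i
    fin_cases i
    · exact hcon.1
    · exact hcon.2
  · rintro (h | h) rfl
    · exact h rfl
    · exact h rfl

theorem mk_eq_mk_iff_cross (v w : Fin 2 → k) (hv : v ≠ 0) (hw : w ≠ 0) :
    mk k v hv = mk k w hw ↔ cross v w = 0 := by
  rw [mk_eq_mk_iff']
  constructor
  · rintro ⟨a, rfl⟩
    simp only [cross, Pi.smul_apply, smul_eq_mul]; ring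
  · intro h
    unfold cross at h
    rcases (vec_ne_zero_iff w).mp hw with h0 | h1
    · refine ⟨v 0 / w 0, ?_⟩
      funext i
      fin_cases i
      · simp only [Pi.smul_apply, smul_eq_mul, Fin.zero_eta]
        field_simp
      · simp only [Pi.smul_apply, smul_eq_mul, Fin.mk_one]
        field_simp
        linear_combination h
    · refine ⟨v 1 / w 1, ?_⟩
      funext i
      fin_cases i
      · simp only [Pi.smul_apply, smul_eq_mul, Fin.zero_eta]
        field_simp
        linear_combination -h
      · simp only [Pi.smul_apply, smul_eq_mul, Fin.mk_one]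
        field_simp

theorem mulVec_ne_zero (g : GL (Fin 2) k) {v : Fin 2 → k} (hv : v ≠ 0) : g.1 *ᵥ v ≠ 0 := by
  intro h
  apply hv
  have h1 : (g⁻¹).1 *ᵥ (g.1 *ᵥ v) = 0 := by rw [h, Matrix.mulVec_zero]
  rwa [Matrix.mulVec_mulVec, ← Units.val_mul, inv_mul_cancel, Units.val_one,
    Matrix.one_mulVec] at h1

theorem smul_mk_eq (g : GL (Fin 2) k) (v : Fin 2 → k) (hv : v ≠ 0) :
    g • mk k v hv = mk k (g.1 *ᵥ v) (mulVec_ne_zero g hv) := rfl

/-- `g` fixes the point `[v]` iff `v` and `g v` are proportional. -/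
theorem smul_mk_eq_iff (g : GL (Fin 2) k) (v : Fin 2 → k) (hv : v ≠ 0) :
    g • mk k v hv = mk k v hv ↔ cross v (g.1 *ᵥ v) = 0 := by
  rw [smul_mk_eq, eq_comm, mk_eq_mk_iff_cross]

theorem mulVec_zero' (A : Matrix (Fin 2) (Fin 2) k) (v : Fin 2 → k) :
    (A *ᵥ v) 0 = A 0 0 * v 0 + A 0 1 * v 1 := by
  simp [Matrix.mulVec, dotProduct, Fin.sum_univ_two]

theorem mulVec_one' (A : Matrix (Fin 2) (Fin 2) k) (v : Fin 2 → k) :
    (A *ᵥ v) 1 = A 1 0 * v 0 + A 1 1 * v 1 := by
  simp [Matrix.mulVec, dotProduct, Fin.sum_univ_two]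

/-- the quadratic form whose zeros are the fixed points of `g`. -/
theorem cross_mulVec (A : Matrix (Fin 2) (Fin 2) k) (v : Fin 2 → k) :
    cross v (A *ᵥ v) = A 1 0 * v 0 ^ 2 + (A 1 1 - A 0 0) * v 0 * v 1 - A 0 1 * v 1 ^ 2 := by
  rw [cross, mulVec_zero', mulVec_one']; ring

/-- the first standard basis vector. -/
def e1 : Fin 2 → k := ![1, 0]

theorem e1_ne_zero : (e1 : Fin 2 → k) ≠ 0 := by
  intro h
  have := congrFun h 0
  simp [e1] at this

/-- the point `∞ = [1 : 0]`. -/
noncomputable def ptInf : P1 k := mk k e1 e1_ne_zero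

/-- `g` fixes `∞` iff it is upper triangular. -/
theorem smul_ptInf_eq_iff (g : GL (Fin 2) k) : g • (ptInf : P1 k) = ptInf ↔ g.1 1 0 = 0 := by
  rw [ptInf, smul_mk_eq_iff, cross_mulVec]
  simp [e1]

/-- scalar `2×2` matrices. -/
def IsScal (A : Matrix (Fin 2) (Fin 2) k) : Prop := A 0 1 = 0 ∧ A 1 0 = 0 ∧ A 0 0 = A 1 1

theorem isScal_iff_eq_scalar (A : Matrix (Fin 2) (Fin 2) k) :
    IsScal A ↔ A = Matrix.scalar (Fin 2) (A 0 0) := by
  constructor
  · rintro ⟨h1, h2, h3⟩
    ext i j
    fin_cases i <;> fin_cases j <;> simp [h1, h2, ← h3]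
  · intro h
    refine ⟨?_, ?_, ?_⟩
    · rw [h]; simp
    · rw [h]; simp
    · conv_rhs => rw [h]
      simp

theorem isScal_scalar (a : k) : IsScal (Matrix.scalar (Fin 2) a) := by
  refine ⟨?_, ?_, ?_⟩ <;> simp

/-- the second standard basis vector. -/
def e2 : Fin 2 → k := ![0, 1]

theorem e2_ne_zero : (e2 : Fin 2 → k) ≠ 0 := by
  intro h
  have := congrFun h 1
  simp [e2] at this

theorem isScal_iff_forall_smul (g : GL (Fin 2) k) : IsScal g.1 ↔ ∀ x : P1 k, g • x = x := by
  constructor
  · rintro ⟨h1, h2, h3⟩ x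
    induction x using Projectivization.ind with
    | h v hv =>
      rw [smul_mk_eq_iff, cross_mulVec, h1, h2, h3]
      ring
  · intro h
    have ha := h (mk k e1 e1_ne_zero)
    have hb := h (mk k e2 e2_ne_zero)
    have hc := h (mk k (e1 + e2) (by
      intro h0
      have := congrFun h0 0
      simp [e1, e2] at this))
    rw [smul_mk_eq_iff, cross_mulVec] at ha hb hc
    simp only [e1, e2, Matrix.cons_val_zero, Matrix.cons_val_one, Pi.add_apply] at ha hb hc
    have h10 : g.1 1 0 = 0 := by linear_combination ha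
    have h01 : g.1 0 1 = 0 := by linear_combination -hb
    refine ⟨h01, h10, ?_⟩
    rw [h10, h01] at hc
    linear_combination -hc

theorem isScal_iff_mem_center (g : GL (Fin 2) k) :
    IsScal g.1 ↔ g ∈ Subgroup.center (GL (Fin 2) k) := by
  rw [Matrix.GeneralLinearGroup.mem_center_iff_val_mem_range_scalar, isScal_iff_eq_scalar]
  constructor
  · intro h
    exact ⟨_, h.symm⟩
  · rintro ⟨a, ha⟩
    rw [← ha]
    simp

/-- fixed points of an upper triangular matrix with equal diagonal entries. -/
theorem fixedBy_upper_of_eq (g : GL (Fin 2) k) (h10 : g.1 1 0 = 0) (had : g.1 0 0 = g.1 1 1)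
    (hb : g.1 0 1 ≠ 0) : MulAction.fixedBy (P1 k) g = {ptInf} := by
  ext x
  rw [MulAction.mem_fixedBy, Set.mem_singleton_iff]
  induction x using Projectivization.ind with
  | h v hv =>
    rw [smul_mk_eq_iff, cross_mulVec, h10, had, ptInf, mk_eq_mk_iff_cross]
    simp only [cross, e1, Matrix.cons_val_zero, Matrix.cons_val_one]
    constructor
    · intro h
      have h1 : g.1 0 1 * v 1 ^ 2 = 0 := by linear_combination -h
      rcases mul_eq_zero.mp h1 with h2 | h2
      · exact absurd h2 hb
      · rw [pow_eq_zero_iff two_ne_zero] at h2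
        rw [h2]; ring
    · intro h
      have h1 : v 1 = 0 := by linear_combination -h
      rw [h1]; ring

/-- fixed points of an upper triangular matrix with distinct diagonal entries. -/
theorem fixedBy_upper_of_ne (g : GL (Fin 2) k) (h10 : g.1 1 0 = 0) (had : g.1 0 0 ≠ g.1 1 1) :
    ∃ y : P1 k, y ≠ ptInf ∧ MulAction.fixedBy (P1 k) g = {ptInf, y} := by
  set w : Fin 2 → k := ![g.1 0 1, g.1 1 1 - g.1 0 0] with hw
  have hw0 : w ≠ 0 := by
    intro h
    have := congrFun h 1
    simp only [hw, Matrix.cons_val_one, Pi.zero_apply] at this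
    exact had (sub_eq_zero.mp this).symm
  refine ⟨mk k w hw0, ?_, ?_⟩
  · rw [ptInf, Ne, mk_eq_mk_iff_cross]
    simp only [cross, hw, e1, Matrix.cons_val_zero, Matrix.cons_val_one]
    intro h
    apply had
    have : g.1 1 1 - g.1 0 0 = 0 := by linear_combination -h
    exact (sub_eq_zero.mp this).symm
  · ext x
    rw [MulAction.mem_fixedBy, Set.mem_insert_iff, Set.mem_singleton_iff]
    induction x using Projectivization.ind with
    | h v hv =>
      rw [smul_mk_eq_iff, cross_mulVec, h10, ptInf, mk_eq_mk_iff_cross, mk_eq_mk_iff_cross]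
      simp only [cross, hw, e1, Matrix.cons_val_zero, Matrix.cons_val_one]
      constructor
      · intro h
        have h1 : v 1 * ((g.1 1 1 - g.1 0 0) * v 0 - g.1 0 1 * v 1) = 0 := by
          linear_combination h
        rcases mul_eq_zero.mp h1 with h2 | h2
        · left; rw [h2]; ring
        · right; linear_combination h2
      · rintro (h | h)
        · have h1 : v 1 = 0 := by linear_combination -h
          rw [h1]; ring
        · linear_combination v 1 * h

/-- `GL₂(k)` is transitive on the projective line. -/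
theorem exists_smul_eq_ptInf (x : P1 k) : ∃ h : GL (Fin 2) k, h • x = ptInf := by
  induction x using Projectivization.ind with
  | h v hv =>
    obtain ⟨c, hc⟩ : ∃ c : Fin 2 → k, cross v c ≠ 0 := by
      rcases (vec_ne_zero_iff v).mp hv with h0 | h1
      · exact ⟨e2, by simpa [cross, e2] using h0⟩
      · exact ⟨e1, by simpa [cross, e1] using h1⟩
    set M : Matrix (Fin 2) (Fin 2) k := !![v 0, c 0; v 1, c 1] with hM
    have hdet : M.det ≠ 0 := by
      rw [hM, Matrix.det_fin_two_of, mul_comm (c 0) (v 1)]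
      exact hc
    set m : GL (Fin 2) k := Matrix.GeneralLinearGroup.mkOfDetNeZero M hdet with hm
    refine ⟨m⁻¹, ?_⟩
    rw [inv_smul_eq_iff, ptInf, smul_mk_eq, mk_eq_mk_iff_cross]
    have h1 : m.1 *ᵥ e1 = v := by
      funext i
      fin_cases i
      · simp [hm, hM, Matrix.GeneralLinearGroup.mkOfDetNeZero, e1, Matrix.mulVec, dotProduct,
          Fin.sum_univ_two]
      · simp [hm, hM, Matrix.GeneralLinearGroup.mkOfDetNeZero, e1, Matrix.mulVec, dotProduct,
          Fin.sum_univ_two]
    rw [h1, cross_self]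

/-- **fixed points**: a non-scalar `g ∈ GL₂(k)` fixing a point of the projective line fixes exactly
one or exactly two points. -/
theorem fixedBy_eq_one_or_two (g : GL (Fin 2) k) (hg : ¬ IsScal g.1) (x : P1 k) (hx : g • x = x) :
    (∃ y, MulAction.fixedBy (P1 k) g = {y}) ∨
      ∃ y z, y ≠ z ∧ MulAction.fixedBy (P1 k) g = {y, z} := by
  obtain ⟨h, hh⟩ := exists_smul_eq_ptInf x
  set g' : GL (Fin 2) k := h * g * h⁻¹ with hg'
  have hfix : g' • (ptInf : P1 k) = ptInf := by
    rw [hg', mul_smul, mul_smul, ← hh, inv_smul_smul, hx]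
  have h10 := (smul_ptInf_eq_iff g').mp hfix
  have hns : ¬ IsScal g'.1 := by
    intro hs
    apply hg
    rw [isScal_iff_mem_center] at hs ⊢
    have : g = h⁻¹ * g' * h := by rw [hg']; group
    rw [this]
    rw [Subgroup.mem_center_iff] at hs
    have h2 : h⁻¹ * g' * h = g' := by
      rw [mul_assoc, ← hs h, ← mul_assoc, inv_mul_cancel, one_mul]
    rw [h2]
    exact Subgroup.mem_center_iff.mpr hs
  have hset : MulAction.fixedBy (P1 k) g = h⁻¹ • MulAction.fixedBy (P1 k) g' := by
    rw [MulAction.smul_fixedBy, hg']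
    congr 1
    group
  by_cases had : g'.1 0 0 = g'.1 1 1
  · left
    have hb : g'.1 0 1 ≠ 0 := fun hb => hns ⟨hb, h10, had⟩
    refine ⟨h⁻¹ • ptInf, ?_⟩
    rw [hset, fixedBy_upper_of_eq g' h10 had hb, Set.smul_set_singleton]
  · right
    obtain ⟨y, hy, hfy⟩ := fixedBy_upper_of_ne g' h10 had
    refine ⟨h⁻¹ • ptInf, h⁻¹ • y, ?_, ?_⟩
    · intro h3
      exact hy (smul_left_cancel _ h3).symm
    · rw [hset, hfy, Set.smul_set_insert, Set.smul_set_singleton]

end Fermat.Agent.S56lib.TW
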