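/-
S56 marathon, TW/ (helper2).  File 3: upper triangular matrices in `GL₂(k)`: unipotent elements,
scalars, the ratio character.
-/
import Mathlib
import Fermat.Agent.S56lib.TW.Mat2

set_option autoImplicit false

namespace Fermat.Agent.S56lib.TW

open scoped LinearAlgebra.Projectivization Matrix Pointwise
open Projectivization

variable {k : Type*} [Field k]

/-- the upper unipotent matrix `[[1, y], [0, 1]]`. -/
noncomputable def uni (y : k) : GL (Fin 2) k :=
  Matrix.GeneralLinearGroup.mkOfDetNeZero !![1, y; 0, 1] (by simp [Matrix.det_fin_two_of])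

@[simp] theorem uni_val (y : k) : (uni y).1 = !![1, y; 0, 1] := rfl

theorem GL_ext {g h : GL (Fin 2) k} (h00 : g.1 0 0 = h.1 0 0) (h01 : g.1 0 1 = h.1 0 1)
    (h10 : g.1 1 0 = h.1 1 0) (h11 : g.1 1 1 = h.1 1 1) : g = h := by
  apply Units.ext
  ext i j
  fin_cases i <;> fin_cases j <;> assumption

theorem mul_val_00 (g h : GL (Fin 2) k) :
    (g * h).1 0 0 = g.1 0 0 * h.1 0 0 + g.1 0 1 * h.1 1 0 := by
  rw [Units.val_mul, Matrix.mul_apply, Fin.sum_univ_two]

theorem mul_val_01 (g h : GL (Fin 2) k) :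
    (g * h).1 0 1 = g.1 0 0 * h.1 0 1 + g.1 0 1 * h.1 1 1 := by
  rw [Units.val_mul, Matrix.mul_apply, Fin.sum_univ_two]

theorem mul_val_10 (g h : GL (Fin 2) k) :
    (g * h).1 1 0 = g.1 1 0 * h.1 0 0 + g.1 1 1 * h.1 1 0 := by
  rw [Units.val_mul, Matrix.mul_apply, Fin.sum_univ_two]

theorem mul_val_11 (g h : GL (Fin 2) k) :
    (g * h).1 1 1 = g.1 1 0 * h.1 0 1 + g.1 1 1 * h.1 1 1 := by
  rw [Units.val_mul, Matrix.mul_apply, Fin.sum_univ_two]

theorem uni_zero : uni (0 : k) = 1 := by
  apply GL_ext <;> simp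

theorem uni_add (y y' : k) : uni (y + y') = uni y * uni y' := by
  apply GL_ext
  · rw [mul_val_00]; simp
  · rw [mul_val_01]; simp [add_comm]
  · rw [mul_val_10]; simp
  · rw [mul_val_11]; simp

theorem uni_neg (y : k) : uni (-y) = (uni y)⁻¹ := by
  rw [eq_inv_iff_mul_eq_one, ← uni_add, neg_add_cancel, uni_zero]

theorem uni_injective : Function.Injective (uni : k → GL (Fin 2) k) := by
  intro y y' h
  have := congrArg (fun g : GL (Fin 2) k => g.1 0 1) h
  simpa using this

theorem uni_nsmul (n : ℕ) (y : k) : uni (n • y) = uni y ^ n := by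
  induction n with
  | zero => rw [zero_smul, uni_zero, pow_zero]
  | succ n ih => rw [succ_nsmul, uni_add, ih, pow_succ]

/-- the unipotent matrices as a homomorphism. -/
noncomputable def uniHom : Multiplicative k →* GL (Fin 2) k where
  toFun y := uni y.toAdd
  map_one' := uni_zero
  map_mul' _ _ := uni_add _ _

/-- the scalar matrix `a`. -/
noncomputable def scal (a : kˣ) : GL (Fin 2) k :=
  Units.map (Matrix.scalar (Fin 2)).toMonoidHom a

@[simp] theorem scal_val (a : kˣ) : (scal a).1 = Matrix.scalar (Fin 2) (a : k) := rfl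

theorem scal_mul (a b : kˣ) : scal (a * b) = scal a * scal b := map_mul _ a b

theorem isScal_scal (a : kˣ) : IsScal (scal a).1 := isScal_scalar _

theorem det_ne_zero' (g : GL (Fin 2) k) : g.1 0 0 * g.1 1 1 - g.1 0 1 * g.1 1 0 ≠ 0 := by
  have h := g.isUnit.map Matrix.detMonoidHom
  rw [isUnit_iff_ne_zero] at h
  rw [← Matrix.det_fin_two]
  exact h

theorem diag_ne_zero_of_upper (g : GL (Fin 2) k) (h10 : g.1 1 0 = 0) :
    g.1 0 0 ≠ 0 ∧ g.1 1 1 ≠ 0 := by
  have h := det_ne_zero' g
  rw [h10, mul_zero, sub_zero] at h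
  exact ⟨left_ne_zero_of_mul h, right_ne_zero_of_mul h⟩

/-- conjugating a unipotent by an upper triangular matrix multiplies the parameter by the ratio of
the diagonal entries. -/
theorem upper_mul_uni (g : GL (Fin 2) k) (h10 : g.1 1 0 = 0) (y : k) :
    g * uni y = uni (g.1 0 0 / g.1 1 1 * y) * g := by
  obtain ⟨ha, hd⟩ := diag_ne_zero_of_upper g h10
  apply GL_ext
  · rw [mul_val_00, mul_val_00]; simp [h10]
  · rw [mul_val_01, mul_val_01]; simp; field_simp; ring
  · rw [mul_val_10, mul_val_10]; simp [h10]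
  · rw [mul_val_11, mul_val_11]; simp [h10]

/-- an upper triangular matrix with equal diagonal entries is a scalar times a unipotent. -/
theorem upper_eq_scal_mul_uni (g : GL (Fin 2) k) (h10 : g.1 1 0 = 0) (had : g.1 0 0 = g.1 1 1) :
    g = scal (Units.mk0 _ (diag_ne_zero_of_upper g h10).1) * uni (g.1 0 1 / g.1 0 0) := by
  obtain ⟨ha, hd⟩ := diag_ne_zero_of_upper g h10
  apply GL_ext
  · rw [mul_val_00]; simp
  · rw [mul_val_01]; simp; field_simp
  · rw [mul_val_10]; simp [h10]
  · rw [mul_val_11]; simp [had]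

theorem scal_mul_uni_pow (a : kˣ) (y : k) (n : ℕ) :
    (scal a * uni y) ^ n = scal (a ^ n) * uni (n • y) := by
  have hc : Commute (scal a) (uni y) := by
    apply GL_ext
    · rw [mul_val_00, mul_val_00]; simp
    · rw [mul_val_01, mul_val_01]; simp [mul_comm]
    · rw [mul_val_10, mul_val_10]; simp
    · rw [mul_val_11, mul_val_11]; simp
  rw [hc.mul_pow, uni_nsmul]
  congr 1
  exact (map_pow _ a n).symm

end Fermat.Agent.S56lib.TW
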