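/-
S56 marathon, TW/ (helper2).  File 11: under the Taylor–Wiles hypotheses on `r : G → GL₂(k)` (every
`r g` has an eigenvector over `k`; `r` is irreducible on `G` and on every subgroup of index two) there is
no line of trace-zero matrices stable under conjugation by `r(G)`.
-/
import Mathlib
import Fermat.Agent.S56lib.TW.Mat2
import Fermat.Agent.S56lib.TW.Borel

set_option autoImplicit false
set_option linter.unusedSectionVars false
set_option linter.style.haveILetI false

namespace Fermat.Agent.S56lib.TW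

open scoped LinearAlgebra.Projectivization Matrix Pointwise
open Projectivization MulAction Matrix

variable {k : Type*} [Field k] {G : Type*} [Group G]

/-- the Taylor–Wiles hypotheses on `r`. -/
structure TWHyp (r : G →* GL (Fin 2) k) : Prop where
  split : ∀ g, ∃ x : P1 k, r g • x = x
  irr : ∀ x : P1 k, ∃ g, r g • x ≠ x
  irr2 : ∀ H : Subgroup G, H.index = 2 → ∀ x : P1 k, ∃ g ∈ H, r g • x ≠ x

section Basic

variable {r : G →* GL (Fin 2) k}

/-- no pair of points is stable. -/
theorem TWHyp.no_two_points (h : TWHyp r) (x₁ x₂ : P1 k) (hne : x₁ ≠ x₂)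
    (hperm : ∀ g, (r g • x₁ = x₁ ∧ r g • x₂ = x₂) ∨ (r g • x₁ = x₂ ∧ r g • x₂ = x₁)) : False := by
  by_cases hsw : ∃ a, r a • x₁ = x₂
  · obtain ⟨a, ha⟩ := hsw
    set H : Subgroup G := (stabilizer (GL (Fin 2) k) x₁).comap r with hH
    have hmem : ∀ g, g ∈ H ↔ r g • x₁ = x₁ := fun g => by
      rw [hH, Subgroup.mem_comap, mem_stabilizer_iff]
    have hidx : H.index = 2 := by
      rw [Subgroup.index_eq_two_iff]
      refine ⟨a, fun b => ?_⟩
      have hba : r (b * a) • x₁ = r b • x₂ := by rw [map_mul, mul_smul, ha]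
      rcases hperm b with ⟨h1, h2⟩ | ⟨h1, h2⟩
      · refine Or.inr ⟨(hmem b).mpr h1, fun hc => ?_⟩
        rw [hmem, hba, h2] at hc
        exact hne hc.symm
      · refine Or.inl ⟨?_, fun hc => ?_⟩
        · rw [hmem, hba, h2]
        · rw [hmem, h1] at hc
          exact hne hc.symm
    obtain ⟨g, hg, hgne⟩ := h.irr2 H hidx x₁
    exact hgne ((hmem g).mp hg)
  · obtain ⟨g, hg⟩ := h.irr x₁
    rcases hperm g with ⟨h1, -⟩ | ⟨h1, -⟩
    · exact hg h1
    · exact hsw ⟨g, h1⟩

/-- no finite non-empty set of at most two points is stable. -/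
theorem TWHyp.no_stable_fixedBy (h : TWHyp r) (γ : GL (Fin 2) k) (hγ : ¬ IsScal γ.1)
    (x : P1 k) (hx : γ • x = x)
    (hst : ∀ g, r g • fixedBy (P1 k) γ = fixedBy (P1 k) γ) : False := by
  have hmem : ∀ g, ∀ y ∈ fixedBy (P1 k) γ, r g • y ∈ fixedBy (P1 k) γ := by
    intro g y hy
    have : r g • y ∈ r g • fixedBy (P1 k) γ := Set.smul_mem_smul_set hy
    rwa [hst g] at this
  rcases fixedBy_eq_one_or_two γ hγ x hx with ⟨y, hy⟩ | ⟨y, z, hyz, hy⟩
  · obtain ⟨g, hg⟩ := h.irr y
    have := hmem g y (by rw [hy]; rfl)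
    rw [hy, Set.mem_singleton_iff] at this
    exact hg this
  · refine h.no_two_points y z hyz fun g => ?_
    have h1 := hmem g y (by rw [hy]; exact Set.mem_insert _ _)
    have h2 := hmem g z (by rw [hy]; exact Set.mem_insert_of_mem _ rfl)
    rw [hy, Set.mem_insert_iff, Set.mem_singleton_iff] at h1 h2
    have hinj : r g • y ≠ r g • z := fun hc => hyz (smul_left_cancel _ hc)
    rcases h1 with h1 | h1 <;> rcases h2 with h2 | h2
    · exact absurd (h1.trans h2.symm) hinj
    · exact Or.inl ⟨h1, h2⟩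
    · exact Or.inr ⟨h1, h2⟩
    · exact absurd (h1.trans h2.symm) hinj

end Basic

section LinAlg

/-- a `2×2` matrix killing two independent vectors is zero. -/
theorem eq_zero_of_mulVec_eq_zero (M : Matrix (Fin 2) (Fin 2) k) (v w : Fin 2 → k)
    (hvw : cross v w ≠ 0) (hv : M *ᵥ v = 0) (hw : M *ᵥ w = 0) : M = 0 := by
  have v0 := congrFun hv 0
  have v1 := congrFun hv 1
  have w0 := congrFun hw 0
  have w1 := congrFun hw 1
  rw [mulVec_zero'] at v0 w0
  rw [mulVec_one'] at v1 w1
  simp only [Pi.zero_apply] at v0 v1 w0 w1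
  unfold cross at hvw
  ext i j
  fin_cases i <;> fin_cases j
  · show M 0 0 = 0
    have : M 0 0 * (v 0 * w 1 - v 1 * w 0) = 0 := by linear_combination w 1 * v0 - v 1 * w0
    exact (mul_eq_zero.mp this).resolve_right hvw
  · show M 0 1 = 0
    have : M 0 1 * (v 0 * w 1 - v 1 * w 0) = 0 := by linear_combination v 0 * w0 - w 0 * v0
    exact (mul_eq_zero.mp this).resolve_right hvw
  · show M 1 0 = 0
    have : M 1 0 * (v 0 * w 1 - v 1 * w 0) = 0 := by linear_combination w 1 * v1 - v 1 * w1
    exact (mul_eq_zero.mp this).resolve_right hvw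
  · show M 1 1 = 0
    have : M 1 1 * (v 0 * w 1 - v 1 * w 0) = 0 := by linear_combination v 0 * w1 - w 0 * v1
    exact (mul_eq_zero.mp this).resolve_right hvw

theorem cross_add_right (v w w' : Fin 2 → k) : cross v (w + w') = cross v w + cross v w' := by
  simp only [cross, Pi.add_apply]; ring

/-- the square of a trace-zero `2×2` matrix. -/
theorem sq_of_trace_zero (X : Matrix (Fin 2) (Fin 2) k) (htr : X.trace = 0) :
    X * X = (-X.det) • (1 : Matrix (Fin 2) (Fin 2) k) := by
  rw [Matrix.trace_fin_two] at htr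
  have h11 : X 1 1 = -X 0 0 := eq_neg_of_add_eq_zero_right htr
  ext i j
  fin_cases i <;> fin_cases j <;>
    simp [Matrix.mul_apply, Fin.sum_univ_two, Matrix.det_fin_two, h11] <;> ring

/-- a point is fixed by `g` iff a representative is an eigenvector. -/
theorem exists_eigenvalue_of_fixed (g : GL (Fin 2) k) (v : Fin 2 → k) (hv : v ≠ 0)
    (h : g • mk k v hv = mk k v hv) : ∃ a : k, g.1 *ᵥ v = a • v := by
  rw [smul_mk_eq, mk_eq_mk_iff'] at h
  obtain ⟨a, ha⟩ := h
  exact ⟨a, ha.symm⟩

theorem fixedBy_congr (g h : GL (Fin 2) k)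
    (hgh : ∀ v : Fin 2 → k, cross v (h.1 *ᵥ v) = 0 ↔ cross v (g.1 *ᵥ v) = 0) :
    fixedBy (P1 k) h = fixedBy (P1 k) g := by
  ext x
  induction x using Projectivization.ind with
  | h v hv =>
    rw [mem_fixedBy, mem_fixedBy, smul_mk_eq_iff, smul_mk_eq_iff]
    exact hgh v

theorem isScal_of_eq_smul_one (g : GL (Fin 2) k) (a : k) (h : g.1 = a • (1 : Matrix (Fin 2) (Fin 2) k)) :
    IsScal g.1 := by
  rw [h]
  refine ⟨by simp, by simp, by simp⟩

theorem not_isScal_of_trace_zero [NeZero (2 : k)] (X : Matrix (Fin 2) (Fin 2) k) (htr : X.trace = 0)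
    (hX : X ≠ 0) (a : k) : ¬ IsScal (a • (1 : Matrix (Fin 2) (Fin 2) k) + X) := by
  rintro ⟨h01, h10, h00⟩
  apply hX
  rw [Matrix.trace_fin_two] at htr
  simp only [Matrix.add_apply, Matrix.smul_apply, Matrix.one_apply_eq, Matrix.one_apply_ne,
    ne_eq, not_false_eq_true, smul_eq_mul, mul_zero, zero_add, mul_one,
    one_ne_zero, zero_ne_one] at h01 h10 h00
  have h2 : (2 : k) * X 0 0 = 0 := by linear_combination htr + h00
  have h0 : X 0 0 = 0 := (mul_eq_zero.mp h2).resolve_left (NeZero.ne _)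
  have h1 : X 1 1 = 0 := by linear_combination htr - h0
  ext i j
  fin_cases i <;> fin_cases j
  · exact h0
  · exact h01
  · exact h10
  · exact h1

end LinAlg

section Main

variable {r : G →* GL (Fin 2) k}

theorem cross_smul_one_add (a c : k) (X : Matrix (Fin 2) (Fin 2) k) (v : Fin 2 → k) :
    cross v ((a • (1 : Matrix (Fin 2) (Fin 2) k) + c • X) *ᵥ v) = c * cross v (X *ᵥ v) := by
  rw [cross_mulVec, cross_mulVec]
  simp only [Matrix.add_apply, Matrix.smul_apply, Matrix.one_apply_eq, Matrix.one_apply_ne,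
    ne_eq, not_false_eq_true, smul_eq_mul, mul_zero, zero_add, mul_one, one_ne_zero, zero_ne_one]
  ring

theorem cross_zero_right (v : Fin 2 → k) : cross v 0 = 0 := by
  simp [cross]

theorem val_inv_mul_val (g : GL (Fin 2) k) : (g⁻¹).1 * g.1 = 1 := by
  rw [← Units.val_mul, inv_mul_cancel, Units.val_one]

theorem val_mul_val_inv (g : GL (Fin 2) k) : g.1 * (g⁻¹).1 = 1 := by
  rw [← Units.val_mul, mul_inv_cancel, Units.val_one]

/-- **no stable line** in the trace-zero matrices. -/
theorem TWHyp.no_stable_line [NeZero (2 : k)] (h : TWHyp r) (X : Matrix (Fin 2) (Fin 2) k)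
    (htr : X.trace = 0) (hX : X ≠ 0)
    (hst : ∀ g, ∃ c : k, (r g).1 * X * ((r g)⁻¹).1 = c • X) : False := by
  set d := -X.det with hd
  have hsq : X * X = d • (1 : Matrix (Fin 2) (Fin 2) k) := sq_of_trace_zero X htr
  have hc0 : ∀ (g : G) (c : k), (r g).1 * X * ((r g)⁻¹).1 = c • X → c ≠ 0 := by
    intro g c hgc hc
    apply hX
    rw [hc, zero_smul] at hgc
    have : X = ((r g)⁻¹).1 * ((r g).1 * X * ((r g)⁻¹).1) * (r g).1 := by
      simp only [Matrix.mul_assoc]
      rw [val_inv_mul_val, Matrix.mul_one, ← Matrix.mul_assoc, val_inv_mul_val, Matrix.one_mul]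
    rw [this, hgc]; simp
  -- an invertible matrix `l + X`
  have hdetl : ∀ l : k, (l • (1 : Matrix (Fin 2) (Fin 2) k) + X).det = l ^ 2 - d := by
    intro l
    rw [Matrix.trace_fin_two] at htr
    have h11 : X 1 1 = -X 0 0 := eq_neg_of_add_eq_zero_right htr
    rw [hd, Matrix.det_fin_two, Matrix.det_fin_two]
    simp only [Matrix.add_apply, Matrix.smul_apply, Matrix.one_apply_eq, Matrix.one_apply_ne,
      ne_eq, not_false_eq_true, smul_eq_mul, mul_zero, zero_add, mul_one, one_ne_zero, zero_ne_one,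
      h11]
    ring
  obtain ⟨l, hl⟩ : ∃ l : k, (l • (1 : Matrix (Fin 2) (Fin 2) k) + X).det ≠ 0 := by
    by_cases hd0 : d = 0
    · exact ⟨1, by rw [hdetl, hd0]; simp⟩
    · exact ⟨0, by rw [hdetl]; simpa using hd0⟩
  set γ : GL (Fin 2) k := Matrix.GeneralLinearGroup.mkOfDetNeZero _ hl with hγ
  have hγval : γ.1 = l • (1 : Matrix (Fin 2) (Fin 2) k) + X := rfl
  have hγns : ¬ IsScal γ.1 := by
    rw [hγval]; exact not_isScal_of_trace_zero X htr hX l
  have hγcross : ∀ v : Fin 2 → k, cross v (γ.1 *ᵥ v) = cross v (X *ᵥ v) := by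
    intro v
    have := cross_smul_one_add l 1 X v
    rw [one_smul, one_mul] at this
    rw [hγval, this]
  have hstable : ∀ g, r g • fixedBy (P1 k) γ = fixedBy (P1 k) γ := by
    intro g
    obtain ⟨c, hc⟩ := hst g
    rw [smul_fixedBy]
    apply fixedBy_congr
    intro v
    have hval : (r g * γ * (r g)⁻¹).1 = l • (1 : Matrix (Fin 2) (Fin 2) k) + c • X := by
      rw [Units.val_mul, Units.val_mul, hγval, mul_add, add_mul, hc, Matrix.mul_smul,
        Matrix.smul_mul, Matrix.mul_one, val_mul_val_inv]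
    rw [hval, cross_smul_one_add, hγcross]
    constructor
    · intro h0
      exact (mul_eq_zero.mp h0).resolve_left (hc0 g c hc)
    · intro h0
      rw [h0, mul_zero]
  by_cases hfix : ∃ x : P1 k, γ • x = x
  · obtain ⟨x, hx⟩ := hfix
    exact h.no_stable_fixedBy γ hγns x hx hstable
  · -- no eigenvector
    have hno : ∀ v : Fin 2 → k, v ≠ 0 → cross v (X *ᵥ v) ≠ 0 := by
      intro v hv h0
      apply hfix
      refine ⟨Projectivization.mk k v hv, ?_⟩
      rw [smul_mk_eq_iff, hγcross, h0]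
    have hd0 : d ≠ 0 := by
      intro hd0
      rw [hd0, zero_smul] at hsq
      by_cases hw : X *ᵥ e1 = 0
      · apply hno e1 e1_ne_zero
        rw [hw, cross_zero_right]
      · apply hno _ hw
        rw [Matrix.mulVec_mulVec, hsq, Matrix.zero_mulVec, cross_zero_right]
    have hcsq : ∀ (g : G) (c : k), (r g).1 * X * ((r g)⁻¹).1 = c • X → c = 1 ∨ c = -1 := by
      intro g c hgc
      have h1 : ((r g).1 * X * ((r g)⁻¹).1) * ((r g).1 * X * ((r g)⁻¹).1) =
          d • (1 : Matrix (Fin 2) (Fin 2) k) := by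
        have : ((r g).1 * X * ((r g)⁻¹).1) * ((r g).1 * X * ((r g)⁻¹).1) =
            (r g).1 * (X * X) * ((r g)⁻¹).1 := by
          simp only [Matrix.mul_assoc]
          rw [← Matrix.mul_assoc ((r g)⁻¹).1 (r g).1, val_inv_mul_val, Matrix.one_mul]
        rw [this, hsq, Matrix.mul_smul, Matrix.smul_mul, Matrix.mul_one, val_mul_val_inv]
      rw [hgc, Matrix.smul_mul, Matrix.mul_smul, hsq, smul_smul, smul_smul] at h1
      have h2 := congrFun (congrFun h1 0) 0
      simp only [Matrix.smul_apply, Matrix.one_apply_eq, smul_eq_mul, mul_one] at h2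
      have h3 : (c - 1) * (c + 1) = 0 := by
        have : (c * c - 1) * d = 0 := by linear_combination h2
        rcases mul_eq_zero.mp this with h' | h'
        · linear_combination h'
        · exact absurd h' hd0
      rcases mul_eq_zero.mp h3 with h' | h'
      · exact Or.inl (sub_eq_zero.mp h')
      · exact Or.inr (eq_neg_of_add_eq_zero_left h')
    have hcomm : ∀ g, (r g).1 * X = X * (r g).1 ∨ (r g).1 * X = -(X * (r g).1) := by
      intro g
      obtain ⟨c, hc⟩ := hst g
      have h1 : (r g).1 * X = c • (X * (r g).1) := by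
        have : (r g).1 * X = ((r g).1 * X * ((r g)⁻¹).1) * (r g).1 := by
          simp only [Matrix.mul_assoc]
          rw [val_inv_mul_val, Matrix.mul_one]
        rw [this, hc, Matrix.smul_mul]
      rcases hcsq g c hc with rfl | rfl
      · left; rw [h1, one_smul]
      · right; rw [h1, neg_smul, one_smul]
    -- commuting elements are scalar
    have hscal : ∀ M : GL (Fin 2) k, (∃ x : P1 k, M • x = x) → M.1 * X = X * M.1 → IsScal M.1 := by
      intro M ⟨x, hx⟩ hMX
      induction x using Projectivization.ind with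
      | h v hv =>
        obtain ⟨a, ha⟩ := exists_eigenvalue_of_fixed M v hv hx
        set N := M.1 - a • (1 : Matrix (Fin 2) (Fin 2) k) with hN
        have hNv : N *ᵥ v = 0 := by
          rw [hN, Matrix.sub_mulVec, ha, Matrix.smul_mulVec, Matrix.one_mulVec, sub_self]
        have hNX : N * X = X * N := by
          rw [hN, sub_mul, mul_sub, hMX, Matrix.smul_mul, Matrix.mul_smul, Matrix.one_mul,
            Matrix.mul_one]
        have hNXv : N *ᵥ (X *ᵥ v) = 0 := by
          rw [Matrix.mulVec_mulVec, hNX, ← Matrix.mulVec_mulVec, hNv, Matrix.mulVec_zero]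
        have hN0 := eq_zero_of_mulVec_eq_zero N v (X *ᵥ v) (hno v hv) hNv hNXv
        apply isScal_of_eq_smul_one M a
        rw [← sub_eq_zero]
        exact hN0
    by_cases ha : ∃ a, (r a).1 * X = -(X * (r a).1)
    · obtain ⟨a, ha⟩ := ha
      obtain ⟨x₀, hx₀⟩ := h.split a
      obtain ⟨g, hg⟩ := h.irr x₀
      apply hg
      rcases hcomm g with hc | hc
      · exact (isScal_iff_forall_smul (r g)).mp (hscal (r g) (h.split g) hc) x₀
      · -- `g a⁻¹` commutes with `X`
        have hXa : X * ((r a)⁻¹).1 = -(((r a)⁻¹).1 * X) := by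
          have h1 : ((r a)⁻¹).1 * ((r a).1 * X) * ((r a)⁻¹).1 =
              ((r a)⁻¹).1 * (-(X * (r a).1)) * ((r a)⁻¹).1 := by rw [ha]
          rw [← Matrix.mul_assoc, val_inv_mul_val, Matrix.one_mul, Matrix.mul_neg, Matrix.neg_mul,
            Matrix.mul_assoc, Matrix.mul_assoc, val_mul_val_inv, Matrix.mul_one] at h1
          exact h1
        have hga : (r (g * a⁻¹)).1 * X = X * (r (g * a⁻¹)).1 := by
          rw [map_mul, map_inv, Units.val_mul, Matrix.mul_assoc]
          have h2 : ((r a)⁻¹).1 * X = -(X * ((r a)⁻¹).1) := by rw [hXa, neg_neg]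
          rw [h2, Matrix.mul_neg, ← Matrix.mul_assoc, hc, Matrix.neg_mul, neg_neg,
            Matrix.mul_assoc]
        have hsc := hscal (r (g * a⁻¹)) (h.split _) hga
        have : r g = r (g * a⁻¹) * r a := by rw [← map_mul, inv_mul_cancel_right]
        rw [this, mul_smul, hx₀]
        exact (isScal_iff_forall_smul _).mp hsc x₀
    · obtain ⟨g, hg⟩ := h.irr (ptInf : P1 k)
      apply hg
      rcases hcomm g with hc | hc
      · exact (isScal_iff_forall_smul (r g)).mp (hscal (r g) (h.split g) hc) _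
      · exact absurd ⟨g, hc⟩ ha

end Main

end Fermat.Agent.S56lib.TW
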