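/-
S56 marathon, TW/ (helper2).  File 7: pure algebra in characteristic 3 used for the Borel computation.
-/
import Mathlib
set_option autoImplicit false
namespace Fermat.Agent.S56lib.TW
variable {k : Type*} [Field k]

/-- the normal form of a trace-zero cocycle on a group of upper unipotent matrices in
characteristic `3` (pure algebra). -/
theorem char3_normal_form [CharP k 3] (A : AddSubgroup k) (y₀ : k) (hy₀ : y₀ ∈ A) (hy₀0 : y₀ ≠ 0)
    (a b c : k → k) (hb0 : b 0 = 0)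
    (ha : ∀ y ∈ A, ∀ z ∈ A, a (y + z) = a y + a z + y * c z)
    (hb : ∀ y ∈ A, ∀ z ∈ A, b (y + z) = b y + b z - 2 * y * a z - y ^ 2 * c z) :
    ∃ c₁ : k, (∀ y ∈ A, c y = 0) ∧ (∀ y ∈ A, a y = c₁ * y) ∧
      ∀ y ∈ A, ∀ z ∈ A, b (y + z) + c₁ * (y + z) ^ 2 = (b y + c₁ * y ^ 2) + (b z + c₁ * z ^ 2) := by
  have h3 : (3 : k) = 0 := by
    have := CharP.cast_eq_zero k 3
    exact_mod_cast this
  have h2 : (2 : k) ≠ 0 := by
    intro h
    have : (1 : k) = 0 := by linear_combination h3 - h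
    exact one_ne_zero this
  -- step 1
  have s1 : ∀ y ∈ A, ∀ z ∈ A, y * c z = z * c y := by
    intro y hy z hz
    have e1 := ha y hy z hz
    have e2 := ha z hz y hy
    rw [add_comm z y] at e2
    linear_combination e2 - e1
  set c₀ := c y₀ / y₀ with hc₀
  have hc : ∀ y ∈ A, c y = c₀ * y := by
    intro y hy
    have := s1 y₀ hy₀ y hy
    rw [hc₀]
    field_simp
    linear_combination this
  -- step 2
  have s2 : ∀ y ∈ A, ∀ z ∈ A, y * (a z + c₀ * z ^ 2) = z * (a y + c₀ * y ^ 2) := by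
    intro y hy z hz
    have e1 := hb y hy z hz
    have e2 := hb z hz y hy
    rw [add_comm z y, hc y hy] at e2
    rw [hc z hz] at e1
    have e3 : 2 * (y * (a z + c₀ * z ^ 2) - z * (a y + c₀ * y ^ 2)) = 0 := by
      linear_combination e1 - e2 + (c₀ * y * z ^ 2 - c₀ * y ^ 2 * z) * h3
    have := (mul_eq_zero.mp e3).resolve_left h2
    exact sub_eq_zero.mp this
  set c₁ := (a y₀ + c₀ * y₀ ^ 2) / y₀ with hc₁
  have ha' : ∀ y ∈ A, a y = c₁ * y - c₀ * y ^ 2 := by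
    intro y hy
    have := s2 y₀ hy₀ y hy
    rw [hc₁]
    field_simp
    linear_combination this
  -- step 3
  have s3 : ∀ y ∈ A, ∀ z ∈ A, b (y + z) + c₁ * (y + z) ^ 2 =
      (b y + c₁ * y ^ 2) + (b z + c₁ * z ^ 2) - c₀ * y * z * (y + z) := by
    intro y hy z hz
    have e1 := hb y hy z hz
    rw [hc z hz, ha' z hz] at e1
    linear_combination e1 + (c₀ * y * z ^ 2) * h3
  have hc₀0 : c₀ = 0 := by
    have e1 := s3 y₀ hy₀ y₀ hy₀
    have e2 := s3 (y₀ + y₀) (A.add_mem hy₀ hy₀) y₀ hy₀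
    have e3 : y₀ + y₀ + y₀ = 0 := by linear_combination y₀ * h3
    rw [e3, hb0] at e2
    have e4 : c₀ * y₀ ^ 3 = 0 := by
      linear_combination (-1 : k) * e1 - e2 + (c₀ * y₀ ^ 3 - (b y₀ + c₁ * y₀ ^ 2)) * h3
    rcases mul_eq_zero.mp e4 with h | h
    · exact h
    · exact absurd (pow_eq_zero_iff (by norm_num) |>.mp h) hy₀0
  refine ⟨c₁, fun y hy => ?_, fun y hy => ?_, fun y hy z hz => ?_⟩
  · rw [hc y hy, hc₀0, zero_mul]
  · rw [ha' y hy, hc₀0]; ring
  · rw [s3 y hy z hz, hc₀0]; ring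

end Fermat.Agent.S56lib.TW
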