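/-
S56 marathon, TW/ (helper2).  File 2: the abstract counting argument behind the "class equation" for
subgroups of `PGL₂`: a finite group `G` acting on a finite set `X`, a subgroup `Z` acting trivially,
every `g ∉ Z` having exactly one or exactly two fixed points.
-/
import Mathlib

set_option autoImplicit false
set_option linter.unusedSectionVars false

namespace Fermat.Agent.S56lib.TW

open MulAction
open scoped Pointwise

section Count

variable {G X : Type*} [Group G] [MulAction G X] [Fintype G] [Fintype X] (Z : Subgroup G)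

/-- order of the stabiliser of a point. -/
noncomputable def stabCard (G : Type*) {X : Type*} [Group G] [MulAction G X] (x : X) : ℕ :=
  Nat.card (stabilizer G x)

/-- the elements outside `Z` whose only fixed point is `x`. -/
def parabAt (x : X) : Set G := {g | g ∉ Z ∧ fixedBy X g = {x}}

/-- number of elements outside `Z` whose only fixed point is `x`. -/
noncomputable def parabCard (x : X) : ℕ := Nat.card (parabAt Z x)

open Classical in
theorem stabCard_eq_sum (x : X) : stabCard G x = ∑ g : G, if g • x = x then 1 else 0 := by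
  rw [stabCard, Nat.card_eq_fintype_card, ← Finset.card_filter, Fintype.card_subtype]
  rfl

open Classical in
theorem card_fixedBy_eq_sum (g : G) :
    Nat.card (fixedBy X g) = ∑ x : X, if g • x = x then 1 else 0 := by
  rw [Nat.card_eq_fintype_card, ← Finset.card_filter, Fintype.card_subtype]
  rfl

open Classical in
theorem parabCard_eq_sum (x : X) :
    parabCard Z x = ∑ g : G, if g ∉ Z ∧ fixedBy X g = {x} then 1 else 0 := by
  rw [parabCard, Nat.card_eq_fintype_card, Fintype.card_subtype, Finset.card_filter]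
  refine Finset.sum_congr rfl fun g _ => ?_
  simp only [parabAt, Set.mem_ofPred_eq]
  congr

open Classical in
theorem sum_stabCard_eq_sum_fixedBy :
    ∑ x : X, stabCard G x = ∑ g : G, Nat.card (fixedBy X g) := by
  rw [Finset.sum_congr rfl (fun x _ => stabCard_eq_sum x),
    Finset.sum_congr rfl (fun g _ => card_fixedBy_eq_sum g), Finset.sum_comm]

open Classical in
/-- **the counting identity**. -/
theorem sum_stabCard_add_sum_parabCard (hZ : ∀ g ∈ Z, ∀ x : X, g • x = x)
    (hfix : ∀ g : G, g ∉ Z → (∃ y, fixedBy X g = {y}) ∨ ∃ y z, y ≠ z ∧ fixedBy X g = {y, z}) :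
    ∑ x : X, stabCard G x + ∑ x : X, parabCard Z x + 2 * Nat.card Z =
      Nat.card Z * Fintype.card X + 2 * Fintype.card G := by
  rw [sum_stabCard_eq_sum_fixedBy, Finset.sum_congr rfl (fun x _ => parabCard_eq_sum Z x),
    Finset.sum_comm, ← Finset.sum_add_distrib]
  have key : ∀ g : G, Nat.card (fixedBy X g) +
      (∑ x : X, if g ∉ Z ∧ fixedBy X g = {x} then 1 else 0) =
      (if g ∈ Z then Fintype.card X else 0) + (if g ∈ Z then 0 else 2) := by
    intro g
    by_cases hg : g ∈ Z
    · have h1 : fixedBy X g = Set.univ := Set.eq_univ_of_forall fun x => hZ g hg x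
      rw [h1]
      simp [hg]
    · simp only [hg, not_false_eq_true, true_and, if_false, zero_add]
      rcases hfix g hg with ⟨y, hy⟩ | ⟨y, z, hyz, hy⟩
      · rw [hy]
        have : ∀ x : X, (({y} : Set X) = {x}) ↔ x = y := by
          intro x
          rw [Set.singleton_eq_singleton_iff, eq_comm]
        simp [this]
      · rw [hy]
        have h1 : ∀ x : X, ¬ (({y, z} : Set X) = {x}) := by
          intro x h
          have hy' : y ∈ ({x} : Set X) := h ▸ Set.mem_insert _ _
          have hz' : z ∈ ({x} : Set X) := h ▸ Set.mem_insert_of_mem _ rfl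
          exact hyz (hy'.trans hz'.symm)
        simp only [h1, if_false, Finset.sum_const_zero, add_zero]
        rw [Nat.card_eq_fintype_card, ← Set.toFinset_card]
        simp [Finset.card_pair hyz]
  rw [Finset.sum_congr rfl (fun g _ => key g), Finset.sum_add_distrib, Finset.sum_ite,
    Finset.sum_ite, Finset.sum_const_zero, Finset.sum_const_zero, add_zero, zero_add,
    Finset.sum_const, Finset.sum_const]
  have hcardZ : (Finset.univ.filter (fun g : G => g ∈ Z)).card = Nat.card Z := by
    rw [Nat.card_eq_fintype_card, Fintype.card_subtype]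
  have hcardnZ : (Finset.univ.filter (fun g : G => ¬ g ∈ Z)).card + Nat.card Z =
      Fintype.card G := by
    rw [← hcardZ, add_comm]
    exact Finset.card_filter_add_card_filter_not (s := Finset.univ) (fun g : G => g ∈ Z)
  rw [hcardZ, smul_eq_mul, smul_eq_mul]
  have : (Finset.univ.filter (fun g : G => ¬ g ∈ Z)).card * 2 + 2 * Nat.card Z =
      2 * Fintype.card G := by
    rw [← hcardnZ]; ring
  omega

end Count

section Orbits

variable {G X : Type*} [Group G] [MulAction G X] [Fintype G] [Fintype X] (Z : Subgroup G)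

open Classical in
/-- the orbit of `x` as a finset. -/
noncomputable def orbF (G : Type*) {X : Type*} [Group G] [MulAction G X] [Fintype X] (x : X) :
    Finset X :=
  Finset.univ.filter (fun y => y ∈ orbit G x)

theorem mem_orbF {x y : X} : y ∈ orbF G x ↔ y ∈ orbit G x := by
  classical
  simp [orbF]

theorem self_mem_orbF (x : X) : x ∈ orbF G x := mem_orbF.mpr (mem_orbit_self x)

theorem card_orbF_pos (x : X) : 0 < (orbF G x).card := Finset.card_pos.mpr ⟨x, self_mem_orbF x⟩

theorem card_orbF_mul_stabCard (x : X) : (orbF G x).card * stabCard G x = Fintype.card G := by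
  classical
  have h := card_orbit_mul_card_stabilizer_eq_card_group G x
  rw [stabCard, Nat.card_eq_fintype_card, ← h]
  congr 1
  rw [← Set.toFinset_card]
  congr 1
  ext y
  simp [orbF]

theorem orbF_eq_of_mem {x y : X} (h : y ∈ orbit G x) : orbF G y = orbF G x := by
  ext w
  rw [mem_orbF, mem_orbF, orbit_eq_iff.mpr h]

theorem stabCard_smul (g : G) (x : X) : stabCard G (g • x) = stabCard G x := by
  have h1 := card_orbF_mul_stabCard (G := G) x
  have h2 := card_orbF_mul_stabCard (G := G) (g • x)
  rw [orbF_eq_of_mem (mem_orbit x g)] at h2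
  exact Nat.eq_of_mul_eq_mul_left (card_orbF_pos x) (h2.trans h1.symm)

theorem disjoint_orbF {x y : X} (h : y ∉ orbit G x) : Disjoint (orbF G x) (orbF G y) := by
  rw [Finset.disjoint_left]
  intro w hw hw'
  rw [mem_orbF] at hw hw'
  apply h
  rw [← orbit_eq_iff] 
  rw [← orbit_eq_iff.mpr hw, orbit_eq_iff.mpr hw']

theorem sum_orbF (c : X → ℕ) (hc : ∀ (g : G) (x : X), c (g • x) = c x) (x : X) :
    ∑ y ∈ orbF G x, c y = (orbF G x).card * c x := by
  rw [Finset.sum_congr rfl (g := fun _ => c x), Finset.sum_const, smul_eq_mul]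
  intro y hy
  obtain ⟨g, rfl⟩ := mem_orbF.mp hy
  exact hc g x

theorem parabCard_smul [hZn : Z.Normal] (g : G) (x : X) :
    parabCard Z (g • x) = parabCard Z x := by
  rw [parabCard, parabCard]
  refine Nat.card_congr ⟨fun h => ⟨g⁻¹ * h.1 * g, ?_⟩, fun h => ⟨g * h.1 * g⁻¹, ?_⟩, ?_, ?_⟩
  · obtain ⟨h, h1, h2⟩ := h
    refine ⟨fun hmem => h1 ?_, ?_⟩
    · have := hZn.conj_mem _ hmem g
      simpa [mul_assoc] using this
    · have h3 := smul_fixedBy X h g⁻¹
      rw [h2, Set.smul_set_singleton, inv_smul_smul, inv_inv] at h3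
      exact h3.symm
  · obtain ⟨h, h1, h2⟩ := h
    refine ⟨fun hmem => h1 ?_, ?_⟩
    · have := hZn.conj_mem _ hmem g⁻¹
      simpa [mul_assoc] using this
    · have h3 := smul_fixedBy X h g
      rw [h2, Set.smul_set_singleton] at h3
      exact h3.symm
  · intro h
    apply Subtype.ext
    simp [mul_assoc]
  · intro h
    apply Subtype.ext
    simp [mul_assoc]

theorem card_le_parabCard (hZc : ∀ g ∈ Z, ∀ x : X, g • x = x) (x : X) (h : 0 < parabCard Z x) :
    Nat.card Z ≤ parabCard Z x := by
  rw [parabCard] at h ⊢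
  obtain ⟨⟨g, hg1, hg2⟩⟩ := (Nat.card_pos_iff.mp h).1
  refine Nat.card_le_card_of_injective (fun ζ : Z => (⟨ζ.1 * g, ?_, ?_⟩ : parabAt Z x)) ?_
  · intro hmem
    apply hg1
    have := Z.mul_mem (Z.inv_mem ζ.2) hmem
    simpa using this
  · rw [← hg2]
    ext y
    rw [mem_fixedBy, mem_fixedBy, mul_smul, hZc ζ.1 ζ.2]
  · intro ζ ζ' h
    have := congrArg Subtype.val h
    exact Subtype.ext (mul_right_cancel this)

theorem card_dvd_stabCard (hZc : ∀ g ∈ Z, ∀ x : X, g • x = x) (x : X) :
    Nat.card Z ∣ stabCard G x := by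
  have hle : Z ≤ stabilizer G x := fun g hg => mem_stabilizer_iff.mpr (hZc g hg x)
  exact Subgroup.card_dvd_of_le hle

end Orbits

section TwoOrbits

variable {G X : Type*} [Group G] [MulAction G X] [Fintype G] [Fintype X] (Z : Subgroup G)

/-- the weight of a point in the counting identity. -/
noncomputable def wt (x : X) : ℕ := stabCard G x - Nat.card Z + parabCard Z x

theorem wt_smul [Z.Normal] (g : G) (x : X) : wt Z (g • x) = wt Z x := by
  rw [wt, wt, stabCard_smul, parabCard_smul]

theorem card_le_stabCard (hZc : ∀ g ∈ Z, ∀ x : X, g • x = x) (x : X) :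
    Nat.card Z ≤ stabCard G x := by
  refine Nat.le_of_dvd ?_ (card_dvd_stabCard Z hZc x)
  rw [stabCard]
  exact Nat.card_pos

theorem sum_wt (hZc : ∀ g ∈ Z, ∀ x : X, g • x = x)
    (hfix : ∀ g : G, g ∉ Z → (∃ y, fixedBy X g = {y}) ∨ ∃ y z, y ≠ z ∧ fixedBy X g = {y, z}) :
    ∑ x : X, wt Z x + 2 * Nat.card Z = 2 * Fintype.card G := by
  have h := sum_stabCard_add_sum_parabCard Z hZc hfix
  have h1 : ∑ x : X, stabCard G x = ∑ x : X, (stabCard G x - Nat.card Z) +
      Nat.card Z * Fintype.card X := by
    rw [mul_comm, ← smul_eq_mul, ← Finset.card_univ, ← Finset.sum_const, ← Finset.sum_add_distrib]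
    refine Finset.sum_congr rfl fun x _ => ?_
    exact (Nat.sub_add_cancel (card_le_stabCard Z hZc x)).symm
  have h2 : ∑ x : X, wt Z x = ∑ x : X, (stabCard G x - Nat.card Z) + ∑ x : X, parabCard Z x := by
    rw [← Finset.sum_add_distrib]
    rfl
  omega

/-- **the two-orbit theorem**: if the stabiliser of `x₀` has order `z q κ`, with `z (q-1)` parabolic
elements at `x₀`, `q ≥ 3`, and `x₀` is not a fixed point, then every point carrying parabolic
elements is in the orbit of `x₀`, and there is exactly one more orbit with non-trivial stabilisers;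
its length is `n (q - 2) + 2`, `n` the length of the orbit of `x₀`. -/
theorem two_orbits [Z.Normal] (hZc : ∀ g ∈ Z, ∀ x : X, g • x = x)
    (hfix : ∀ g : G, g ∉ Z → (∃ y, fixedBy X g = {y}) ∨ ∃ y z, y ≠ z ∧ fixedBy X g = {y, z})
    (x₀ : X) (q κ : ℕ) (hq : 3 ≤ q) (hm : parabCard Z x₀ = Nat.card Z * (q - 1))
    (hb : stabCard G x₀ = Nat.card Z * q * κ) (hn : 2 ≤ (orbF G x₀).card) :
    (∀ x : X, 0 < parabCard Z x → x ∈ orbit G x₀) ∧
      ∃ s : ℕ, 2 ≤ s ∧ ((orbF G x₀).card * (q - 2) + 2) * s = (orbF G x₀).card * q * κ := by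
  classical
  set z := Nat.card Z with hz
  set n := (orbF G x₀).card with hn'
  set N₀ := Fintype.card G with hN₀
  have hzpos : 0 < z := Nat.card_pos
  have hκ : 0 < κ := by
    rcases Nat.eq_zero_or_pos κ with h | h
    · rw [h, mul_zero] at hb
      have := card_le_stabCard Z hZc x₀
      omega
    · exact h
  have htot : ∑ x : X, wt Z x + 2 * z = 2 * N₀ := sum_wt Z hZc hfix
  have hN : n * (z * q * κ) = N₀ := by rw [← hb]; exact card_orbF_mul_stabCard x₀
  have hOS : ∀ x : X, (orbF G x).card * stabCard G x = N₀ := fun x => card_orbF_mul_stabCard x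
  -- the contribution of the orbit of `x₀`
  have hS0 : ∑ y ∈ orbF G x₀, wt Z y = N₀ + n * z * (q - 2) := by
    rw [sum_orbF (wt Z) (wt_smul Z) x₀, wt, hm, hb, ← hN]
    have h1 : z ≤ z * q * κ := by
      calc z = z * 1 * 1 := by ring
        _ ≤ z * q * κ := Nat.mul_le_mul (Nat.mul_le_mul le_rfl (by omega)) hκ
    obtain ⟨q', rfl⟩ : ∃ q', q = q' + 3 := ⟨q - 3, by omega⟩
    have h2 : z * (q' + 3) * κ - z + z * (q' + 3 - 1) = z * (q' + 3) * κ + z * (q' + 3 - 2) := by
      have : z * (q' + 3 - 1) = z + z * (q' + 3 - 2) := by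
        have : q' + 3 - 1 = 1 + (q' + 3 - 2) := by omega
        rw [this]; ring
      omega
    rw [h2]
    ring
  -- contribution of an orbit with parabolic elements
  have hpar : ∀ x : X, 0 < parabCard Z x → N₀ ≤ ∑ y ∈ orbF G x, wt Z y := by
    intro x hx
    rw [sum_orbF (wt Z) (wt_smul Z) x, ← hOS x]
    refine Nat.mul_le_mul le_rfl ?_
    rw [wt]
    have h1 := card_le_parabCard Z hZc x hx
    have h2 := card_le_stabCard Z hZc x
    omega
  -- contribution of an orbit without parabolic elements but non-trivial stabiliser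
  have hell : ∀ x : X, parabCard Z x = 0 → 0 < wt Z x →
      ∃ s : ℕ, 2 ≤ s ∧ (orbF G x).card * z * s = N₀ ∧
        ∑ y ∈ orbF G x, wt Z y + z * (orbF G x).card = N₀ := by
    intro x hx0 hwt
    rw [wt, hx0, add_zero] at hwt
    obtain ⟨s, hs⟩ := card_dvd_stabCard Z hZc x
    have hs2 : 2 ≤ s := by
      by_contra hcon
      have : s = 0 ∨ s = 1 := by omega
      rcases this with rfl | rfl
      · rw [mul_zero] at hs; omega
      · rw [mul_one] at hs; omega
    refine ⟨s, hs2, ?_, ?_⟩
    · rw [mul_assoc, ← hs]; exact hOS x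
    · rw [sum_orbF (wt Z) (wt_smul Z) x, wt, hx0, add_zero, ← hOS x, hs]
      have : z * s - z + z = z * s := Nat.sub_add_cancel (by nlinarith)
      calc (orbF G x).card * (z * s - z) + z * (orbF G x).card
          = (orbF G x).card * (z * s - z + z) := by ring
        _ = (orbF G x).card * (z * s) := by rw [this]
  have hsub : ∀ (A : Finset X), ∑ y ∈ A, wt Z y ≤ ∑ y : X, wt Z y := fun A =>
    Finset.sum_le_sum_of_subset (Finset.subset_univ A)
  -- transitivity on the points carrying parabolic elements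
  have hT : ∀ x : X, 0 < parabCard Z x → x ∈ orbit G x₀ := by
    intro x hx
    by_contra hcon
    have hdisj := disjoint_orbF hcon
    have h1 := hsub (orbF G x₀ ∪ orbF G x)
    rw [Finset.sum_union hdisj, hS0] at h1
    have h2 := hpar x hx
    omega
  refine ⟨hT, ?_⟩
  -- existence of a second orbit
  have hex : ∃ x₁ : X, x₁ ∉ orbit G x₀ ∧ 0 < wt Z x₁ := by
    by_contra hcon
    push Not at hcon
    have h1 : ∑ y : X, wt Z y = ∑ y ∈ orbF G x₀, wt Z y := by
      symm
      refine Finset.sum_subset (Finset.subset_univ _) fun y _ hy => ?_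
      have := hcon y (fun h => hy (mem_orbF.mpr h))
      omega
    rw [h1, hS0] at htot
    have h3 : n * z * q ≤ n * (z * q * κ) := by
      calc n * z * q = n * (z * q * 1) := by ring
        _ ≤ n * (z * q * κ) := Nat.mul_le_mul le_rfl (Nat.mul_le_mul le_rfl hκ)
    have h4 : n * z * q = n * z * (q - 2) + 2 * (n * z) := by
      obtain ⟨q', rfl⟩ : ∃ q', q = q' + 2 := ⟨q - 2, by omega⟩
      rw [Nat.add_sub_cancel]; ring
    have h5 : 2 * z ≤ n * z := Nat.mul_le_mul hn le_rfl
    omega
  obtain ⟨x₁, hx₁, hw₁⟩ := hex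
  have hp₁ : parabCard Z x₁ = 0 := by
    by_contra h
    exact hx₁ (hT x₁ (Nat.pos_of_ne_zero h))
  obtain ⟨s, hs2, hs, hS1⟩ := hell x₁ hp₁ hw₁
  have hdisj01 := disjoint_orbF hx₁
  -- no third orbit
  have hno : ∀ x : X, x ∉ orbit G x₀ → x ∉ orbit G x₁ → wt Z x = 0 := by
    intro x h0 h1
    by_contra hne
    have hw : 0 < wt Z x := Nat.pos_of_ne_zero hne
    have hp : parabCard Z x = 0 := by
      by_contra h
      exact h0 (hT x (Nat.pos_of_ne_zero h))
    obtain ⟨s', hs2', hs', hS2⟩ := hell x hp hw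
    have hd0 := disjoint_orbF h0
    have hd1 := disjoint_orbF h1
    have h2 := hsub ((orbF G x₀ ∪ orbF G x₁) ∪ orbF G x)
    rw [Finset.sum_union (Finset.disjoint_union_left.mpr ⟨hd0, hd1⟩),
      Finset.sum_union hdisj01, hS0] at h2
    have h3 : 2 * (z * (orbF G x₁).card) ≤ N₀ := by rw [← hs]; nlinarith
    have h4 : 2 * (z * (orbF G x).card) ≤ N₀ := by rw [← hs']; nlinarith
    omega
  have h1 : ∑ y : X, wt Z y = ∑ y ∈ orbF G x₀ ∪ orbF G x₁, wt Z y := by
    symm
    refine Finset.sum_subset (Finset.subset_univ _) fun y _ hy => ?_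
    rw [Finset.mem_union, mem_orbF, mem_orbF, not_or] at hy
    exact hno y hy.1 hy.2
  rw [h1, Finset.sum_union hdisj01, hS0] at htot
  -- `z * D = 2 z + n z (q - 2)`
  have hD : (orbF G x₁).card = n * (q - 2) + 2 := by
    have h5 : z * (orbF G x₁).card = z * (n * (q - 2) + 2) := by
      have : n * z * (q - 2) = z * (n * (q - 2)) := by ring
      rw [mul_add, ← this]
      omega
    exact Nat.eq_of_mul_eq_mul_left hzpos h5
  refine ⟨s, hs2, ?_⟩
  rw [← hD]
  have h6 : z * ((orbF G x₁).card * s) = z * (n * q * κ) := by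
    calc z * ((orbF G x₁).card * s) = (orbF G x₁).card * z * s := by ring
      _ = N₀ := hs
      _ = n * (z * q * κ) := hN.symm
      _ = z * (n * q * κ) := by ring
  exact Nat.eq_of_mul_eq_mul_left hzpos h6

end TwoOrbits

end Fermat.Agent.S56lib.TW
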