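/-
S56 marathon, TW/ (helper2).  File 4: the "class equation" for a finite subgroup `Γ ≤ GL₂(k)`, `k` a
finite field of odd characteristic, all of whose elements have an eigenvector over `k`, which is
irreducible and contains a non-trivial upper unipotent element.
-/
import Mathlib
import Fermat.Agent.S56lib.TW.Mat2
import Fermat.Agent.S56lib.TW.Borel
import Fermat.Agent.S56lib.TW.OrbitCount

set_option autoImplicit false
set_option linter.unusedSectionVars false

namespace Fermat.Agent.S56lib.TW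

open scoped LinearAlgebra.Projectivization Matrix Pointwise
open Projectivization MulAction

section Numerics

/-- the arithmetic at the end of the class equation. -/
theorem ce_numerics (m κ j s f : ℕ) (hm : 3 ≤ m) (hf : m + 1 = κ * f) (hj : 1 ≤ j)
    (h : ((1 + j * (m + 2)) * m + 2) * s = (1 + j * (m + 2)) * (m + 2) * κ) :
    j = 1 ∧ (f = 1 ∨ f = 2) := by
  set n := 1 + j * (m + 2) with hn
  set D := n * m + 2 with hD
  have hκpos : 0 < κ := by
    rcases Nat.eq_zero_or_pos κ with h0 | h0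
    · rw [h0, zero_mul] at hf; omega
    · exact h0
  have hfpos : 0 < f := by
    rcases Nat.eq_zero_or_pos f with h0 | h0
    · rw [h0, mul_zero] at hf; omega
    · exact h0
  have hκle : κ ≤ m + 1 := by rw [hf]; exact Nat.le_mul_of_pos_right κ hfpos
  have hdvd : D ∣ n * ((m + 2) * κ) := ⟨s, by rw [h]; ring⟩
  have hg : Nat.gcd D n ∣ 2 := by
    have h1 : Nat.gcd D n ∣ D := Nat.gcd_dvd_left _ _
    have h2 : Nat.gcd D n ∣ n * m := Dvd.dvd.mul_right (Nat.gcd_dvd_right _ _) _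
    exact (Nat.dvd_add_right h2).mp h1
  have hD2 : D ∣ 2 * ((m + 2) * κ) := by
    have h1 : D ∣ Nat.gcd D (n * ((m + 2) * κ)) := Nat.dvd_gcd dvd_rfl hdvd
    have h2 := Nat.gcd_mul_right_dvd_mul_gcd D n ((m + 2) * κ)
    have h3 : Nat.gcd D n * Nat.gcd D ((m + 2) * κ) ∣ 2 * ((m + 2) * κ) :=
      Nat.mul_dvd_mul hg (Nat.gcd_dvd_right _ _)
    exact h1.trans (h2.trans h3)
  have hDle : D ≤ 2 * ((m + 2) * κ) := Nat.le_of_dvd (by positivity) hD2
  have hj2 : j ≤ 2 := by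
    by_contra hcon
    have hj3 : 3 ≤ j := by omega
    have h1 : (1 + 3 * (m + 2)) * m + 2 ≤ D := by
      rw [hD, hn]
      nlinarith
    have h2 : 2 * ((m + 2) * κ) ≤ 2 * ((m + 2) * (m + 1)) := by nlinarith
    nlinarith
  have hj1 : j = 1 := by
    by_contra hcon
    have hj2' : j = 2 := by omega
    subst hj2'
    have hDv : D = (m + 2) * (2 * m + 1) := by rw [hD, hn]; ring
    have h1 : 2 * m + 1 ≤ 2 * κ := by
      rw [hDv] at hDle
      have : (m + 2) * (2 * m + 1) ≤ (m + 2) * (2 * κ) := by nlinarith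
      exact Nat.le_of_mul_le_mul_left this (by omega)
    have hκeq : κ = m + 1 := by omega
    rw [hD] at h
    rw [hκeq] at h
    have h2 : (2 * m + 1) * s = (2 * m + 5) * (m + 1) := by
      have h3 : (m + 2) * ((2 * m + 1) * s) = (m + 2) * ((2 * m + 5) * (m + 1)) := by
        rw [hn] at h
        nlinarith
      exact Nat.eq_of_mul_eq_mul_left (by omega) h3
    have h4 : (2 * m + 1) ∣ 2 := by
      have h5 : (2 * m + 1) ∣ (2 * m + 1) * (m + 3) + 2 := ⟨s, by rw [h2]; ring⟩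
      exact (Nat.dvd_add_right (Dvd.intro _ rfl)).mp h5
    have := Nat.le_of_dvd (by norm_num) h4
    omega
  refine ⟨hj1, ?_⟩
  subst hj1
  have h1 : (m + 1) * s = (m + 3) * κ := by
    have h3 : (m + 2) * ((m + 1) * s) = (m + 2) * ((m + 3) * κ) := by
      rw [hD, hn] at h
      nlinarith
    exact Nat.eq_of_mul_eq_mul_left (by omega) h3
  rw [hf] at h1
  have h2 : f * s = m + 3 := by
    have : κ * (f * s) = κ * (m + 3) := by nlinarith
    exact Nat.eq_of_mul_eq_mul_left hκpos this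
  have h3 : f ∣ m + 1 := ⟨κ, by rw [hf]; ring⟩
  have h4 : f ∣ m + 3 := ⟨s, h2.symm⟩
  have h5 : f ∣ 2 := by
    have : f ∣ (m + 1) + 2 := by rw [show m + 1 + 2 = m + 3 by ring]; exact h4
    exact (Nat.dvd_add_right h3).mp this
  have := Nat.le_of_dvd (by norm_num) h5
  omega

end Numerics

section Structure

variable {k : Type*} [Field k] (Γ : Subgroup (GL (Fin 2) k))

/-- the parameters of the upper unipotent elements of `Γ`. -/
def unipParam : AddSubgroup k where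
  carrier := {y | uni y ∈ Γ}
  zero_mem' := by
    show uni 0 ∈ Γ
    rw [uni_zero]; exact Γ.one_mem
  add_mem' := by
    intro a b ha hb
    show uni (a + b) ∈ Γ
    rw [uni_add]; exact Γ.mul_mem ha hb
  neg_mem' := by
    intro a ha
    show uni (-a) ∈ Γ
    rw [uni_neg]; exact Γ.inv_mem ha

theorem mem_unipParam {y : k} : y ∈ unipParam Γ ↔ uni y ∈ Γ := Iff.rfl

/-- the upper triangular elements of `Γ`. -/
noncomputable def borelOf : Subgroup (GL (Fin 2) k) := Γ ⊓ stabilizer (GL (Fin 2) k) (ptInf : P1 k)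

theorem mem_borelOf {g : GL (Fin 2) k} : g ∈ borelOf Γ ↔ g ∈ Γ ∧ g.1 1 0 = 0 := by
  rw [borelOf, Subgroup.mem_inf, mem_stabilizer_iff, smul_ptInf_eq_iff]

/-- the scalar elements of `Γ`. -/
def scalOf : Subgroup (GL (Fin 2) k) := Γ ⊓ Subgroup.center (GL (Fin 2) k)

theorem mem_scalOf {g : GL (Fin 2) k} : g ∈ scalOf Γ ↔ g ∈ Γ ∧ IsScal g.1 := by
  rw [scalOf, Subgroup.mem_inf, isScal_iff_mem_center]

theorem scalOf_le_borelOf : scalOf Γ ≤ borelOf Γ := by
  intro g hg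
  rw [mem_scalOf] at hg
  rw [mem_borelOf]
  exact ⟨hg.1, hg.2.2.1⟩

/-- the ratio of the diagonal entries, a character of the upper triangular group. -/
noncomputable def ratio : ↥(borelOf Γ) →* kˣ where
  toFun g := Units.mk0 (g.1.1 0 0 / g.1.1 1 1) (by
    obtain ⟨h1, h2⟩ := diag_ne_zero_of_upper g.1 ((mem_borelOf Γ).mp g.2).2
    exact div_ne_zero h1 h2)
  map_one' := by
    apply Units.ext
    simp
  map_mul' g h := by
    apply Units.ext
    have hg := ((mem_borelOf Γ).mp g.2).2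
    have hh := ((mem_borelOf Γ).mp h.2).2
    obtain ⟨h1, h2⟩ := diag_ne_zero_of_upper g.1 hg
    obtain ⟨h3, h4⟩ := diag_ne_zero_of_upper h.1 hh
    show ((g * h : ↥(borelOf Γ)) : GL (Fin 2) k).1 0 0 /
        ((g * h : ↥(borelOf Γ)) : GL (Fin 2) k).1 1 1 =
      (g.1.1 0 0 / g.1.1 1 1) * (h.1.1 0 0 / h.1.1 1 1)
    rw [Subgroup.coe_mul, mul_val_00, mul_val_11, hg, hh]
    field_simp
    ring

theorem ratio_apply (g : ↥(borelOf Γ)) : ((ratio Γ g : kˣ) : k) = g.1.1 0 0 / g.1.1 1 1 := rfl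

theorem mem_ker_ratio (g : ↥(borelOf Γ)) : g ∈ (ratio Γ).ker ↔ g.1.1 0 0 = g.1.1 1 1 := by
  rw [MonoidHom.mem_ker, ← Units.val_inj, ratio_apply, Units.val_one]
  obtain ⟨h1, h2⟩ := diag_ne_zero_of_upper g.1 ((mem_borelOf Γ).mp g.2).2
  rw [div_eq_one_iff_eq h2]

end Structure

section Finite

variable {k : Type*} [Field k] [Fintype k] (Γ : Subgroup (GL (Fin 2) k))

theorem card_sub_one_nsmul (y : k) : (Fintype.card k - 1) • y = -y := by
  have h1 : (Fintype.card k - 1 + 1) • y = 0 := by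
    rw [Nat.sub_add_cancel Fintype.card_pos, nsmul_eq_mul, Nat.cast_card_eq_zero, zero_mul]
  rw [succ_nsmul] at h1
  exact eq_neg_of_add_eq_zero_left h1

/-- an upper triangular element of `Γ` with equal diagonal entries is the product of a scalar of `Γ`
and a unipotent of `Γ`. -/
theorem uni_mem_of_upper_eq {g : GL (Fin 2) k} (hg : g ∈ Γ) (h10 : g.1 1 0 = 0)
    (had : g.1 0 0 = g.1 1 1) :
    uni (g.1 0 1 / g.1 0 0) ∈ Γ ∧ scal (Units.mk0 _ (diag_ne_zero_of_upper g h10).1) ∈ Γ := by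
  have hdec := upper_eq_scal_mul_uni g h10 had
  set a : kˣ := Units.mk0 _ (diag_ne_zero_of_upper g h10).1 with ha
  set y : k := g.1 0 1 / g.1 0 0 with hy
  have hpow : g ^ (Fintype.card k - 1) = uni (-y) := by
    rw [hdec, scal_mul_uni_pow, card_sub_one_nsmul]
    have h1 : a ^ (Fintype.card k - 1) = 1 := by
      apply Units.ext
      rw [Units.val_pow_eq_pow_val, Units.val_one]
      exact FiniteField.pow_card_sub_one_eq_one _ a.ne_zero
    rw [h1]
    apply GL_ext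
    · rw [mul_val_00]; simp
    · rw [mul_val_01]; simp
    · rw [mul_val_10]; simp
    · rw [mul_val_11]; simp
  have h1 : uni (-y) ∈ Γ := hpow ▸ Γ.pow_mem hg _
  have h2 : uni y ∈ Γ := by
    have := Γ.inv_mem h1
    rwa [← uni_neg, neg_neg] at this
  refine ⟨h2, ?_⟩
  have h3 : scal a = g * (uni y)⁻¹ := by
    rw [eq_mul_inv_iff_mul_eq]
    exact hdec.symm
  rw [h3]
  exact Γ.mul_mem hg (Γ.inv_mem h2)

theorem scal_mul_uni_entries (s : GL (Fin 2) k) (hs : IsScal s.1) (y : k) :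
    (s * uni y).1 0 0 = s.1 0 0 ∧ (s * uni y).1 0 1 = s.1 0 0 * y ∧ (s * uni y).1 1 0 = 0 ∧
      (s * uni y).1 1 1 = s.1 0 0 := by
  obtain ⟨h01, h10, h00⟩ := hs
  refine ⟨?_, ?_, ?_, ?_⟩
  · rw [mul_val_00]; simp
  · rw [mul_val_01]; simp [h01]
  · rw [mul_val_10]; simp [h10]
  · rw [mul_val_11]; simp [h10, h00]

theorem scal_00_ne_zero (s : GL (Fin 2) k) (hs : IsScal s.1) : s.1 0 0 ≠ 0 :=
  (diag_ne_zero_of_upper s hs.2.1).1

theorem scal_ext {s s' : GL (Fin 2) k} (hs : IsScal s.1) (hs' : IsScal s'.1)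
    (h : s.1 0 0 = s'.1 0 0) : s = s' := by
  apply GL_ext
  · exact h
  · rw [hs.1, hs'.1]
  · rw [hs.2.1, hs'.2.1]
  · rw [← hs.2.2, ← hs'.2.2, h]

/-- `ker (ratio) = Z × P`. -/
theorem card_ker_ratio :
    Nat.card (ratio Γ).ker = Nat.card (scalOf Γ) * Nat.card (unipParam Γ) := by
  rw [← Nat.card_prod]
  symm
  refine Nat.card_congr (Equiv.ofBijective
    (fun sy : ↥(scalOf Γ) × ↥(unipParam Γ) =>
      (⟨⟨sy.1.1 * uni sy.2.1, ?_⟩, ?_⟩ : ↥(ratio Γ).ker)) ⟨?_, ?_⟩)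
  · obtain ⟨hs1, hs2⟩ := (mem_scalOf Γ).mp sy.1.2
    rw [mem_borelOf]
    exact ⟨Γ.mul_mem hs1 sy.2.2, (scal_mul_uni_entries _ hs2 _).2.2.1⟩
  · obtain ⟨hs1, hs2⟩ := (mem_scalOf Γ).mp sy.1.2
    rw [mem_ker_ratio]
    obtain ⟨h1, -, -, h4⟩ := scal_mul_uni_entries _ hs2 sy.2.1
    show (sy.1.1 * uni sy.2.1).1 0 0 = (sy.1.1 * uni sy.2.1).1 1 1
    rw [h1, h4]
  · rintro ⟨s, y⟩ ⟨s', y'⟩ h
    have h0 : s.1 * uni y.1 = s'.1 * uni y'.1 := congrArg (fun g : ↥(ratio Γ).ker => g.1.1) h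
    obtain ⟨hs1, hs2⟩ := (mem_scalOf Γ).mp s.2
    obtain ⟨hs1', hs2'⟩ := (mem_scalOf Γ).mp s'.2
    obtain ⟨h1, h2, -, -⟩ := scal_mul_uni_entries _ hs2 y.1
    obtain ⟨h1', h2', -, -⟩ := scal_mul_uni_entries _ hs2' y'.1
    have e1 : s.1.1 0 0 = s'.1.1 0 0 := by rw [← h1, ← h1', h0]
    have e2 : s.1.1 0 0 * y.1 = s'.1.1 0 0 * y'.1 := by rw [← h2, ← h2', h0]
    rw [← e1] at e2
    have e3 : y.1 = y'.1 := mul_left_cancel₀ (scal_00_ne_zero _ hs2) e2
    exact Prod.ext (Subtype.ext (scal_ext hs2 hs2' e1)) (Subtype.ext e3)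
  · rintro ⟨⟨g, hgB⟩, hgK⟩
    obtain ⟨hgΓ, h10⟩ := (mem_borelOf Γ).mp hgB
    have had : g.1 0 0 = g.1 1 1 := (mem_ker_ratio Γ ⟨g, hgB⟩).mp hgK
    obtain ⟨hu, hsc⟩ := uni_mem_of_upper_eq Γ hgΓ h10 had
    refine ⟨⟨⟨_, (mem_scalOf Γ).mpr ⟨hsc, isScal_scal _⟩⟩, ⟨_, hu⟩⟩, ?_⟩
    apply Subtype.ext
    apply Subtype.ext
    exact (upper_eq_scal_mul_uni g h10 had).symm

/-- the order of the upper triangular subgroup. -/
theorem card_borelOf :
    Nat.card (borelOf Γ) =
      Nat.card (scalOf Γ) * Nat.card (unipParam Γ) * Nat.card (ratio Γ).range := by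
  rw [← card_ker_ratio, ← Subgroup.index_ker]
  exact (Subgroup.card_mul_index _).symm

end Finite

section Bridge

variable {k : Type*} [Field k] [Fintype k] (Γ : Subgroup (GL (Fin 2) k))

/-- the scalars of `Γ`, as a subgroup of `↥Γ`. -/
def scalSub : Subgroup ↥Γ := (Subgroup.center (GL (Fin 2) k)).subgroupOf Γ

instance scalSub_normal : (scalSub Γ).Normal := by
  unfold scalSub
  infer_instance

theorem mem_scalSub (g : ↥Γ) : g ∈ scalSub Γ ↔ IsScal g.1.1 := by
  rw [scalSub, Subgroup.mem_subgroupOf, isScal_iff_mem_center]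

theorem card_scalSub : Nat.card (scalSub Γ) = Nat.card (scalOf Γ) := by
  rw [scalSub, scalOf, ← Subgroup.inf_subgroupOf_left]
  exact Nat.card_congr (Subgroup.subgroupOfEquivOfLe inf_le_left).toEquiv

theorem smul_def' (g : ↥Γ) (x : P1 k) : g • x = (g : GL (Fin 2) k) • x := rfl

theorem scalSub_smul (g : ↥Γ) (hg : g ∈ scalSub Γ) (x : P1 k) : g • x = x := by
  rw [smul_def']
  exact (isScal_iff_forall_smul g.1).mp ((mem_scalSub Γ g).mp hg) x

theorem fixedBy_coe (g : ↥Γ) : fixedBy (P1 k) g = fixedBy (P1 k) (g : GL (Fin 2) k) := rfl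

theorem fixedBy_dichotomy (hsplit : ∀ g ∈ Γ, ∃ x : P1 k, g • x = x) (g : ↥Γ)
    (hg : g ∉ scalSub Γ) :
    (∃ y, fixedBy (P1 k) g = {y}) ∨ ∃ y z, y ≠ z ∧ fixedBy (P1 k) g = {y, z} := by
  obtain ⟨x, hx⟩ := hsplit g.1 g.2
  rw [fixedBy_coe]
  exact fixedBy_eq_one_or_two g.1 (fun h => hg ((mem_scalSub Γ g).mpr h)) x hx

theorem stabCard_ptInf : stabCard ↥Γ (ptInf : P1 k) = Nat.card (borelOf Γ) := by
  rw [stabCard]
  refine Nat.card_congr ⟨fun g => ⟨g.1.1, ?_⟩, fun g => ⟨⟨g.1, ((mem_borelOf Γ).mp g.2).1⟩, ?_⟩,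
    fun g => rfl, fun g => rfl⟩
  · rw [mem_borelOf]
    refine ⟨g.1.2, ?_⟩
    have := g.2
    rw [mem_stabilizer_iff, smul_def', smul_ptInf_eq_iff] at this
    exact this
  · rw [mem_stabilizer_iff, smul_def', smul_ptInf_eq_iff]
    exact ((mem_borelOf Γ).mp g.2).2

theorem card_unipParam_ne_zero :
    Nat.card {y : ↥(unipParam Γ) // y ≠ 0} = Nat.card (unipParam Γ) - 1 := by
  classical
  rw [Nat.card_eq_fintype_card, Nat.card_eq_fintype_card, Fintype.card_subtype_compl,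
    Fintype.card_subtype_eq]

/-- the parabolic elements of `Γ` at `∞` are the products of a scalar of `Γ` and a non-trivial upper
unipotent element of `Γ`. -/
theorem parabCard_ptInf :
    parabCard (scalSub Γ) (ptInf : P1 k) =
      Nat.card (scalOf Γ) * (Nat.card (unipParam Γ) - 1) := by
  rw [parabCard, ← card_unipParam_ne_zero, ← Nat.card_prod]
  symm
  refine Nat.card_congr (Equiv.ofBijective
    (fun sy : ↥(scalOf Γ) × {y : ↥(unipParam Γ) // y ≠ 0} =>
      (⟨⟨sy.1.1 * uni sy.2.1.1, ?_⟩, ?_⟩ : ↥(parabAt (scalSub Γ) (ptInf : P1 k)))) ⟨?_, ?_⟩)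
  · exact Γ.mul_mem ((mem_scalOf Γ).mp sy.1.2).1 sy.2.1.2
  · obtain ⟨hs1, hs2⟩ := (mem_scalOf Γ).mp sy.1.2
    obtain ⟨h1, h2, h3, h4⟩ := scal_mul_uni_entries _ hs2 sy.2.1.1
    have hy : sy.2.1.1 ≠ 0 := fun h => sy.2.2 (Subtype.ext h)
    have h01 : (sy.1.1 * uni sy.2.1.1).1 0 1 ≠ 0 := by
      rw [h2]
      exact mul_ne_zero (scal_00_ne_zero _ hs2) hy
    refine ⟨?_, ?_⟩
    · rw [mem_scalSub]
      intro hsc
      exact h01 hsc.1
    · rw [fixedBy_coe]
      exact fixedBy_upper_of_eq _ h3 (h1.trans h4.symm) h01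
  · rintro ⟨s, y⟩ ⟨s', y'⟩ h
    have h0 : s.1 * uni y.1.1 = s'.1 * uni y'.1.1 :=
      congrArg (fun g : ↥(parabAt (scalSub Γ) (ptInf : P1 k)) => g.1.1) h
    obtain ⟨hs1, hs2⟩ := (mem_scalOf Γ).mp s.2
    obtain ⟨hs1', hs2'⟩ := (mem_scalOf Γ).mp s'.2
    obtain ⟨h1, h2, -, -⟩ := scal_mul_uni_entries _ hs2 y.1.1
    obtain ⟨h1', h2', -, -⟩ := scal_mul_uni_entries _ hs2' y'.1.1
    have e1 : s.1.1 0 0 = s'.1.1 0 0 := by rw [← h1, ← h1', h0]
    have e2 : s.1.1 0 0 * y.1.1 = s'.1.1 0 0 * y'.1.1 := by rw [← h2, ← h2', h0]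
    rw [← e1] at e2
    have e3 : y.1.1 = y'.1.1 := mul_left_cancel₀ (scal_00_ne_zero _ hs2) e2
    exact Prod.ext (Subtype.ext (scal_ext hs2 hs2' e1)) (Subtype.ext (Subtype.ext e3))
  · rintro ⟨g, hgZ, hgfix⟩
    have hfix : (g : GL (Fin 2) k) • (ptInf : P1 k) = ptInf := by
      have : (ptInf : P1 k) ∈ fixedBy (P1 k) g := by rw [hgfix]; rfl
      exact this
    have h10 := (smul_ptInf_eq_iff g.1).mp hfix
    have had : g.1.1 0 0 = g.1.1 1 1 := by
      by_contra hne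
      obtain ⟨y, hy, hfy⟩ := fixedBy_upper_of_ne g.1 h10 hne
      rw [fixedBy_coe, hfy] at hgfix
      have : y ∈ ({ptInf} : Set (P1 k)) := hgfix ▸ Set.mem_insert_of_mem _ rfl
      exact hy this
    obtain ⟨hu, hsc⟩ := uni_mem_of_upper_eq Γ g.2 h10 had
    have hb : g.1.1 0 1 / g.1.1 0 0 ≠ 0 := by
      apply div_ne_zero _ (diag_ne_zero_of_upper g.1 h10).1
      intro hb
      exact hgZ ((mem_scalSub Γ g).mpr ⟨hb, h10, had⟩)
    refine ⟨⟨⟨_, (mem_scalOf Γ).mpr ⟨hsc, isScal_scal _⟩⟩, ⟨⟨_, hu⟩, ?_⟩⟩, ?_⟩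
    · intro h
      exact hb (congrArg Subtype.val h)
    · apply Subtype.ext
      apply Subtype.ext
      exact (upper_eq_scal_mul_uni g.1 h10 had).symm

end Bridge

section Free

variable {k : Type*} [Field k] [Fintype k] (Γ : Subgroup (GL (Fin 2) k))

theorem ratio_mul_mem (g : ↥(borelOf Γ)) {y : k} (hy : y ∈ unipParam Γ) :
    ((ratio Γ g : kˣ) : k) * y ∈ unipParam Γ := by
  obtain ⟨hgΓ, h10⟩ := (mem_borelOf Γ).mp g.2
  rw [mem_unipParam, ratio_apply]
  have h := upper_mul_uni g.1 h10 y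
  have h2 : uni (g.1.1 0 0 / g.1.1 1 1 * y) = g.1 * uni y * g.1⁻¹ := by
    rw [h, mul_inv_cancel_right]
  rw [h2]
  exact Γ.mul_mem (Γ.mul_mem hgΓ hy) (Γ.inv_mem hgΓ)

/-- the non-zero parameters of the unipotent elements. -/
abbrev UnipNZ : Type _ := {y : ↥(unipParam Γ) // y ≠ 0}

/-- the range of the ratio character acts on the non-zero unipotent parameters. -/
@[reducible] noncomputable def ratioAction : MulAction ↥(ratio Γ).range (UnipNZ Γ) where
  smul r y := ⟨⟨(r.1 : k) * y.1.1, by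
      obtain ⟨g, hg⟩ := r.2
      rw [← hg]
      exact ratio_mul_mem Γ g y.1.2⟩, by
      intro h
      have h1 : (r.1 : k) * y.1.1 = 0 := congrArg Subtype.val h
      rcases mul_eq_zero.mp h1 with h2 | h2
      · exact r.1.ne_zero h2
      · exact y.2 (Subtype.ext h2)⟩
  one_smul y := by
    apply Subtype.ext
    apply Subtype.ext
    show ((1 : ↥(ratio Γ).range).1 : k) * y.1.1 = y.1.1
    simp
  mul_smul r r' y := by
    apply Subtype.ext
    apply Subtype.ext
    show ((r * r' : ↥(ratio Γ).range).1 : k) * y.1.1 = (r.1 : k) * ((r'.1 : k) * y.1.1)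
    simp [mul_assoc]

theorem card_range_ratio_dvd :
    Nat.card (ratio Γ).range ∣ Nat.card (unipParam Γ) - 1 := by
  let _ := ratioAction Γ
  rw [← card_unipParam_ne_zero]
  have hfree : ∀ y : UnipNZ Γ, stabilizer ↥(ratio Γ).range y = ⊥ := by
    intro y
    rw [eq_bot_iff]
    intro r hr
    rw [mem_stabilizer_iff] at hr
    have h1 : (r.1 : k) * y.1.1 = y.1.1 := congrArg (fun z : UnipNZ Γ => z.1.1) hr
    have hy : y.1.1 ≠ 0 := fun h => y.2 (Subtype.ext h)
    have h2 : (r.1 : k) = 1 := by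
      have : ((r.1 : k) - 1) * y.1.1 = 0 := by rw [sub_mul, h1, one_mul, sub_self]
      rcases mul_eq_zero.mp this with h3 | h3
      · exact sub_eq_zero.mp h3
      · exact absurd h3 hy
    rw [Subgroup.mem_bot]
    exact Subtype.ext (Units.ext h2)
  have e := selfEquivOrbitsQuotientProd hfree
  rw [Nat.card_congr e, Nat.card_prod]
  exact Dvd.intro_left _ rfl

/-- the points of the orbit of `∞` other than `∞`. -/
abbrev OrbNI : Type _ := {x : P1 k // x ∈ orbit ↥Γ (ptInf : P1 k) ∧ x ≠ ptInf}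

theorem uni_smul_ptInf (y : k) : uni y • (ptInf : P1 k) = ptInf := by
  rw [smul_ptInf_eq_iff]
  simp

/-- the upper unipotent elements of `Γ` act on the rest of the orbit of `∞`. -/
@[reducible] noncomputable def unipAction : MulAction (Multiplicative ↥(unipParam Γ)) (OrbNI Γ) where
  smul y x := ⟨uni y.toAdd.1 • x.1, by
      obtain ⟨g, hg⟩ := x.2.1
      have hg' : g • (ptInf : P1 k) = x.1 := hg
      refine ⟨⟨uni y.toAdd.1, (mem_unipParam Γ).mp y.toAdd.2⟩ * g, ?_⟩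
      show ((⟨uni y.toAdd.1, (mem_unipParam Γ).mp y.toAdd.2⟩ : ↥Γ) * g) • (ptInf : P1 k) =
        uni y.toAdd.1 • x.1
      rw [mul_smul, hg']
      rfl, by
      intro h
      apply x.2.2
      have h2 : uni y.toAdd.1 • x.1 = uni y.toAdd.1 • (ptInf : P1 k) := by
        rw [h, uni_smul_ptInf]
      exact smul_left_cancel _ h2⟩
  one_smul x := by
    apply Subtype.ext
    show uni (0 : k) • x.1 = x.1
    rw [uni_zero, one_smul]
  mul_smul y y' x := by
    apply Subtype.ext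
    show uni (y.toAdd.1 + y'.toAdd.1) • x.1 = uni y.toAdd.1 • (uni y'.toAdd.1 • x.1)
    rw [uni_add, mul_smul]

theorem card_unipParam_dvd :
    Nat.card (unipParam Γ) ∣ Nat.card (OrbNI Γ) := by
  let _ := unipAction Γ
  have hfree : ∀ x : OrbNI Γ, stabilizer (Multiplicative ↥(unipParam Γ)) x = ⊥ := by
    intro x
    rw [eq_bot_iff]
    intro y hy
    rw [mem_stabilizer_iff] at hy
    have h1 : uni y.toAdd.1 • x.1 = x.1 := congrArg Subtype.val hy
    rw [Subgroup.mem_bot]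
    by_contra hne
    have hy0 : y.toAdd.1 ≠ 0 := by
      intro h0
      apply hne
      have : y.toAdd = 0 := Subtype.ext h0
      exact Multiplicative.toAdd.injective this
    have hfix := fixedBy_upper_of_eq (uni y.toAdd.1) (by simp) (by simp) (by simpa using hy0)
    have : x.1 ∈ fixedBy (P1 k) (uni y.toAdd.1) := h1
    rw [hfix] at this
    exact x.2.2 this
  have e := selfEquivOrbitsQuotientProd hfree
  rw [Nat.card_congr e, Nat.card_prod]
  exact Dvd.intro_left _ (by rw [Nat.card_eq_of_bijective _ Multiplicative.ofAdd.bijective])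

end Free

section Main

variable {k : Type*} [Field k] [Fintype k] (Γ : Subgroup (GL (Fin 2) k))

theorem card_unipParam_eq_pow (p : ℕ) [Fact p.Prime] [CharP k p] :
    ∃ a : ℕ, Nat.card (unipParam Γ) = p ^ a := by
  obtain ⟨n, -, hn⟩ := FiniteField.card k p
  have h1 : Nat.card (unipParam Γ) ∣ Nat.card k := AddSubgroup.card_addSubgroup_dvd_card _
  rw [Nat.card_eq_fintype_card (α := k), hn] at h1
  obtain ⟨a, -, ha⟩ := (Nat.dvd_prime_pow (Fact.out : p.Prime)).mp h1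
  exact ⟨a, ha⟩

theorem card_orbF_ptInf [Fintype (P1 k)] :
    (orbF ↥Γ (ptInf : P1 k)).card = Nat.card (OrbNI Γ) + 1 := by
  classical
  have h1 : Nat.card (OrbNI Γ) = ((orbF ↥Γ (ptInf : P1 k)).erase ptInf).card := by
    rw [Nat.card_eq_fintype_card, Fintype.card_subtype]
    congr 1
    ext x
    simp [mem_orbF, and_comm]
  rw [h1, Finset.card_erase_of_mem (self_mem_orbF _)]
  have := card_orbF_pos (G := ↥Γ) (ptInf : P1 k)
  omega

/-- **the class equation** for an irreducible `Γ ≤ GL₂(k)` containing a non-trivial upper unipotent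
element: transitivity on the points carrying parabolic elements, and the order of the torus part of
the upper triangular subgroup. -/
theorem classEq (p : ℕ) [Fact p.Prime] [CharP k p] (hp2 : p ≠ 2)
    (hsplit : ∀ g ∈ Γ, ∃ x : P1 k, g • x = x)
    (hirr : ∃ g ∈ Γ, g • (ptInf : P1 k) ≠ ptInf) (hA : ∃ y : k, y ≠ 0 ∧ uni y ∈ Γ) :
    (∀ x : P1 k, (∃ g : ↥Γ, g ∉ scalSub Γ ∧ fixedBy (P1 k) g = {x}) →
        ∃ g : ↥Γ, g • (ptInf : P1 k) = x) ∧
      (Nat.card (unipParam Γ) = 3 ∨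
        Nat.card (ratio Γ).range = Nat.card (unipParam Γ) - 1 ∨
        2 * Nat.card (ratio Γ).range = Nat.card (unipParam Γ) - 1) := by
  classical
  let _ : Fintype (P1 k) := Fintype.ofFinite _
  let _ : Fintype ↥Γ := Fintype.ofFinite _
  set q := Nat.card (unipParam Γ) with hq
  set κ := Nat.card (ratio Γ).range with hκ
  set z := Nat.card (scalOf Γ) with hz
  -- `q` is an odd prime power, `q ≥ 3`
  obtain ⟨a, ha⟩ := card_unipParam_eq_pow Γ p
  rw [← hq] at ha
  have hp : p.Prime := Fact.out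
  have hp3 : 3 ≤ p := by
    have := hp.two_le
    omega
  have hq1 : 1 < q := by
    obtain ⟨y, hy0, hy⟩ := hA
    rw [hq, Nat.card_eq_fintype_card]
    exact Fintype.one_lt_card_iff.mpr ⟨⟨y, hy⟩, 0, fun h => hy0 (congrArg Subtype.val h)⟩
  have ha1 : 1 ≤ a := by
    by_contra hcon
    have : a = 0 := by omega
    rw [this, pow_zero] at ha
    omega
  have hq3 : 3 ≤ q := by
    rw [ha]
    calc 3 ≤ p ^ 1 := by rw [pow_one]; exact hp3
      _ ≤ p ^ a := Nat.pow_le_pow_right hp.pos ha1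
  have hqodd : q % 2 = 1 := by
    rw [ha]
    have hpodd : p % 2 = 1 := by
      rcases hp.eq_two_or_odd with h | h
      · exact absurd h hp2
      · exact h
    simp [Nat.pow_mod, hpodd]
  -- data for the two-orbit theorem
  have hm : parabCard (scalSub Γ) (ptInf : P1 k) = Nat.card (scalSub Γ) * (q - 1) := by
    rw [parabCard_ptInf, card_scalSub]
  have hb : stabCard ↥Γ (ptInf : P1 k) = Nat.card (scalSub Γ) * q * κ := by
    rw [stabCard_ptInf, card_borelOf, card_scalSub]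
  have hn : 2 ≤ (orbF ↥Γ (ptInf : P1 k)).card := by
    obtain ⟨g, hg, hgne⟩ := hirr
    have h1 : (⟨g, hg⟩ : ↥Γ) • (ptInf : P1 k) ∈ orbF ↥Γ (ptInf : P1 k) :=
      mem_orbF.mpr (mem_orbit _ _)
    have h2 := self_mem_orbF (G := ↥Γ) (ptInf : P1 k)
    have h3 : ({(⟨g, hg⟩ : ↥Γ) • (ptInf : P1 k), ptInf} : Finset (P1 k)) ⊆
        orbF ↥Γ (ptInf : P1 k) := by
      intro x hx
      rw [Finset.mem_insert, Finset.mem_singleton] at hx
      rcases hx with rfl | rfl
      · exact h1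
      · exact h2
    have h4 := Finset.card_le_card h3
    have hgne' : (⟨g, hg⟩ : ↥Γ) • (ptInf : P1 k) ≠ ptInf := hgne
    rwa [Finset.card_pair hgne'] at h4
  obtain ⟨hT, s, hs2, hs⟩ := two_orbits (scalSub Γ) (scalSub_smul Γ) (fixedBy_dichotomy Γ hsplit)
    (ptInf : P1 k) q κ hq3 hm hb hn
  refine ⟨?_, ?_⟩
  · rintro x ⟨g, hg1, hg2⟩
    have hpos : 0 < parabCard (scalSub Γ) x := by
      rw [parabCard, Nat.card_pos_iff]
      exact ⟨⟨⟨g, hg1, hg2⟩⟩, inferInstance⟩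
    exact hT x hpos
  · by_cases hq3' : q = 3
    · left; exact hq3'
    · right
      have hq5 : 5 ≤ q := by omega
      obtain ⟨f, hf⟩ : κ ∣ q - 1 := card_range_ratio_dvd Γ
      obtain ⟨j, hj⟩ : q ∣ Nat.card (OrbNI Γ) := card_unipParam_dvd Γ
      have hncard := card_orbF_ptInf Γ
      rw [hj] at hncard
      have hj1 : 1 ≤ j := by
        by_contra hcon
        have : j = 0 := by omega
        rw [this, mul_zero] at hncard
        omega
      obtain ⟨m, hm'⟩ : ∃ m, q = m + 2 := ⟨q - 2, by omega⟩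
      rw [hm'] at hs hf hncard
      have hnum := ce_numerics m κ j s f (by omega) (by
        have : m + 2 - 1 = m + 1 := by omega
        rw [← this]
        exact hf) hj1 (by
        rw [hncard, Nat.add_sub_cancel] at hs
        have e1 : 1 + j * (m + 2) = (m + 2) * j + 1 := by ring
        rw [e1]
        exact hs)
      rcases hnum.2 with h1 | h2
      · left
        rw [hm', hf, h1, mul_one]
      · right
        rw [hm', hf, h2, mul_comm]

end Main

end Fermat.Agent.S56lib.TW
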