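/-
S56 marathon, TW/ (helper2).  File 8: the Frattini argument for `N = Γ ∩ SL₂(k)` and the structure of
the upper triangular subgroup in the "bad" case (`p ∣ |Γ|`, scalars of `Γ` of square one): then
`p = 3`, the torus part acts transitively on the non-zero unipotent parameters, and the upper triangular
subgroup contains an element of determinant `-1`.
-/
import Mathlib
import Fermat.Agent.S56lib.TW.ClassEq

set_option autoImplicit false
set_option linter.unusedSectionVars false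
set_option linter.style.haveILetI false

namespace Fermat.Agent.S56lib.TW

open scoped LinearAlgebra.Projectivization Matrix Pointwise
open Projectivization MulAction

section SL

variable {k : Type*} [Field k] (Γ : Subgroup (GL (Fin 2) k))

/-- `N = Γ ∩ SL₂(k)`. -/
def slPart : Subgroup (GL (Fin 2) k) where
  carrier := {g | g ∈ Γ ∧ g.1.det = 1}
  one_mem' := ⟨Γ.one_mem, by simp⟩
  mul_mem' := by
    rintro g h ⟨hg, hg1⟩ ⟨hh, hh1⟩
    exact ⟨Γ.mul_mem hg hh, by rw [Units.val_mul, Matrix.det_mul, hg1, hh1, one_mul]⟩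
  inv_mem' := by
    rintro g ⟨hg, hg1⟩
    refine ⟨Γ.inv_mem hg, ?_⟩
    have h : (g⁻¹).1.det * g.1.det = 1 := by
      rw [← Matrix.det_mul, ← Units.val_mul, inv_mul_cancel, Units.val_one, Matrix.det_one]
    rwa [hg1, mul_one] at h

theorem mem_slPart {g : GL (Fin 2) k} : g ∈ slPart Γ ↔ g ∈ Γ ∧ g.1.det = 1 := Iff.rfl

theorem slPart_le : slPart Γ ≤ Γ := fun _ h => h.1

theorem det_uni (y : k) : (uni y).1.det = 1 := by
  rw [uni_val, Matrix.det_fin_two_of]; ring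

theorem det_conj (c g : GL (Fin 2) k) : (c * g * c⁻¹).1.det = g.1.det := by
  have h : c.1.det * (c⁻¹).1.det = 1 := by
    rw [← Matrix.det_mul, ← Units.val_mul, mul_inv_cancel, Units.val_one, Matrix.det_one]
  rw [Units.val_mul, Units.val_mul, Matrix.det_mul, Matrix.det_mul, mul_comm (c.1.det), mul_assoc, h,
    mul_one]

theorem conj_mem_slPart {c g : GL (Fin 2) k} (hc : c ∈ Γ) (hg : g ∈ slPart Γ) :
    c * g * c⁻¹ ∈ slPart Γ :=
  ⟨Γ.mul_mem (Γ.mul_mem hc hg.1) (Γ.inv_mem hc), by rw [det_conj, hg.2]⟩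

theorem unipParam_slPart : unipParam (slPart Γ) = unipParam Γ := by
  ext y
  rw [mem_unipParam, mem_unipParam, mem_slPart]
  exact ⟨fun h => h.1, fun h => ⟨h, det_uni y⟩⟩

theorem fixedBy_uni {y : k} (hy : y ≠ 0) : fixedBy (P1 k) (uni y) = {ptInf} :=
  fixedBy_upper_of_eq (uni y) (by simp) (by simp) (by simpa using hy)

theorem uni_not_isScal {y : k} (hy : y ≠ 0) : ¬ IsScal (uni y).1 := by
  intro h
  apply hy
  simpa using h.1

theorem conj_not_isScal (c : GL (Fin 2) k) {g : GL (Fin 2) k} (hg : ¬ IsScal g.1) :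
    ¬ IsScal (c * g * c⁻¹).1 := by
  intro h
  apply hg
  rw [isScal_iff_mem_center] at h ⊢
  have hz := Subgroup.mem_center_iff.mp h c
  have h2 : g = c * g * c⁻¹ := by
    calc g = c⁻¹ * ((c * g * c⁻¹) * c) := by group
      _ = c⁻¹ * (c * (c * g * c⁻¹)) := by rw [hz]
      _ = c * g * c⁻¹ := by group
  rw [h2]; exact h

/-- a point fixed by a conjugate of a non-trivial upper unipotent. -/
theorem fixedBy_conj_uni (c : GL (Fin 2) k) {y : k} (hy : y ≠ 0) :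
    fixedBy (P1 k) (c * uni y * c⁻¹) = {c • (ptInf : P1 k)} := by
  rw [← smul_fixedBy, fixedBy_uni hy, Set.smul_set_singleton]

/-- `N` is irreducible when `Γ` is. -/
theorem slPart_irr (hirr : ∃ g ∈ Γ, g • (ptInf : P1 k) ≠ ptInf)
    (hA : ∃ y : k, y ≠ 0 ∧ uni y ∈ Γ) : ∃ g ∈ slPart Γ, g • (ptInf : P1 k) ≠ ptInf := by
  obtain ⟨g, hg, hgne⟩ := hirr
  obtain ⟨y, hy, hyΓ⟩ := hA
  refine ⟨g * uni y * g⁻¹, conj_mem_slPart Γ hg ⟨hyΓ, det_uni y⟩, fun h => hgne ?_⟩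
  have h1 : (ptInf : P1 k) ∈ fixedBy (P1 k) (g * uni y * g⁻¹) := h
  rw [fixedBy_conj_uni g hy, Set.mem_singleton_iff] at h1
  exact h1.symm

end SL

section Frattini

variable {k : Type*} [Field k] [Fintype k] (Γ : Subgroup (GL (Fin 2) k))

/-- **Frattini argument**: `Γ = N · B_Γ`. -/
theorem frattini (p : ℕ) [Fact p.Prime] [CharP k p] (hp2 : p ≠ 2)
    (hsplit : ∀ g ∈ Γ, ∃ x : P1 k, g • x = x)
    (hirr : ∃ g ∈ Γ, g • (ptInf : P1 k) ≠ ptInf) (hA : ∃ y : k, y ≠ 0 ∧ uni y ∈ Γ)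
    (γ : GL (Fin 2) k) (hγ : γ ∈ Γ) :
    ∃ n ∈ slPart Γ, (n⁻¹ * γ) • (ptInf : P1 k) = ptInf := by
  obtain ⟨y, hy, hyΓ⟩ := hA
  have hA' : ∃ y : k, y ≠ 0 ∧ uni y ∈ slPart Γ := ⟨y, hy, hyΓ, det_uni y⟩
  have hce := (classEq (slPart Γ) p hp2 (fun g hg => hsplit g hg.1)
    (slPart_irr Γ hirr ⟨y, hy, hyΓ⟩) hA').1
  have hmem : γ * uni y * γ⁻¹ ∈ slPart Γ := conj_mem_slPart Γ hγ ⟨hyΓ, det_uni y⟩
  have h1 : (⟨_, hmem⟩ : ↥(slPart Γ)) ∉ scalSub (slPart Γ) := by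
    rw [mem_scalSub]
    exact conj_not_isScal γ (uni_not_isScal hy)
  have h2 : fixedBy (P1 k) (⟨_, hmem⟩ : ↥(slPart Γ)) = {γ • (ptInf : P1 k)} := by
    rw [fixedBy_coe]
    exact fixedBy_conj_uni γ hy
  obtain ⟨n, hn⟩ := hce (γ • ptInf) ⟨⟨_, hmem⟩, h1, h2⟩
  refine ⟨n.1, n.2, ?_⟩
  have hn' : n.1 • (ptInf : P1 k) = γ • ptInf := hn
  rw [mul_smul, ← hn', inv_smul_smul]

end Frattini

section Structure2

variable {k : Type*} [Field k] [Fintype k] (Γ : Subgroup (GL (Fin 2) k))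

theorem borelOf_slPart_le : borelOf (slPart Γ) ≤ borelOf Γ := by
  intro g hg
  rw [mem_borelOf] at hg ⊢
  exact ⟨hg.1.1, hg.2⟩

theorem scal_val_00 (a : kˣ) : (scal a).1 0 0 = (a : k) := by
  simp [scal_val]

/-- an upper triangular element of `Γ` with equal diagonal entries has determinant one, when the
scalars of `Γ` have square one. -/
theorem det_eq_one_of_diag_eq (hscal : ∀ s ∈ Γ, IsScal s.1 → s.1 0 0 ^ 2 = 1)
    {t : GL (Fin 2) k} (ht : t ∈ Γ) (h10 : t.1 1 0 = 0) (had : t.1 0 0 = t.1 1 1) :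
    t.1.det = 1 := by
  obtain ⟨-, hsc⟩ := uni_mem_of_upper_eq Γ ht h10 had
  have h := hscal _ hsc (isScal_scal _)
  rw [scal_val_00, Units.val_mk0] at h
  rw [Matrix.det_fin_two, h10, mul_zero, sub_zero, ← had, ← sq, h]

theorem ratio_slPart_eq (n : ↥(borelOf (slPart Γ))) :
    ratio (slPart Γ) n = ratio Γ ⟨n.1, borelOf_slPart_le Γ n.2⟩ := Units.ext rfl

theorem range_ratio_slPart_le : (ratio (slPart Γ)).range ≤ (ratio Γ).range := by
  rintro _ ⟨n, rfl⟩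
  exact ⟨⟨n.1, borelOf_slPart_le Γ n.2⟩, (ratio_slPart_eq Γ n).symm⟩

/-- an upper triangular element whose ratio is the ratio of an element of `N` has determinant `1`. -/
theorem det_eq_one_of_ratio_mem (hscal : ∀ s ∈ Γ, IsScal s.1 → s.1 0 0 ^ 2 = 1)
    (t : ↥(borelOf Γ)) (h : ratio Γ t ∈ (ratio (slPart Γ)).range) : t.1.1.det = 1 := by
  obtain ⟨n, hn⟩ := h
  set n' : ↥(borelOf Γ) := ⟨n.1, borelOf_slPart_le Γ n.2⟩ with hn'
  have h1 : ratio Γ (t * n'⁻¹) = 1 := by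
    rw [map_mul, map_inv, ← hn, ratio_slPart_eq, mul_inv_cancel]
  have h2 := (mem_ker_ratio Γ (t * n'⁻¹)).mp h1
  have hmem := (mem_borelOf Γ).mp (t * n'⁻¹).2
  have h3 := det_eq_one_of_diag_eq Γ hscal hmem.1 hmem.2 h2
  have hn1 : (n.1⁻¹ : GL (Fin 2) k).1.det = 1 :=
    ((slPart Γ).inv_mem ((mem_borelOf (slPart Γ)).mp n.2).1).2
  have h4 : ((t * n'⁻¹ : ↥(borelOf Γ)) : GL (Fin 2) k) = t.1 * n.1⁻¹ := rfl
  rw [h4, Units.val_mul, Matrix.det_mul, hn1, mul_one] at h3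
  exact h3

/-- **the structure of the bad case.** -/
theorem g2_structure (p : ℕ) [Fact p.Prime] [CharP k p] (hp2 : p ≠ 2)
    (hsplit : ∀ g ∈ Γ, ∃ x : P1 k, g • x = x)
    (hirr : ∃ g ∈ Γ, g • (ptInf : P1 k) ≠ ptInf) (hA : ∃ y : k, y ≠ 0 ∧ uni y ∈ Γ)
    (hscal : ∀ s ∈ Γ, IsScal s.1 → s.1 0 0 ^ 2 = 1)
    (g₀ : GL (Fin 2) k) (hg₀ : g₀ ∈ Γ) (hδ : orderOf g₀.1.det = p - 1) :
    p = 3 ∧ Nat.card (ratio Γ).range = Nat.card (unipParam Γ) - 1 ∧
      ∃ t₀ ∈ borelOf Γ, t₀.1.det = -1 := by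
  classical
  have hp : p.Prime := Fact.out
  have hp3 : 3 ≤ p := by
    have := hp.two_le
    omega
  obtain ⟨n, hn, hfix⟩ := frattini Γ p hp2 hsplit hirr hA g₀ hg₀
  set t₀ := n⁻¹ * g₀ with ht₀
  have ht₀B : t₀ ∈ borelOf Γ :=
    (mem_borelOf Γ).mpr ⟨Γ.mul_mem (Γ.inv_mem hn.1) hg₀, (smul_ptInf_eq_iff _).mp hfix⟩
  have hdet₀ : t₀.1.det = g₀.1.det := by
    have h1 : (n⁻¹ : GL (Fin 2) k).1.det = 1 := ((slPart Γ).inv_mem hn).2
    rw [ht₀, Units.val_mul, Matrix.det_mul, h1, one_mul]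
  set δ := g₀.1.det with hδdef
  have hδ1 : δ ≠ 1 := by
    intro h
    rw [h, orderOf_one] at hδ
    omega
  have hnot : ratio Γ ⟨t₀, ht₀B⟩ ∉ (ratio (slPart Γ)).range := by
    intro h
    have := det_eq_one_of_ratio_mem Γ hscal ⟨t₀, ht₀B⟩ h
    exact hδ1 (hdet₀ ▸ this)
  have hle := range_ratio_slPart_le Γ
  set κΓ := Nat.card (ratio Γ).range with hκΓ
  set κN := Nat.card (ratio (slPart Γ)).range with hκN
  have hdvd : κN ∣ κΓ := Subgroup.card_dvd_of_le hle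
  have hne : κN ≠ κΓ := by
    intro h
    have := Subgroup.eq_of_le_of_card_ge hle (le_of_eq h.symm)
    exact hnot (this ▸ ⟨⟨t₀, ht₀B⟩, rfl⟩)
  have hκΓpos : 0 < κΓ := Nat.card_pos
  have hκNpos : 0 < κN := Nat.card_pos
  have hΓ2 := (classEq Γ p hp2 hsplit hirr hA).2
  obtain ⟨y, hy, hyΓ⟩ := hA
  have hN2 := (classEq (slPart Γ) p hp2 (fun g hg => hsplit g hg.1)
    (slPart_irr Γ hirr ⟨y, hy, hyΓ⟩) ⟨y, hy, hyΓ, det_uni y⟩).2
  rw [unipParam_slPart] at hN2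
  set Q := Nat.card (unipParam Γ) with hQ
  obtain ⟨a, ha⟩ := card_unipParam_eq_pow Γ p
  rw [← hQ] at ha
  have hQ1 : 1 < Q := by
    rw [hQ, Nat.card_eq_fintype_card]
    exact Fintype.one_lt_card_iff.mpr ⟨⟨y, hyΓ⟩, 0, fun h => hy (congrArg Subtype.val h)⟩
  have hκdvd : κΓ ∣ Q - 1 := card_range_ratio_dvd Γ
  have h2κ : 2 * κN ≤ κΓ := by
    obtain ⟨c, hc⟩ := hdvd
    have hc2 : 2 ≤ c := by
      rcases c with _ | _ | c
      · omega
      · omega
      · omega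
    calc 2 * κN = κN * 2 := by ring
      _ ≤ κN * c := Nat.mul_le_mul_left _ hc2
      _ = κΓ := hc.symm
  -- `p = 3` and `κΓ = Q - 1`
  have hmain : p = 3 ∧ κΓ = Q - 1 := by
    by_cases hQ3 : Q = 3
    · have ha0 : a ≠ 0 := by
        intro h
        rw [h, pow_zero] at ha
        omega
      have hpd : p ∣ 3 := by
        rw [← hQ3, ha]
        exact dvd_pow_self p ha0
      have hp3' : p = 3 := (Nat.prime_dvd_prime_iff_eq hp Nat.prime_three).mp hpd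
      refine ⟨hp3', ?_⟩
      rw [hQ3] at hκdvd ⊢
      have : κΓ ≤ 2 := Nat.le_of_dvd (by norm_num) hκdvd
      omega
    · have hΓ2' : κΓ = Q - 1 ∨ 2 * κΓ = Q - 1 := hΓ2.resolve_left hQ3
      have hN2' : κN = Q - 1 ∨ 2 * κN = Q - 1 := hN2.resolve_left hQ3
      have hκle : κΓ ≤ Q - 1 := Nat.le_of_dvd (by omega) hκdvd
      have h2N : 2 * κN = Q - 1 := by
        rcases hN2' with h | h
        · omega
        · exact h
      have hΓeq : κΓ = Q - 1 := by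
        rcases hΓ2' with h | h
        · exact h
        · omega
      refine ⟨?_, hΓeq⟩
      -- index two
      set H := (ratio (slPart Γ)).range.subgroupOf (ratio Γ).range with hH
      have hcardH : Nat.card H = κN :=
        Nat.card_congr (Subgroup.subgroupOfEquivOfLe hle).toEquiv
      have hidx : H.index = 2 := by
        have h1 := Subgroup.card_mul_index H
        rw [hcardH] at h1
        have h2 : κN * H.index = κN * 2 := by
          rw [h1, ← hκΓ]; omega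
        exact Nat.eq_of_mul_eq_mul_left hκNpos h2
      have hsq := Subgroup.sq_mem_of_index_two hidx
        (⟨ratio Γ ⟨t₀, ht₀B⟩, ⟨⟨t₀, ht₀B⟩, rfl⟩⟩ : ↥(ratio Γ).range)
      rw [hH, Subgroup.mem_subgroupOf] at hsq
      have hsq' : ratio Γ (⟨t₀, ht₀B⟩ ^ 2) ∈ (ratio (slPart Γ)).range := by
        rw [map_pow]
        exact hsq
      have hd2 := det_eq_one_of_ratio_mem Γ hscal _ hsq'
      have hd2' : δ ^ 2 = 1 := by
        have : ((⟨t₀, ht₀B⟩ ^ 2 : ↥(borelOf Γ)) : GL (Fin 2) k) = t₀ ^ 2 := rfl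
        rw [this, Units.val_pow_eq_pow_val, Matrix.det_pow, hdet₀] at hd2
        exact hd2
      have hord : orderOf δ ∣ 2 := orderOf_dvd_of_pow_eq_one hd2'
      rw [hδ] at hord
      have := Nat.le_of_dvd (by norm_num) hord
      omega
  refine ⟨hmain.1, hmain.2, t₀, ht₀B, ?_⟩
  rw [hdet₀]
  have hp3' := hmain.1
  rw [hp3'] at hδ
  have hsq : δ ^ 2 = 1 := by
    have := pow_orderOf_eq_one δ
    rwa [hδ] at this
  have h0 : (δ - 1) * (δ + 1) = 0 := by ring_nf; rw [hsq]; ring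
  rcases mul_eq_zero.mp h0 with h | h
  · exact absurd (sub_eq_zero.mp h) hδ1
  · exact eq_neg_of_add_eq_zero_left h

end Structure2

end Fermat.Agent.S56lib.TW
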