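/-
S56 marathon, TW/ (helper2).  File 5: elementary `H¹` lemmas for cocycles given as functions
(`ψ (g * h) = ψ g + ρ g (ψ h)`): the averaging argument for a subgroup of invertible index on which
the cocycle vanishes, and the centre trick.
-/
import Mathlib

set_option autoImplicit false
set_option linter.style.haveILetI false

namespace Fermat.Agent.S56lib.TW

variable {k G V : Type*} [Field k] [Group G] [AddCommGroup V] [Module k V]

/-- `ψ` is a 1-cocycle for `ρ`. -/
def IsCoc (ρ : Representation k G V) (ψ : G → V) : Prop :=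
  ∀ g h, ψ (g * h) = ψ g + ρ g (ψ h)

/-- `ψ` is a 1-coboundary for `ρ`. -/
def IsCob (ρ : Representation k G V) (ψ : G → V) : Prop :=
  ∃ m : V, ∀ g, ψ g = ρ g m - m

variable {ρ : Representation k G V} {ψ : G → V}

theorem IsCoc.map_one (hψ : IsCoc ρ ψ) : ψ 1 = 0 := by
  have := hψ 1 1
  simpa using this

theorem IsCoc.map_inv (hψ : IsCoc ρ ψ) (g : G) : ψ g⁻¹ = - ρ g⁻¹ (ψ g) := by
  have := hψ g⁻¹ g
  rw [inv_mul_cancel, hψ.map_one] at this
  exact eq_neg_of_add_eq_zero_left this.symm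

theorem isCoc_cob (m : V) : IsCoc ρ (fun g => ρ g m - m) := by
  intro g h
  simp only [map_mul, Module.End.mul_apply, map_sub]
  abel

theorem IsCoc.sub (hψ : IsCoc ρ ψ) {ψ' : G → V} (hψ' : IsCoc ρ ψ') :
    IsCoc ρ (fun g => ψ g - ψ' g) := by
  intro g h
  simp only [hψ g h, hψ' g h, map_sub]
  abel

theorem IsCoc.sub_cob (hψ : IsCoc ρ ψ) (m : V) : IsCoc ρ (fun g => ψ g - (ρ g m - m)) :=
  hψ.sub (isCoc_cob m)

theorem isCob_of_sub_cob (m : V) (h : IsCob ρ (fun g => ψ g - (ρ g m - m))) : IsCob ρ ψ := by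
  obtain ⟨m', hm'⟩ := h
  refine ⟨m' + m, fun g => ?_⟩
  have := hm' g
  simp only at this
  rw [map_add]
  have h2 : ψ g = (ρ g m' - m') + (ρ g m - m) := by rw [← this]; abel
  rw [h2]; abel

/-- **The centre trick.**  A central element acting by a scalar `μ ≠ 1` kills `H¹`. -/
theorem isCob_of_central (hψ : IsCoc ρ ψ) (c : G) (hc : ∀ g, c * g = g * c) (μ : k) (hμ : μ ≠ 1)
    (hact : ∀ v, ρ c v = μ • v) : IsCob ρ ψ := by
  have hμ' : μ - 1 ≠ 0 := sub_ne_zero.mpr hμ
  refine ⟨(μ - 1)⁻¹ • ψ c, fun g => ?_⟩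
  have h1 := hψ c g
  have h2 := hψ g c
  rw [hc g, h2, hact] at h1
  -- `ψ g + ρ g (ψ c) = ψ c + μ • ψ g`
  have h3 : (μ - 1) • ψ g = ρ g (ψ c) - ψ c := by
    rw [sub_smul, one_smul]
    rw [sub_eq_sub_iff_add_eq_add, add_comm (μ • ψ g), ← h1, add_comm]
  rw [map_smul, ← smul_sub, ← h3, smul_smul, inv_mul_cancel₀ hμ', one_smul]

section Average

variable [Finite G]

/-- **Averaging.**  A cocycle vanishing on a subgroup whose index is invertible in `k` is a
coboundary. -/
theorem isCob_of_vanish (hψ : IsCoc ρ ψ) (H : Subgroup G) (hidx : ((H.index : ℕ) : k) ≠ 0)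
    (hH : ∀ h ∈ H, ψ h = 0) : IsCob ρ ψ := by
  classical
  haveI : Fintype (G ⧸ H) := Fintype.ofFinite _
  -- `ψ` is constant on left cosets
  have hconst : ∀ a b : G, QuotientGroup.leftRel H a b → ψ a = ψ b := by
    intro a b hab
    rw [QuotientGroup.leftRel_apply] at hab
    have : b = a * (a⁻¹ * b) := by group
    rw [this, hψ a, hH _ hab, map_zero, add_zero]
  let ψq : G ⧸ H → V := fun x => Quotient.liftOn' x ψ hconst
  have hψq : ∀ a : G, ψq (a : G ⧸ H) = ψ a := fun a => rfl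
  set s : V := ∑ x : G ⧸ H, ψq x with hs
  have hcard : (Fintype.card (G ⧸ H) : k) ≠ 0 := by
    have : Fintype.card (G ⧸ H) = H.index := by
      rw [Subgroup.index, Nat.card_eq_fintype_card]
    rw [this]; exact hidx
  -- the key identity
  have key : ∀ g : G, ρ g s = s - (Fintype.card (G ⧸ H) : k) • ψ g := by
    intro g
    have h1 : ∀ x : G ⧸ H, ρ g (ψq x) = ψq (g • x) - ψ g := by
      intro x
      induction x using QuotientGroup.induction_on with
      | H a =>
        rw [hψq]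
        have : (g • (a : G ⧸ H)) = ((g * a : G) : G ⧸ H) := rfl
        rw [this, hψq, hψ g a]; abel
    rw [hs, map_sum]
    simp only [h1]
    rw [Finset.sum_sub_distrib, Finset.sum_const, Finset.card_univ]
    congr 1
    · exact Equiv.sum_comp (MulAction.toPerm g) ψq
    · rw [Nat.cast_smul_eq_nsmul]
  refine ⟨-((Fintype.card (G ⧸ H) : k)⁻¹ • s), fun g => ?_⟩
  rw [map_neg, map_smul, key g, smul_sub, smul_smul, inv_mul_cancel₀ hcard, one_smul]
  abel

/-- the case of a group of order prime to the characteristic. -/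
theorem isCob_of_card_ne_zero (hψ : IsCoc ρ ψ) (hcard : ((Nat.card G : ℕ) : k) ≠ 0) :
    IsCob ρ ψ := by
  refine isCob_of_vanish hψ ⊥ ?_ ?_
  · rwa [Subgroup.index_bot]
  · intro h hh
    rw [Subgroup.mem_bot] at hh
    rw [hh, hψ.map_one]

end Average

end Fermat.Agent.S56lib.TW
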