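/-
S56 marathon, TW/ (helper2).  File 6: the twisted conjugation action `g · X = det g • g X g⁻¹
= g X adj(g)` of `GL₂(k)` on `M₂(k)` (the model of `ad ρ̄ (1)` when `det ρ̄ = χ̄_p`), cocycles
relative to a subgroup, and transport under conjugation.
-/
import Mathlib
import Fermat.Agent.S56lib.TW.Borel
import Fermat.Agent.S56lib.TW.Coh

set_option autoImplicit false

namespace Fermat.Agent.S56lib.TW

open Matrix

variable {k : Type*} [Field k]

/-- `g · X = g X adj(g)`. -/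
noncomputable def tw : Representation k (GL (Fin 2) k) (Matrix (Fin 2) (Fin 2) k) where
  toFun g :=
    { toFun := fun X => g.1 * X * g.1.adjugate
      map_add' := fun X Y => by rw [mul_add, add_mul]
      map_smul' := fun a X => by simp }
  map_one' := by
    apply LinearMap.ext
    intro X
    simp
  map_mul' g h := by
    apply LinearMap.ext
    intro X
    simp [Matrix.adjugate_mul_distrib, Matrix.mul_assoc]

theorem tw_apply (g : GL (Fin 2) k) (X : Matrix (Fin 2) (Fin 2) k) :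
    tw g X = g.1 * X * g.1.adjugate := rfl

theorem tw_eq_det_smul (g : GL (Fin 2) k) (X : Matrix (Fin 2) (Fin 2) k) :
    tw g X = g.1.det • (g.1 * X * (g⁻¹).1) := by
  rw [tw_apply, Matrix.coe_units_inv, Matrix.inv_def, Matrix.mul_smul, smul_smul,
    Ring.mul_inverse_cancel _ ((Matrix.isUnit_iff_isUnit_det _).mp g.isUnit), one_smul]

theorem tw_entries (g : GL (Fin 2) k) (X : Matrix (Fin 2) (Fin 2) k) :
    tw g X 0 0 = (g.1 0 0 * X 0 0 + g.1 0 1 * X 1 0) * g.1 1 1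
        - (g.1 0 0 * X 0 1 + g.1 0 1 * X 1 1) * g.1 1 0 ∧
    tw g X 0 1 = -(g.1 0 0 * X 0 0 + g.1 0 1 * X 1 0) * g.1 0 1
        + (g.1 0 0 * X 0 1 + g.1 0 1 * X 1 1) * g.1 0 0 ∧
    tw g X 1 0 = (g.1 1 0 * X 0 0 + g.1 1 1 * X 1 0) * g.1 1 1
        - (g.1 1 0 * X 0 1 + g.1 1 1 * X 1 1) * g.1 1 0 ∧
    tw g X 1 1 = -(g.1 1 0 * X 0 0 + g.1 1 1 * X 1 0) * g.1 0 1
        + (g.1 1 0 * X 0 1 + g.1 1 1 * X 1 1) * g.1 0 0 := by
  rw [tw_apply, Matrix.adjugate_fin_two]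
  simp only [Matrix.mul_apply, Fin.sum_univ_two, Matrix.of_apply, Matrix.cons_val', Matrix.cons_val_zero,
    Matrix.cons_val_one, Matrix.cons_val_fin_one]
  refine ⟨by ring, by ring, by ring, by ring⟩

theorem trace_tw (g : GL (Fin 2) k) (X : Matrix (Fin 2) (Fin 2) k) :
    (tw g X).trace = g.1.det * X.trace := by
  rw [tw_apply, Matrix.trace_mul_cycle, Matrix.adjugate_mul, Matrix.smul_mul, Matrix.one_mul,
    Matrix.trace_smul, smul_eq_mul]

/-- the action of a scalar matrix. -/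
theorem tw_of_isScal (s : GL (Fin 2) k) (hs : IsScal s.1) (X : Matrix (Fin 2) (Fin 2) k) :
    tw s X = (s.1 0 0 ^ 2) • X := by
  obtain ⟨h01, h10, h11⟩ := hs
  obtain ⟨e1, e2, e3, e4⟩ := tw_entries s X
  have h11' : s.1 1 1 = s.1 0 0 := h11.symm
  ext i j
  fin_cases i <;> fin_cases j
  · show tw s X 0 0 = (s.1 0 0 ^ 2 • X) 0 0
    rw [e1, h01, h10, h11', Matrix.smul_apply, smul_eq_mul]; ring
  · show tw s X 0 1 = (s.1 0 0 ^ 2 • X) 0 1
    rw [e2, h01, Matrix.smul_apply, smul_eq_mul]; ring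
  · show tw s X 1 0 = (s.1 0 0 ^ 2 • X) 1 0
    rw [e3, h10, h11', Matrix.smul_apply, smul_eq_mul]; ring
  · show tw s X 1 1 = (s.1 0 0 ^ 2 • X) 1 1
    rw [e4, h01, h10, h11', Matrix.smul_apply, smul_eq_mul]; ring

section Rel

variable (Γ : Subgroup (GL (Fin 2) k))

/-- cocycles relative to `Γ`. -/
def IsCocOn (ψ : GL (Fin 2) k → Matrix (Fin 2) (Fin 2) k) : Prop :=
  ∀ g ∈ Γ, ∀ h ∈ Γ, ψ (g * h) = ψ g + tw g (ψ h)

/-- coboundaries relative to `Γ`. -/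
def IsCobOn (ψ : GL (Fin 2) k → Matrix (Fin 2) (Fin 2) k) : Prop :=
  ∃ m : Matrix (Fin 2) (Fin 2) k, ∀ g ∈ Γ, ψ g = tw g m - m

variable {Γ} {ψ : GL (Fin 2) k → Matrix (Fin 2) (Fin 2) k}

theorem isCocOn_iff : IsCocOn Γ ψ ↔ IsCoc (tw.comp Γ.subtype) (fun g : ↥Γ => ψ g.1) := by
  constructor
  · intro h g g'
    exact h g.1 g.2 g'.1 g'.2
  · intro h g hg g' hg'
    exact h ⟨g, hg⟩ ⟨g', hg'⟩

theorem isCobOn_iff : IsCobOn Γ ψ ↔ IsCob (tw.comp Γ.subtype) (fun g : ↥Γ => ψ g.1) := by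
  constructor
  · rintro ⟨m, hm⟩
    exact ⟨m, fun g => hm g.1 g.2⟩
  · rintro ⟨m, hm⟩
    exact ⟨m, fun g hg => hm ⟨g, hg⟩⟩

theorem IsCocOn.map_one (hψ : IsCocOn Γ ψ) : ψ 1 = 0 := by
  have := hψ 1 Γ.one_mem 1 Γ.one_mem
  simpa using this

theorem isCocOn_cob (m : Matrix (Fin 2) (Fin 2) k) : IsCocOn Γ (fun g => tw g m - m) := by
  intro g _ h _
  simp only [map_mul, Module.End.mul_apply, map_sub]
  abel

theorem IsCocOn.sub_cob (hψ : IsCocOn Γ ψ) (m : Matrix (Fin 2) (Fin 2) k) :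
    IsCocOn Γ (fun g => ψ g - (tw g m - m)) := by
  intro g hg h hh
  simp only [hψ g hg h hh, map_mul, Module.End.mul_apply, map_sub]
  abel

theorem isCobOn_of_sub_cob (m : Matrix (Fin 2) (Fin 2) k)
    (h : IsCobOn Γ (fun g => ψ g - (tw g m - m))) : IsCobOn Γ ψ := by
  obtain ⟨m', hm'⟩ := h
  refine ⟨m' + m, fun g hg => ?_⟩
  have := hm' g hg
  simp only at this
  rw [map_add]
  have h2 : ψ g = (tw g m' - m') + (tw g m - m) := by rw [← this]; abel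
  rw [h2]; abel

end Rel

section Conj

variable (Γ : Subgroup (GL (Fin 2) k)) (c : GL (Fin 2) k)

/-- the conjugate subgroup `c Γ c⁻¹`. -/
def conjSub : Subgroup (GL (Fin 2) k) := Γ.map (MulAut.conj c).toMonoidHom

theorem mem_conjSub {g : GL (Fin 2) k} : g ∈ conjSub Γ c ↔ c⁻¹ * g * c ∈ Γ := by
  rw [conjSub, Subgroup.mem_map]
  constructor
  · rintro ⟨x, hx, rfl⟩
    simp only [MulEquiv.coe_toMonoidHom, MulAut.conj_apply]
    have : c⁻¹ * (c * x * c⁻¹) * c = x := by group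
    rwa [this]
  · intro h
    refine ⟨_, h, ?_⟩
    simp only [MulEquiv.coe_toMonoidHom, MulAut.conj_apply]
    group

theorem conj_mem_conjSub {g : GL (Fin 2) k} (hg : g ∈ Γ) : c * g * c⁻¹ ∈ conjSub Γ c := by
  rw [mem_conjSub]
  have : c⁻¹ * (c * g * c⁻¹) * c = g := by group
  rwa [this]

/-- the transported cochain `ψ'(g) = c · ψ(c⁻¹ g c) · c⁻¹`. -/
noncomputable def conjCochain (ψ : GL (Fin 2) k → Matrix (Fin 2) (Fin 2) k) :
    GL (Fin 2) k → Matrix (Fin 2) (Fin 2) k :=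
  fun g => c.1 * ψ (c⁻¹ * g * c) * (c⁻¹).1

variable {Γ} {ψ : GL (Fin 2) k → Matrix (Fin 2) (Fin 2) k}

theorem conj_tw (g : GL (Fin 2) k) (X : Matrix (Fin 2) (Fin 2) k) :
    c.1 * tw (c⁻¹ * g * c) X * (c⁻¹).1 = tw g (c.1 * X * (c⁻¹).1) := by
  have h1 : (c⁻¹).1 * c.1 = 1 := by rw [← Units.val_mul, inv_mul_cancel, Units.val_one]
  have h2 : c.1 * (c⁻¹).1 = 1 := by rw [← Units.val_mul, mul_inv_cancel, Units.val_one]
  have hadj : (c⁻¹).1.adjugate * c.1.adjugate = 1 := by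
    rw [← Matrix.adjugate_mul_distrib, h2, Matrix.adjugate_one]
  rw [tw_apply, tw_apply, Units.val_mul, Units.val_mul, Matrix.adjugate_mul_distrib,
    Matrix.adjugate_mul_distrib]
  -- `c (c⁻¹ g c) X adj(c) adj(g) adj(c⁻¹) c⁻¹ = g c X c⁻¹ adj g`
  have h3 : c.1.adjugate = c.1.det • (c⁻¹).1 := by
    rw [Matrix.coe_units_inv, Matrix.inv_def, smul_smul,
      Ring.mul_inverse_cancel _ ((Matrix.isUnit_iff_isUnit_det _).mp c.isUnit), one_smul]
  have h4 : (c⁻¹).1.adjugate = (c⁻¹).1.det • c.1 := by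
    have := (c⁻¹).isUnit
    rw [show c.1 = ((c⁻¹)⁻¹).1 by rw [inv_inv], Matrix.coe_units_inv (c⁻¹), Matrix.inv_def, smul_smul,
      Ring.mul_inverse_cancel _ ((Matrix.isUnit_iff_isUnit_det _).mp (c⁻¹).isUnit), one_smul]
  have h5 : c.1.det * (c⁻¹).1.det = 1 := by
    rw [← Matrix.det_mul, h2, Matrix.det_one]
  rw [h3, h4]
  simp only [Matrix.mul_smul, Matrix.smul_mul, smul_smul]
  rw [mul_comm, h5, one_smul]
  simp only [Matrix.mul_assoc]
  rw [h2, Matrix.mul_one, ← Matrix.mul_assoc c.1 (c⁻¹).1, h2, Matrix.one_mul]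

theorem IsCocOn.conj (hψ : IsCocOn Γ ψ) : IsCocOn (conjSub Γ c) (conjCochain c ψ) := by
  intro g hg h hh
  rw [mem_conjSub] at hg hh
  unfold conjCochain
  have : c⁻¹ * (g * h) * c = (c⁻¹ * g * c) * (c⁻¹ * h * c) := by group
  rw [this, hψ _ hg _ hh, mul_add, add_mul, Matrix.mul_assoc c.1 (tw _ _), ← Matrix.mul_assoc,
    conj_tw]

theorem isCobOn_of_conj (h : IsCobOn (conjSub Γ c) (conjCochain c ψ)) : IsCobOn Γ ψ := by
  obtain ⟨m, hm⟩ := h
  have h1 : (c⁻¹).1 * c.1 = 1 := by rw [← Units.val_mul, inv_mul_cancel, Units.val_one]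
  refine ⟨(c⁻¹).1 * m * c.1, fun g hg => ?_⟩
  have h2 := hm _ (conj_mem_conjSub Γ c hg)
  unfold conjCochain at h2
  have h3 : c⁻¹ * (c * g * c⁻¹) * c = g := by group
  rw [h3] at h2
  -- `c ψ(g) c⁻¹ = tw (c g c⁻¹) m - m`
  have h4 : ψ g = (c⁻¹).1 * (c.1 * ψ g * (c⁻¹).1) * c.1 := by
    simp only [Matrix.mul_assoc]
    rw [h1, Matrix.mul_one, ← Matrix.mul_assoc, h1, Matrix.one_mul]
  rw [h4, h2, mul_sub, sub_mul]
  congr 1
  have h5 := conj_tw c⁻¹ g m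
  rw [inv_inv] at h5
  rw [← h5]

end Conj

end Fermat.Agent.S56lib.TW
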