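/-
S56 marathon, TW/ (helper2).  File 9: the Borel computation in characteristic `3`.  In the bad case
(`Frattini.g2_structure`) a trace-zero cocycle of `Γ` for the twisted conjugation action becomes, after
subtracting a coboundary, trivial on the upper unipotent elements of `Γ`.
-/
import Mathlib
import Fermat.Agent.S56lib.TW.Tw
import Fermat.Agent.S56lib.TW.Char3
import Fermat.Agent.S56lib.TW.Frattini

set_option autoImplicit false
set_option linter.unusedSectionVars false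
set_option linter.style.haveILetI false

namespace Fermat.Agent.S56lib.TW

open scoped LinearAlgebra.Projectivization Matrix Pointwise
open Projectivization MulAction Matrix

section Entries

variable {k : Type*} [Field k]

theorem tw_uni_00 (y : k) (X : Matrix (Fin 2) (Fin 2) k) :
    tw (uni y) X 0 0 = X 0 0 + y * X 1 0 := by
  rw [(tw_entries (uni y) X).1]; simp

theorem tw_uni_01 (y : k) (X : Matrix (Fin 2) (Fin 2) k) :
    tw (uni y) X 0 1 = X 0 1 + y * X 1 1 - y * X 0 0 - y ^ 2 * X 1 0 := by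
  rw [(tw_entries (uni y) X).2.1]; simp; ring

theorem tw_uni_10 (y : k) (X : Matrix (Fin 2) (Fin 2) k) :
    tw (uni y) X 1 0 = X 1 0 := by
  rw [(tw_entries (uni y) X).2.2.1]; simp

theorem tw_uni_11 (y : k) (X : Matrix (Fin 2) (Fin 2) k) :
    tw (uni y) X 1 1 = X 1 1 - y * X 1 0 := by
  rw [(tw_entries (uni y) X).2.2.2]; simp; ring

theorem tw_upper_00 (t : GL (Fin 2) k) (h10 : t.1 1 0 = 0) (X : Matrix (Fin 2) (Fin 2) k) :
    tw t X 0 0 = t.1.det * X 0 0 + t.1 0 1 * t.1 1 1 * X 1 0 := by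
  rw [(tw_entries t X).1, Matrix.det_fin_two, h10]; ring

theorem tw_upper_01 (t : GL (Fin 2) k) (X : Matrix (Fin 2) (Fin 2) k) :
    tw t X 0 1 = -(t.1 0 0 * X 0 0 + t.1 0 1 * X 1 0) * t.1 0 1
        + (t.1 0 0 * X 0 1 + t.1 0 1 * X 1 1) * t.1 0 0 :=
  (tw_entries t X).2.1

theorem tw_upper_10 (t : GL (Fin 2) k) (h10 : t.1 1 0 = 0) (X : Matrix (Fin 2) (Fin 2) k) :
    tw t X 1 0 = t.1 1 1 ^ 2 * X 1 0 := by
  rw [(tw_entries t X).2.2.1, h10]; ring

theorem det_upper (t : GL (Fin 2) k) (h10 : t.1 1 0 = 0) : t.1.det = t.1 0 0 * t.1 1 1 := by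
  rw [Matrix.det_fin_two, h10]; ring

/-- powers of an upper triangular matrix. -/
theorem upper_pow (t : GL (Fin 2) k) (h10 : t.1 1 0 = 0) (n : ℕ) :
    (t ^ n).1 1 0 = 0 ∧ (t ^ n).1 0 0 = t.1 0 0 ^ n ∧ (t ^ n).1 1 1 = t.1 1 1 ^ n := by
  induction n with
  | zero => simp
  | succ n ih =>
    obtain ⟨i1, i2, i3⟩ := ih
    rw [pow_succ]
    refine ⟨?_, ?_, ?_⟩
    · rw [mul_val_10, i1, h10]; ring
    · rw [mul_val_00, i2, h10]; ring
    · rw [mul_val_11, i3, i1]; ring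

theorem eq_uni_of_entries (g : GL (Fin 2) k) (h10 : g.1 1 0 = 0) (h00 : g.1 0 0 = 1)
    (h11 : g.1 1 1 = 1) : g = uni (g.1 0 1) := by
  apply GL_ext <;> simp [h10, h00, h11]

end Entries

section Normal

variable {k : Type*} [Field k] (Γ : Subgroup (GL (Fin 2) k))
  (ψ : GL (Fin 2) k → Matrix (Fin 2) (Fin 2) k)

/-- the normal form on the upper unipotent elements: only the upper right entry survives. -/
def PNormal : Prop :=
  ∀ y ∈ unipParam Γ, ψ (uni y) 0 0 = 0 ∧ ψ (uni y) 1 0 = 0 ∧ ψ (uni y) 1 1 = 0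

/-- trace-zero valued on `Γ`. -/
def TrZero : Prop := ∀ g ∈ Γ, (ψ g).trace = 0

variable {Γ ψ}

theorem TrZero.sub_cob (htr : TrZero Γ ψ) {m : Matrix (Fin 2) (Fin 2) k} (hm : m.trace = 0) :
    TrZero Γ (fun g => ψ g - (tw g m - m)) := by
  intro g hg
  simp only [Matrix.trace_sub, trace_tw, hm, htr g hg, mul_zero, sub_zero]

theorem TrZero.eq_neg (htr : TrZero Γ ψ) {g : GL (Fin 2) k} (hg : g ∈ Γ) :
    ψ g 1 1 = - ψ g 0 0 := by
  have := htr g hg
  rw [Matrix.trace_fin_two] at this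
  exact eq_neg_of_add_eq_zero_right this

/-- step 1: the normal form can be reached by subtracting a coboundary (characteristic `3`). -/
theorem exists_pNormal [CharP k 3] (hψ : IsCocOn Γ ψ) (htr : TrZero Γ ψ)
    (hA : ∃ y : k, y ≠ 0 ∧ uni y ∈ Γ) :
    ∃ m : Matrix (Fin 2) (Fin 2) k, m.trace = 0 ∧ PNormal Γ (fun g => ψ g - (tw g m - m)) := by
  obtain ⟨y₀, hy₀0, hy₀⟩ := hA
  have hcoc : ∀ y ∈ unipParam Γ, ∀ z ∈ unipParam Γ,
      ψ (uni (y + z)) = ψ (uni y) + tw (uni y) (ψ (uni z)) := by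
    intro y hy z hz
    rw [uni_add]
    exact hψ _ hy _ hz
  obtain ⟨c₁, h1, h2, -⟩ := char3_normal_form (unipParam Γ) y₀ hy₀ hy₀0
    (fun y => ψ (uni y) 0 0) (fun y => ψ (uni y) 0 1) (fun y => ψ (uni y) 1 0)
    (by rw [uni_zero, hψ.map_one]; rfl)
    (fun y hy z hz => by
      rw [hcoc y hy z hz, Matrix.add_apply, tw_uni_00]; ring)
    (fun y hy z hz => by
      rw [hcoc y hy z hz, Matrix.add_apply, tw_uni_01, htr.eq_neg (show uni z ∈ Γ from hz)]; ring)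
  refine ⟨!![0, 0; c₁, 0], by simp [Matrix.trace_fin_two], fun y hy => ?_⟩
  beta_reduce at h1 h2 ⊢
  refine ⟨?_, ?_, ?_⟩
  · rw [Matrix.sub_apply, Matrix.sub_apply, tw_uni_00, h2 y hy]; simp; ring
  · rw [Matrix.sub_apply, Matrix.sub_apply, tw_uni_10, h1 y hy]; simp
  · rw [Matrix.sub_apply, Matrix.sub_apply, tw_uni_11, htr.eq_neg (show uni y ∈ Γ from hy),
      h2 y hy]; simp; ring

end Normal

section Shape

variable {k : Type*} [Field k] [Fintype k] {Γ : Subgroup (GL (Fin 2) k)}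
  {ψ : GL (Fin 2) k → Matrix (Fin 2) (Fin 2) k}

theorem ratio_mul_mem' {t : GL (Fin 2) k} (ht : t ∈ borelOf Γ) {y : k} (hy : y ∈ unipParam Γ) :
    t.1 0 0 / t.1 1 1 * y ∈ unipParam Γ :=
  ratio_mul_mem Γ ⟨t, ht⟩ hy

/-- the commutation relation `t u(y) = u(r y) t` read on the cocycle. -/
theorem shape (hψ : IsCocOn Γ ψ) (htr : TrZero Γ ψ) (hN : PNormal Γ ψ)
    {t : GL (Fin 2) k} (ht : t ∈ borelOf Γ) {y : k} (hy : y ∈ unipParam Γ) :
    (t.1 0 0 / t.1 1 1 * y) * ψ t 1 0 = 0 ∧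
    ψ (uni (t.1 0 0 / t.1 1 1 * y)) 0 1 = t.1 0 0 ^ 2 * ψ (uni y) 0 1
      + 2 * (t.1 0 0 / t.1 1 1 * y) * ψ t 0 0 + (t.1 0 0 / t.1 1 1 * y) ^ 2 * ψ t 1 0 := by
  obtain ⟨htΓ, h10⟩ := (mem_borelOf Γ).mp ht
  set z := t.1 0 0 / t.1 1 1 * y with hz
  have hzA : z ∈ unipParam Γ := ratio_mul_mem' ht hy
  have e1 := hψ t htΓ (uni y) hy
  have e2 := hψ (uni z) hzA t htΓ
  rw [upper_mul_uni t h10 y, ← hz, e2] at e1
  obtain ⟨y1, y2, y3⟩ := hN y hy
  obtain ⟨z1, z2, z3⟩ := hN z hzA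
  constructor
  · have h00 := congrFun (congrFun e1 0) 0
    rw [Matrix.add_apply, Matrix.add_apply, tw_uni_00, tw_upper_00 t h10, y1, y2, z1] at h00
    linear_combination h00
  · have h01 := congrFun (congrFun e1 0) 1
    rw [Matrix.add_apply, Matrix.add_apply, tw_uni_01, tw_upper_01, y1, y2, y3,
      htr.eq_neg htΓ] at h01
    linear_combination h01

variable (hψ : IsCocOn Γ ψ) (htr : TrZero Γ ψ) (hN : PNormal Γ ψ)
  (hA : ∃ y : k, y ≠ 0 ∧ uni y ∈ Γ)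
include hψ htr hN hA

theorem lower_zero {t : GL (Fin 2) k} (ht : t ∈ borelOf Γ) : ψ t 1 0 = 0 := by
  obtain ⟨y, hy0, hy⟩ := hA
  obtain ⟨htΓ, h10⟩ := (mem_borelOf Γ).mp ht
  obtain ⟨h00, h11⟩ := diag_ne_zero_of_upper t h10
  have := (shape hψ htr hN ht hy).1
  rcases mul_eq_zero.mp this with h | h
  · exact absurd h (mul_ne_zero (div_ne_zero h00 h11) hy0)
  · exact h

theorem x1_mul {t s : GL (Fin 2) k} (ht : t ∈ borelOf Γ) (hs : s ∈ borelOf Γ) :
    ψ (t * s) 0 0 = ψ t 0 0 + t.1.det * ψ s 0 0 := by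
  obtain ⟨htΓ, h10⟩ := (mem_borelOf Γ).mp ht
  obtain ⟨hsΓ, -⟩ := (mem_borelOf Γ).mp hs
  rw [hψ t htΓ s hsΓ, Matrix.add_apply, tw_upper_00 t h10, lower_zero hψ htr hN hA hs]
  ring

theorem x1_pow {t : GL (Fin 2) k} (ht : t ∈ borelOf Γ) (hdet : t.1.det = 1) (n : ℕ) :
    ψ (t ^ n) 0 0 = n * ψ t 0 0 := by
  induction n with
  | zero => simp [hψ.map_one]
  | succ n ih =>
    rw [pow_succ', x1_mul hψ htr hN hA ht ((borelOf Γ).pow_mem ht n), ih, hdet]
    push_cast; ring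

theorem x1_eq_zero_of_det_one {t : GL (Fin 2) k} (ht : t ∈ borelOf Γ) (hdet : t.1.det = 1) :
    ψ t 0 0 = 0 := by
  obtain ⟨htΓ, h10⟩ := (mem_borelOf Γ).mp ht
  obtain ⟨h00, h11⟩ := diag_ne_zero_of_upper t h10
  set m := Fintype.card k - 1 with hm
  obtain ⟨p1, p2, p3⟩ := upper_pow t h10 m
  rw [FiniteField.pow_card_sub_one_eq_one _ h00] at p2
  rw [FiniteField.pow_card_sub_one_eq_one _ h11] at p3
  have huni := eq_uni_of_entries (t ^ m) p1 p2 p3
  have hmem : (t ^ m).1 0 1 ∈ unipParam Γ := by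
    rw [mem_unipParam, ← huni]
    exact Γ.pow_mem htΓ m
  have h1 := x1_pow hψ htr hN hA ht hdet m
  rw [huni, (hN _ hmem).1] at h1
  have hmk : ((m : ℕ) : k) = -1 := by
    have h2 : ((m + 1 : ℕ) : k) = 0 := by
      rw [hm, Nat.sub_add_cancel Fintype.card_pos, Nat.cast_card_eq_zero]
    rw [Nat.cast_succ] at h2
    exact eq_neg_of_add_eq_zero_left h2
  rw [hmk] at h1
  linear_combination h1

omit hA in
theorem beta_add {y z : k} (hy : y ∈ unipParam Γ) (hz : z ∈ unipParam Γ) :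
    ψ (uni (y + z)) 0 1 = ψ (uni y) 0 1 + ψ (uni z) 0 1 := by
  obtain ⟨z1, z2, z3⟩ := hN z hz
  rw [uni_add, hψ _ hy _ hz, Matrix.add_apply, tw_uni_01, z1, z2, z3]
  ring

end Shape

section Final

variable {k : Type*} [Field k] [Fintype k] {Γ : Subgroup (GL (Fin 2) k)}
  {ψ : GL (Fin 2) k → Matrix (Fin 2) (Fin 2) k}

theorem three_eq_zero [CharP k 3] : (3 : k) = 0 := by
  have := CharP.cast_eq_zero k 3
  exact_mod_cast this

/-- step 2: normalising the diagonal coefficient at an element of determinant `-1`. -/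
theorem exists_pNormal_x1 [CharP k 3] (hN : PNormal Γ ψ)
    {t₀ : GL (Fin 2) k} (ht₀ : t₀ ∈ borelOf Γ) (hdet₀ : t₀.1.det = -1) :
    ∃ m : Matrix (Fin 2) (Fin 2) k, m.trace = 0 ∧ PNormal Γ (fun g => ψ g - (tw g m - m)) ∧
      (ψ t₀ - (tw t₀ m - m)) 0 0 = 0 := by
  obtain ⟨-, h10⟩ := (mem_borelOf Γ).mp ht₀
  set μ := ψ t₀ 0 0 with hμ
  refine ⟨!![μ, 0; 0, -μ], by simp [Matrix.trace_fin_two], fun y hy => ?_, ?_⟩
  · obtain ⟨y1, y2, y3⟩ := hN y hy
    beta_reduce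
    refine ⟨?_, ?_, ?_⟩
    · rw [Matrix.sub_apply, Matrix.sub_apply, tw_uni_00, y1]; simp
    · rw [Matrix.sub_apply, Matrix.sub_apply, tw_uni_10, y2]; simp
    · rw [Matrix.sub_apply, Matrix.sub_apply, tw_uni_11, y3]; simp
  · rw [Matrix.sub_apply, Matrix.sub_apply, tw_upper_00 t₀ h10, hdet₀]
    simp only [Matrix.of_apply, Matrix.cons_val', Matrix.cons_val_zero, Matrix.cons_val_one,
      Matrix.cons_val_fin_one]
    linear_combination μ * (three_eq_zero (k := k))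

/-- the diagonal coefficient vanishes on the whole upper triangular subgroup. -/
theorem x1_eq_zero (hψ : IsCocOn Γ ψ) (htr : TrZero Γ ψ) (hN : PNormal Γ ψ)
    (hA : ∃ y : k, y ≠ 0 ∧ uni y ∈ Γ)
    (hdet : ∀ g ∈ Γ, g.1.det = 1 ∨ g.1.det = -1)
    {t₀ : GL (Fin 2) k} (ht₀ : t₀ ∈ borelOf Γ) (hdet₀ : t₀.1.det = -1) (h₀ : ψ t₀ 0 0 = 0)
    {t : GL (Fin 2) k} (ht : t ∈ borelOf Γ) : ψ t 0 0 = 0 := by
  rcases hdet t ((mem_borelOf Γ).mp ht).1 with h | h
  · exact x1_eq_zero_of_det_one hψ htr hN hA ht h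
  · have hs : t₀⁻¹ * t ∈ borelOf Γ := (borelOf Γ).mul_mem ((borelOf Γ).inv_mem ht₀) ht
    have hsdet : (t₀⁻¹ * t).1.det = 1 := by
      have h1 : (t₀⁻¹).1.det * t₀.1.det = 1 := by
        rw [← Matrix.det_mul, ← Units.val_mul, inv_mul_cancel, Units.val_one, Matrix.det_one]
      rw [hdet₀] at h1
      rw [Units.val_mul, Matrix.det_mul, h]
      linear_combination h1
    have h2 := x1_mul hψ htr hN hA ht₀ hs
    rw [mul_inv_cancel_left, h₀, x1_eq_zero_of_det_one hψ htr hN hA hs hsdet] at h2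
    rw [h2]; ring

/-- transitivity of the torus part on the non-zero unipotent parameters. -/
theorem exists_ratio_mul_eq
    (hκ : Nat.card (ratio Γ).range = Nat.card (unipParam Γ) - 1)
    {y₁ y₂ : k} (h₁ : y₁ ∈ unipParam Γ) (h₁0 : y₁ ≠ 0) (h₂ : y₂ ∈ unipParam Γ) (h₂0 : y₂ ≠ 0) :
    ∃ t ∈ borelOf Γ, t.1 0 0 / t.1 1 1 * y₁ = y₂ := by
  classical
  let _ := ratioAction Γ
  let Y₁ : UnipNZ Γ := ⟨⟨y₁, h₁⟩, fun h => h₁0 (congrArg Subtype.val h)⟩
  let Y₂ : UnipNZ Γ := ⟨⟨y₂, h₂⟩, fun h => h₂0 (congrArg Subtype.val h)⟩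
  have hinj : Function.Injective (fun r : ↥(ratio Γ).range => r • Y₁) := by
    intro r r' h
    have h1 : (r.1 : k) * y₁ = (r'.1 : k) * y₁ := congrArg (fun z : UnipNZ Γ => z.1.1) h
    exact Subtype.ext (Units.ext (mul_right_cancel₀ h₁0 h1))
  have hcard : Nat.card ↥(ratio Γ).range = Nat.card (UnipNZ Γ) := by
    rw [hκ, card_unipParam_ne_zero]
  have hbij : Function.Bijective (fun r : ↥(ratio Γ).range => r • Y₁) := by
    rw [Nat.card_eq_fintype_card, Nat.card_eq_fintype_card] at hcard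
    exact (Fintype.bijective_iff_injective_and_card _).mpr ⟨hinj, hcard⟩
  obtain ⟨r, hr⟩ := hbij.2 Y₂
  obtain ⟨g, hg⟩ := r.2
  refine ⟨g.1, g.2, ?_⟩
  have h1 : (r.1 : k) * y₁ = y₂ := congrArg (fun z : UnipNZ Γ => z.1.1) hr
  rw [← h1, ← hg]
  rfl

/-- step 3: a cocycle in normal form with vanishing diagonal coefficient on the upper triangular group
is trivial on the upper unipotent elements. -/
theorem beta_eq_zero [CharP k 3] (hψ : IsCocOn Γ ψ) (htr : TrZero Γ ψ) (hN : PNormal Γ ψ)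
    (hA : ∃ y : k, y ≠ 0 ∧ uni y ∈ Γ)
    (hdet : ∀ g ∈ Γ, g.1.det = 1 ∨ g.1.det = -1)
    (hκ : Nat.card (ratio Γ).range = Nat.card (unipParam Γ) - 1)
    {t₀ : GL (Fin 2) k} (ht₀ : t₀ ∈ borelOf Γ) (hdet₀ : t₀.1.det = -1) (h₀ : ψ t₀ 0 0 = 0)
    {y : k} (hy : y ∈ unipParam Γ) : ψ (uni y) 0 1 = 0 := by
  have h3 : (3 : k) = 0 := three_eq_zero
  have h2 : (2 : k) ≠ 0 := by
    intro h
    have : (1 : k) = 0 := by linear_combination h3 - h
    exact one_ne_zero this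
  -- the transformation rule
  have rule : ∀ t ∈ borelOf Γ, ∀ z ∈ unipParam Γ,
      ψ (uni (t.1 0 0 / t.1 1 1 * z)) 0 1 = (t.1 0 0 / t.1 1 1) * t.1.det * ψ (uni z) 0 1 := by
    intro t ht z hz
    obtain ⟨htΓ, h10⟩ := (mem_borelOf Γ).mp ht
    obtain ⟨h00, h11⟩ := diag_ne_zero_of_upper t h10
    rw [(shape hψ htr hN ht hz).2, lower_zero hψ htr hN hA ht,
      x1_eq_zero hψ htr hN hA hdet ht₀ hdet₀ h₀ ht, det_upper t h10]
    field_simp
    ring
  by_cases hy0 : y = 0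
  · rw [hy0, uni_zero, hψ.map_one]; rfl
  obtain ⟨-, h10⟩ := (mem_borelOf Γ).mp ht₀
  obtain ⟨h00, h11⟩ := diag_ne_zero_of_upper t₀ h10
  set r₁ := t₀.1 0 0 / t₀.1 1 1 with hr₁
  have hr₁0 : r₁ ≠ 0 := div_ne_zero h00 h11
  have hr₁y : r₁ * y ∈ unipParam Γ := ratio_mul_mem' ht₀ hy
  have e1 := rule t₀ ht₀ y hy
  rw [← hr₁, hdet₀] at e1
  have e2 := beta_add hψ htr hN hy hr₁y
  by_cases hr : 1 + r₁ = 0
  · have h4 : y + r₁ * y = 0 := by linear_combination y * hr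
    rw [h4, uni_zero, hψ.map_one, e1] at e2
    have h5 : r₁ = -1 := by linear_combination hr
    rw [h5] at e2
    have e3 : (0 : k) = 2 * ψ (uni y) 0 1 := by
      have : (0 : Matrix (Fin 2) (Fin 2) k) 0 1 = 0 := rfl
      rw [this] at e2
      linear_combination e2
    exact ((mul_eq_zero.mp e3.symm).resolve_left h2)
  · have hy₂ : y + r₁ * y ∈ unipParam Γ := (unipParam Γ).add_mem hy hr₁y
    have hy₂0 : y + r₁ * y ≠ 0 := by
      intro h
      have : (1 + r₁) * y = 0 := by linear_combination h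
      rcases mul_eq_zero.mp this with h' | h'
      · exact hr h'
      · exact hy0 h'
    obtain ⟨t₂, ht₂, hr₂⟩ := exists_ratio_mul_eq hκ hy hy0 hy₂ hy₂0
    have e3 := rule t₂ ht₂ y hy
    rw [hr₂, e2, e1] at e3
    have hr₂' : t₂.1 0 0 / t₂.1 1 1 = 1 + r₁ := by
      have : (t₂.1 0 0 / t₂.1 1 1 - (1 + r₁)) * y = 0 := by linear_combination hr₂
      rcases mul_eq_zero.mp this with h' | h'
      · exact sub_eq_zero.mp h'
      · exact absurd h' hy0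
    rw [hr₂'] at e3
    rcases hdet t₂ ((mem_borelOf Γ).mp ht₂).1 with hd | hd
    · rw [hd] at e3
      have : 2 * r₁ * ψ (uni y) 0 1 = 0 := by linear_combination -e3
      rcases mul_eq_zero.mp this with h' | h'
      · exact absurd h' (mul_ne_zero h2 hr₁0)
      · exact h'
    · rw [hd] at e3
      have : 2 * ψ (uni y) 0 1 = 0 := by linear_combination e3
      exact (mul_eq_zero.mp this).resolve_left h2

/-- **the Borel computation in characteristic `3`.** -/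
theorem borel3 [CharP k 3] (hψ : IsCocOn Γ ψ) (htr : TrZero Γ ψ)
    (hA : ∃ y : k, y ≠ 0 ∧ uni y ∈ Γ)
    (hdet : ∀ g ∈ Γ, g.1.det = 1 ∨ g.1.det = -1)
    (hκ : Nat.card (ratio Γ).range = Nat.card (unipParam Γ) - 1)
    (ht₀ : ∃ t₀ ∈ borelOf Γ, t₀.1.det = -1) :
    ∃ m : Matrix (Fin 2) (Fin 2) k, ∀ y ∈ unipParam Γ, ψ (uni y) = tw (uni y) m - m := by
  obtain ⟨t₀, ht₀, hdet₀⟩ := ht₀
  obtain ⟨m₁, hm₁, hN₁⟩ := exists_pNormal hψ htr hA
  have hψ₁ := hψ.sub_cob m₁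
  have htr₁ := htr.sub_cob hm₁
  obtain ⟨m₂, hm₂, hN₂, h₀⟩ := exists_pNormal_x1 hN₁ ht₀ hdet₀
  have hψ₂ := hψ₁.sub_cob m₂
  have htr₂ := htr₁.sub_cob hm₂
  refine ⟨m₁ + m₂, fun y hy => ?_⟩
  have hz : (fun g => (fun g => ψ g - (tw g m₁ - m₁)) g - (tw g m₂ - m₂)) (uni y) = 0 := by
    obtain ⟨y1, y2, y3⟩ := hN₂ y hy
    have y4 := beta_eq_zero hψ₂ htr₂ hN₂ hA hdet hκ ht₀ hdet₀ h₀ hy
    ext i j
    fin_cases i <;> fin_cases j
    · exact y1
    · exact y4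
    · exact y2
    · exact y3
  beta_reduce at hz
  rw [map_add]
  have : ψ (uni y) = (tw (uni y) m₁ - m₁) + (tw (uni y) m₂ - m₂) := by
    rw [sub_eq_zero] at hz
    rw [← hz]; abel
  rw [this]; abel

end Final

end Fermat.Agent.S56lib.TW
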