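/-
S56 marathon, TW/ (helper2).  File 10: **`H¹(Γ, sl₂(k) ⊗ det) = 0`** for a subgroup `Γ ≤ GL₂(k)`, `k` a
finite field of characteristic `p ≠ 2`, such that every element of `Γ` has an eigenvector over `k`, `Γ`
is irreducible, and `det Γ` is the group of `(p-1)`-st roots of unity.  No classification of the
subgroups of `GL₂` is used.
-/
import Mathlib
import Fermat.Agent.S56lib.TW.Borel3

set_option autoImplicit false
set_option linter.unusedSectionVars false
set_option linter.style.haveILetI false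

namespace Fermat.Agent.S56lib.TW

open scoped LinearAlgebra.Projectivization Matrix Pointwise
open Projectivization MulAction Matrix

section Core

variable {k : Type*} [Field k] [Fintype k] (Γ : Subgroup (GL (Fin 2) k))

/-- the upper unipotent elements of `Γ`, as a subgroup of `Γ`. -/
def unipSub : Subgroup ↥Γ where
  carrier := {g | ∃ y : k, g.1 = uni y}
  one_mem' := ⟨0, by rw [uni_zero]; rfl⟩
  mul_mem' := by
    rintro g h ⟨y, hy⟩ ⟨z, hz⟩
    exact ⟨y + z, by rw [uni_add, ← hy, ← hz]; rfl⟩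
  inv_mem' := by
    rintro g ⟨y, hy⟩
    exact ⟨-y, by rw [uni_neg, ← hy]; rfl⟩

theorem card_unipSub : Nat.card (unipSub Γ) = Nat.card (unipParam Γ) := by
  symm
  refine Nat.card_congr (Equiv.ofBijective
    (fun y : ↥(unipParam Γ) => (⟨⟨uni y.1, y.2⟩, y.1, rfl⟩ : ↥(unipSub Γ))) ⟨?_, ?_⟩)
  · intro y y' h
    have h1 : uni y.1 = uni y'.1 := congrArg (fun g : ↥(unipSub Γ) => g.1.1) h
    exact Subtype.ext (uni_injective h1)
  · rintro ⟨⟨g, hg⟩, y, hy⟩
    have hy' : g = uni y := hy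
    subst hy'
    exact ⟨⟨y, hg⟩, rfl⟩

/-- the scalars of `Γ` are at most two when their squares are `1`. -/
theorem card_scalOf_le_two (hscal : ∀ s ∈ Γ, IsScal s.1 → s.1 0 0 ^ 2 = 1) :
    Nat.card (scalOf Γ) ≤ 2 := by
  classical
  have hinj : Function.Injective (fun s : ↥(scalOf Γ) =>
      (⟨s.1.1 0 0, by
        have h := hscal s.1 ((mem_scalOf Γ).mp s.2).1 ((mem_scalOf Γ).mp s.2).2
        have h0 : (s.1.1 0 0 - 1) * (s.1.1 0 0 + 1) = 0 := by ring_nf; rw [h]; ring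
        rcases mul_eq_zero.mp h0 with h' | h'
        · simp [sub_eq_zero.mp h']
        · simp [eq_neg_of_add_eq_zero_left h']⟩ : ↥({1, -1} : Finset k))) := by
    intro s s' h
    have h1 : s.1.1 0 0 = s'.1.1 0 0 := congrArg Subtype.val h
    exact Subtype.ext (scal_ext ((mem_scalOf Γ).mp s.2).2 ((mem_scalOf Γ).mp s'.2).2 h1)
  have h1 := Nat.card_le_card_of_injective _ hinj
  have h2 : Nat.card ↥({1, -1} : Finset k) ≤ 2 := by
    rw [Nat.card_eq_fintype_card, Fintype.card_coe]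
    exact Finset.card_le_two
  omega

/-- the index of the upper unipotent subgroup is invertible in `k`, in the bad case. -/
theorem index_unipSub_ne_zero [CharP k 3] (hA : ∃ y : k, y ≠ 0 ∧ uni y ∈ Γ)
    (hscal : ∀ s ∈ Γ, IsScal s.1 → s.1 0 0 ^ 2 = 1)
    (hκ : Nat.card (ratio Γ).range = Nat.card (unipParam Γ) - 1) :
    (((unipSub Γ).index : ℕ) : k) ≠ 0 := by
  classical
  let _ : Fintype (P1 k) := Fintype.ofFinite _
  let _ : Fintype ↥Γ := Fintype.ofFinite _
  have h3 : (3 : k) = 0 := three_eq_zero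
  set Q := Nat.card (unipParam Γ) with hQ
  set z := Nat.card (scalOf Γ) with hz
  obtain ⟨a, ha⟩ := card_unipParam_eq_pow Γ 3
  rw [← hQ] at ha
  obtain ⟨y, hy, hyΓ⟩ := hA
  have hQ1 : 1 < Q := by
    rw [hQ, Nat.card_eq_fintype_card]
    exact Fintype.one_lt_card_iff.mpr ⟨⟨y, hyΓ⟩, 0, fun h => hy (congrArg Subtype.val h)⟩
  have ha0 : a ≠ 0 := by
    intro h
    rw [h, pow_zero] at ha
    omega
  have hQk : ((Q : ℕ) : k) = 0 := by
    rw [ha, Nat.cast_pow]
    have : ((3 : ℕ) : k) = 0 := by exact_mod_cast h3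
    rw [this, zero_pow ha0]
  obtain ⟨j, hj⟩ : Q ∣ Nat.card (OrbNI Γ) := card_unipParam_dvd Γ
  have h1 := card_orbF_mul_stabCard (G := ↥Γ) (ptInf : P1 k)
  rw [card_orbF_ptInf, stabCard_ptInf, card_borelOf, hj, hκ, ← hQ, ← hz] at h1
  have h2 := Subgroup.card_mul_index (unipSub Γ)
  rw [card_unipSub, ← hQ, Nat.card_eq_fintype_card (α := ↥Γ), ← h1] at h2
  have h4 : (unipSub Γ).index = (Q * j + 1) * (z * (Q - 1)) := by
    have : Q * (unipSub Γ).index = Q * ((Q * j + 1) * (z * (Q - 1))) := by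
      rw [h2]; ring
    exact Nat.eq_of_mul_eq_mul_left (by omega) this
  rw [h4]
  have hQ1k : (((Q - 1 : ℕ)) : k) = -1 := by
    have : (((Q - 1 + 1 : ℕ)) : k) = 0 := by
      rw [Nat.sub_add_cancel (by omega)]; exact hQk
    rw [Nat.cast_succ] at this
    exact eq_neg_of_add_eq_zero_left this
  push_cast
  rw [hQ1k, hQk]
  have hz2 : z ≤ 2 := card_scalOf_le_two Γ hscal
  have hz1 : 0 < z := Nat.card_pos
  have h2k : (2 : k) ≠ 0 := by
    intro h
    have : (1 : k) = 0 := by linear_combination h3 - h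
    exact one_ne_zero this
  have hzk : ((z : ℕ) : k) ≠ 0 := by
    interval_cases z
    · simp
    · exact_mod_cast h2k
  simp only [zero_mul, zero_add, one_mul, mul_neg, mul_one, ne_eq, neg_eq_zero]
  exact hzk

end Core

section Main

variable {k : Type*} [Field k] [Fintype k] (Γ : Subgroup (GL (Fin 2) k))

/-- the core case: `Γ` contains a non-trivial upper unipotent and its scalars have square one. -/
theorem h1_core (p : ℕ) [Fact p.Prime] [CharP k p] (hp2 : p ≠ 2)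
    (hsplit : ∀ g ∈ Γ, ∃ x : P1 k, g • x = x)
    (hirr : ∃ g ∈ Γ, g • (ptInf : P1 k) ≠ ptInf) (hA : ∃ y : k, y ≠ 0 ∧ uni y ∈ Γ)
    (hscal : ∀ s ∈ Γ, IsScal s.1 → s.1 0 0 ^ 2 = 1)
    (hdet1 : ∀ g ∈ Γ, g.1.det ^ (p - 1) = 1) (hdet2 : ∃ g ∈ Γ, orderOf g.1.det = p - 1)
    (ψ : GL (Fin 2) k → Matrix (Fin 2) (Fin 2) k) (hψ : IsCocOn Γ ψ) (htr : TrZero Γ ψ) :
    IsCobOn Γ ψ := by
  obtain ⟨g₀, hg₀, hδ⟩ := hdet2
  obtain ⟨hp3, hκ, ht₀⟩ := g2_structure Γ p hp2 hsplit hirr hA hscal g₀ hg₀ hδ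
  subst hp3
  have hdet : ∀ g ∈ Γ, g.1.det = 1 ∨ g.1.det = -1 := by
    intro g hg
    have h := hdet1 g hg
    have h0 : (g.1.det - 1) * (g.1.det + 1) = 0 := by
      have : g.1.det ^ 2 = 1 := h
      ring_nf; rw [this]; ring
    rcases mul_eq_zero.mp h0 with h' | h'
    · exact Or.inl (sub_eq_zero.mp h')
    · exact Or.inr (eq_neg_of_add_eq_zero_left h')
  obtain ⟨m, hm⟩ := borel3 hψ htr hA hdet hκ ht₀
  apply isCobOn_of_sub_cob m
  have hψ' := hψ.sub_cob m
  rw [isCobOn_iff]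
  rw [isCocOn_iff] at hψ'
  refine isCob_of_vanish hψ' (unipSub Γ) (index_unipSub_ne_zero Γ hA hscal hκ) ?_
  rintro ⟨g, hg⟩ ⟨y, hy⟩
  have hy' : g = uni y := hy
  subst hy'
  show ψ (uni y) - (tw (uni y) m - m) = 0
  rw [hm y hg, sub_self]

theorem trace_conj (c : GL (Fin 2) k) (X : Matrix (Fin 2) (Fin 2) k) :
    (c.1 * X * (c⁻¹).1).trace = X.trace := by
  rw [Matrix.trace_mul_cycle, ← Units.val_mul, inv_mul_cancel, Units.val_one, Matrix.one_mul]

/-- **`H¹(Γ, sl₂ ⊗ det) = 0`.** -/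
theorem h1_eq_zero (p : ℕ) [Fact p.Prime] [CharP k p] (hp2 : p ≠ 2)
    (hsplit : ∀ g ∈ Γ, ∃ x : P1 k, g • x = x)
    (hirr : ∀ x : P1 k, ∃ g ∈ Γ, g • x ≠ x)
    (hdet1 : ∀ g ∈ Γ, g.1.det ^ (p - 1) = 1) (hdet2 : ∃ g ∈ Γ, orderOf g.1.det = p - 1)
    (ψ : GL (Fin 2) k → Matrix (Fin 2) (Fin 2) k) (hψ : IsCocOn Γ ψ) (htr : TrZero Γ ψ) :
    IsCobOn Γ ψ := by
  classical
  have hp : p.Prime := Fact.out
  by_cases hcard : ((Nat.card ↥Γ : ℕ) : k) = 0
  swap
  · rw [isCobOn_iff]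
    exact isCob_of_card_ne_zero (isCocOn_iff.mp hψ) hcard
  by_cases hs : ∃ s ∈ Γ, IsScal s.1 ∧ s.1 0 0 ^ 2 ≠ 1
  · obtain ⟨s, hsΓ, hsc, hs2⟩ := hs
    rw [isCobOn_iff]
    refine isCob_of_central (isCocOn_iff.mp hψ) ⟨s, hsΓ⟩ ?_ (s.1 0 0 ^ 2) hs2 ?_
    · intro g
      apply Subtype.ext
      have := Subgroup.mem_center_iff.mp ((isScal_iff_mem_center s).mp hsc) g.1
      exact this.symm
    · intro v
      exact tw_of_isScal s hsc v
  · have hscal : ∀ s ∈ Γ, IsScal s.1 → s.1 0 0 ^ 2 = 1 := by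
      intro s hsΓ hsc
      by_contra h
      exact hs ⟨s, hsΓ, hsc, h⟩
    -- an element of order `p`
    have hdvd : p ∣ Nat.card ↥Γ := (CharP.cast_eq_zero_iff k p _).mp hcard
    obtain ⟨g, hg⟩ := exists_prime_orderOf_dvd_card' p hdvd
    have hg1 : g ≠ 1 := by
      intro h
      rw [h, orderOf_one] at hg
      exact hp.one_lt.ne hg
    have hgp : g.1 ^ p = 1 := by
      have := pow_orderOf_eq_one g
      rw [hg] at this
      exact congrArg Subtype.val this
    obtain ⟨x, hx⟩ := hsplit g.1 g.2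
    obtain ⟨c, hc⟩ := exists_smul_eq_ptInf x
    -- the conjugate
    set g' := c * g.1 * c⁻¹ with hg'
    have hg'mem : g' ∈ conjSub Γ c := conj_mem_conjSub Γ c g.2
    have hg'fix : g' • (ptInf : P1 k) = ptInf := by
      rw [hg', ← hc, mul_smul, mul_smul, inv_smul_smul, hx]
    have h10 := (smul_ptInf_eq_iff g').mp hg'fix
    have hg'p : g' ^ p = 1 := by
      rw [hg', conj_pow, hgp, mul_one, mul_inv_cancel]
    obtain ⟨-, q2, q3⟩ := upper_pow g' h10 p
    rw [hg'p] at q2 q3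
    have hfrob : ∀ a : k, a ^ p = 1 → a = 1 := by
      intro a ha
      apply frobenius_inj k p
      rw [frobenius_def, ha, map_one]
    have e00 : g'.1 0 0 = 1 := hfrob _ (by rw [← q2]; simp)
    have e11 : g'.1 1 1 = 1 := hfrob _ (by rw [← q3]; simp)
    have huni := eq_uni_of_entries g' h10 e00 e11
    have hb : g'.1 0 1 ≠ 0 := by
      intro h
      rw [h, uni_zero] at huni
      apply hg1
      apply Subtype.ext
      have : g.1 = c⁻¹ * g' * c := by rw [hg']; group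
      rw [this, huni]; simp
    have hA' : ∃ y : k, y ≠ 0 ∧ uni y ∈ conjSub Γ c := ⟨_, hb, huni ▸ hg'mem⟩
    -- transfer of the hypotheses
    have hsplit' : ∀ g ∈ conjSub Γ c, ∃ x : P1 k, g • x = x := by
      intro g hg
      rw [mem_conjSub] at hg
      obtain ⟨x, hx⟩ := hsplit _ hg
      refine ⟨c • x, ?_⟩
      have : g = c * (c⁻¹ * g * c) * c⁻¹ := by group
      rw [this, mul_smul, inv_smul_smul, mul_smul, hx]
    have hirr' : ∃ g ∈ conjSub Γ c, g • (ptInf : P1 k) ≠ ptInf := by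
      obtain ⟨γ, hγ, hne⟩ := hirr (c⁻¹ • (ptInf : P1 k))
      refine ⟨c * γ * c⁻¹, conj_mem_conjSub Γ c hγ, fun h => hne ?_⟩
      rw [mul_smul, mul_smul] at h
      have := congrArg (fun z => c⁻¹ • z) h
      simpa using this
    have hscal' : ∀ s ∈ conjSub Γ c, IsScal s.1 → s.1 0 0 ^ 2 = 1 := by
      intro s hs hsc
      rw [mem_conjSub] at hs
      have hcen := Subgroup.mem_center_iff.mp ((isScal_iff_mem_center s).mp hsc) c
      have : c⁻¹ * s * c = s := by
        rw [mul_assoc, ← hcen, ← mul_assoc, inv_mul_cancel, one_mul]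
      rw [this] at hs
      exact hscal s hs hsc
    have hdetc : ∀ g : GL (Fin 2) k, (c⁻¹ * g * c).1.det = g.1.det := by
      intro g
      have := det_conj c⁻¹ g
      rwa [inv_inv] at this
    have hdet1' : ∀ g ∈ conjSub Γ c, g.1.det ^ (p - 1) = 1 := by
      intro g hg
      rw [mem_conjSub] at hg
      rw [← hdetc g]
      exact hdet1 _ hg
    have hdet2' : ∃ g ∈ conjSub Γ c, orderOf g.1.det = p - 1 := by
      obtain ⟨g₀, hg₀, hδ⟩ := hdet2
      exact ⟨c * g₀ * c⁻¹, conj_mem_conjSub Γ c hg₀, by rw [det_conj]; exact hδ⟩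
    have htr' : TrZero (conjSub Γ c) (conjCochain c ψ) := by
      intro g hg
      rw [mem_conjSub] at hg
      unfold conjCochain
      rw [trace_conj]
      exact htr _ hg
    exact isCobOn_of_conj c
      (h1_core (conjSub Γ c) p hp2 hsplit' hirr' hA' hscal' hdet1' hdet2' _ (hψ.conj c) htr')

end Main

end Fermat.Agent.S56lib.TW
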