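/-
S56 marathon, TW/ (helper2).  File 13: **the abstract Taylor–Wiles "good element" theorem.**
`r : G → GL₂(k)` (any group `G`, `k` finite of characteristic `p ≠ 2`) with the Taylor–Wiles
hypotheses, `det r(G)` = the `(p-1)`-st roots of unity, `G' ◁ G` with abelian quotient and
`r(G') ⊆ SL₂(k)`.  For every trace-zero cocycle `ψ : G → M₂(k)` for the twisted conjugation action
`g · X = det r(g) · r(g) X r(g)⁻¹` which is not a coboundary there is `σ ∈ G'` with `r σ` regular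
semisimple and `tr (ψ σ · r σ) ≠ 0`.
-/
import Mathlib
import Fermat.Agent.S56lib.TW.H1sl2
import Fermat.Agent.S56lib.TW.Regular

set_option autoImplicit false
set_option linter.unusedSectionVars false
set_option linter.style.haveILetI false

namespace Fermat.Agent.S56lib.TW

open scoped LinearAlgebra.Projectivization Matrix Pointwise
open Projectivization MulAction Matrix

variable {k : Type*} [Field k] [Fintype k] {G : Type*} [Group G]

theorem two_ne_zero_of_char (p : ℕ) [hp : Fact p.Prime] [CharP k p] (hp2 : p ≠ 2) :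
    NeZero (2 : k) := by
  refine ⟨fun h => ?_⟩
  have : ((2 : ℕ) : k) = 0 := by exact_mod_cast h
  rw [CharP.cast_eq_zero_iff k p] at this
  exact hp2 ((Nat.prime_dvd_prime_iff_eq hp.out Nat.prime_two).mp this)

section Factor

variable {r : G →* GL (Fin 2) k} {ψ : G → Matrix (Fin 2) (Fin 2) k}

/-- the value of a cocycle on a conjugate of an element of the kernel of `r`. -/
theorem IsCoc.conj_ker (hψ : IsCoc (tw.comp r) ψ) (g z : G) (hz : r z = 1) :
    ψ (g * z * g⁻¹) = tw (r g) (ψ z) := by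
  have h1 : ψ (g * z * g⁻¹) = ψ g + tw (r g) (ψ z + tw (r z) (ψ g⁻¹)) := by
    rw [mul_assoc, hψ g (z * g⁻¹), hψ z g⁻¹]
    rfl
  have h2 : ψ g + tw (r g) (ψ g⁻¹) = 0 := by
    have h0 : ψ 1 = 0 := IsCoc.map_one hψ
    have := hψ g g⁻¹
    rw [mul_inv_cancel, h0] at this
    exact this.symm
  rw [h1, hz, _root_.map_one, Module.End.one_apply, map_add, ← add_assoc, add_right_comm, h2,
    zero_add]

/-- a cocycle vanishing on the kernel of `r` is a coboundary, when `H¹` of the image vanishes. -/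
theorem isCob_of_vanish_ker (hψ : IsCoc (tw.comp r) ψ) (hker : ∀ z, r z = 1 → ψ z = 0)
    (hH1 : ∀ ψ' : GL (Fin 2) k → Matrix (Fin 2) (Fin 2) k, IsCocOn r.range ψ' →
      (∀ g, ψ' (r g) = ψ g) → IsCobOn r.range ψ') :
    IsCob (tw.comp r) ψ := by
  classical
  have hfac : ∀ g g', r g = r g' → ψ g = ψ g' := by
    intro g g' hgg'
    have hz : r (g⁻¹ * g') = 1 := by rw [map_mul, map_inv, hgg', inv_mul_cancel]
    have : g' = g * (g⁻¹ * g') := by group
    rw [this, hψ g, hker _ hz, map_zero, add_zero]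
  set ψ' : GL (Fin 2) k → Matrix (Fin 2) (Fin 2) k :=
    fun γ => if hγ : ∃ g, r g = γ then ψ hγ.choose else 0 with hψ'
  have hval : ∀ g, ψ' (r g) = ψ g := by
    intro g
    have hex : ∃ g', r g' = r g := ⟨g, rfl⟩
    rw [hψ']
    simp only [hex, dite_true]
    exact hfac _ _ hex.choose_spec
  have hcoc : IsCocOn r.range ψ' := by
    rintro _ ⟨g, rfl⟩ _ ⟨g', rfl⟩
    rw [← map_mul, hval, hval, hval]
    exact hψ g g'
  obtain ⟨m, hm⟩ := hH1 ψ' hcoc hval
  refine ⟨m, fun g => ?_⟩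
  rw [← hval g]
  exact hm (r g) ⟨g, rfl⟩

end Factor

section Main

variable (p : ℕ) [hp : Fact p.Prime] [CharP k p]

/-- **the abstract good-element theorem.** -/
theorem exists_good_sigma (hp2 : p ≠ 2) (r : G →* GL (Fin 2) k) (h : TWHyp r)
    (hdet1 : ∀ g, (r g).1.det ^ (p - 1) = 1) (hdet2 : ∃ g, orderOf (r g).1.det = p - 1)
    (G' : Subgroup G) [hn : G'.Normal] (hab : ∀ a b : G, a * b * a⁻¹ * b⁻¹ ∈ G')
    (hdetG' : ∀ g ∈ G', (r g).1.det = 1)
    (ψ : G → Matrix (Fin 2) (Fin 2) k) (hψ : IsCoc (tw.comp r) ψ) (htr : ∀ g, (ψ g).trace = 0)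
    (hncob : ¬ IsCob (tw.comp r) ψ) :
    ∃ σ ∈ G', (r σ).1.trace ^ 2 ≠ 4 * (r σ).1.det ∧ (ψ σ * (r σ).1).trace ≠ 0 := by
  haveI : NeZero (2 : k) := two_ne_zero_of_char p hp2
  have hirrG' := h.irr_of_normal G' hab hdetG'
  obtain ⟨σ₀, hσ₀, hreg⟩ := exists_regular p hp2 G' hdetG' hirrG'
  by_contra hcon
  push Not at hcon
  apply hncob
  -- (∗): the values on `K = ker r ∩ G'` are orthogonal to the regular semisimple elements of `G'`
  have hstar : ∀ κ ∈ G', r κ = 1 → ∀ σ ∈ G', (r σ).1.trace ^ 2 ≠ 4 * (r σ).1.det →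
      (ψ κ * (r σ).1).trace = 0 := by
    intro κ hκ hκ1 σ hσ hσreg
    have h1 := hcon σ hσ hσreg
    have hrκσ : r (κ * σ) = r σ := by rw [map_mul, hκ1, one_mul]
    have h2 := hcon (κ * σ) (G'.mul_mem hκ hσ) (by rw [hrκσ]; exact hσreg)
    rw [hrκσ, hψ κ σ] at h2
    have h3 : (tw.comp r) κ (ψ σ) = ψ σ := by
      show tw (r κ) (ψ σ) = ψ σ
      rw [hκ1, map_one, Module.End.one_apply]
    rw [h3, add_mul, Matrix.trace_add, h1, add_zero] at h2
    exact h2
  -- claim 1: `ψ` vanishes on `K`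
  have hK : ∀ κ ∈ G', r κ = 1 → ψ κ = 0 := by
    intro κ₀ hκ₀ hκ₀1
    by_contra hw
    obtain ⟨vp, vm, ap, am, hv, hpv, hmv, hα⟩ := exists_eigenbasis (r σ₀) (h.split σ₀) hreg
    refine h.orthogonal_false (r σ₀) vp vm ap am hv hpv hmv hα (ψ κ₀) hw (htr κ₀) fun g => ?_
    have hconj : g * κ₀ * g⁻¹ ∈ G' := hn.conj_mem κ₀ hκ₀ g
    have hconj1 : r (g * κ₀ * g⁻¹) = 1 := by
      rw [map_mul, map_mul, hκ₀1, mul_one, map_inv, mul_inv_cancel]
    have h1 := hstar _ hconj hconj1 σ₀ hσ₀ hreg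
    rw [hψ.conj_ker g κ₀ hκ₀1, tw_eq_det_smul, Matrix.smul_mul, Matrix.trace_smul, smul_eq_mul] at h1
    have hdet : (r g).1.det ≠ 0 := ((Matrix.isUnit_iff_isUnit_det _).mp (r g).isUnit).ne_zero
    exact (mul_eq_zero.mp h1).resolve_left hdet
  -- claim 2: `ψ` vanishes on `ker r`
  have hker : ∀ z, r z = 1 → ψ z = 0 := by
    intro z hz
    by_contra hX
    refine h.no_stable_line (ψ z) (htr z) hX fun g => ?_
    have hc : g * z * g⁻¹ * z⁻¹ ∈ G' := hab g z
    have hc1 : r (g * z * g⁻¹ * z⁻¹) = 1 := by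
      rw [map_mul, map_mul, map_mul, hz, mul_one, map_inv, mul_inv_cancel, one_mul, map_inv, hz,
        inv_one]
    have h1 : ψ (g * z * g⁻¹) = ψ z := by
      have : g * z * g⁻¹ = (g * z * g⁻¹ * z⁻¹) * z := by group
      rw [this, hψ _ z, hK _ hc hc1, zero_add]
      show tw (r (g * z * g⁻¹ * z⁻¹)) (ψ z) = ψ z
      rw [hc1, map_one, Module.End.one_apply]
    rw [hψ.conj_ker g z hz, tw_eq_det_smul] at h1
    have hdet : (r g).1.det ≠ 0 := ((Matrix.isUnit_iff_isUnit_det _).mp (r g).isUnit).ne_zero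
    refine ⟨((r g).1.det)⁻¹, ?_⟩
    calc (r g).1 * ψ z * ((r g)⁻¹).1
        = ((r g).1.det)⁻¹ • ((r g).1.det • ((r g).1 * ψ z * ((r g)⁻¹).1)) := by
          rw [smul_smul, inv_mul_cancel₀ hdet, one_smul]
      _ = ((r g).1.det)⁻¹ • ψ z := by rw [h1]
  -- claim 3: `ψ` comes from the image, whose `H¹` vanishes
  refine isCob_of_vanish_ker hψ hker fun ψ' hψ' hval => ?_
  refine h1_eq_zero r.range p hp2 ?_ ?_ ?_ ?_ ψ' hψ' ?_
  · rintro _ ⟨g, rfl⟩
    exact h.split g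
  · intro x
    obtain ⟨g, hg⟩ := h.irr x
    exact ⟨r g, ⟨g, rfl⟩, hg⟩
  · rintro _ ⟨g, rfl⟩
    exact hdet1 g
  · obtain ⟨g, hg⟩ := hdet2
    exact ⟨r g, ⟨g, rfl⟩, hg⟩
  · rintro _ ⟨g, rfl⟩
    rw [hval]
    exact htr g

end Main

end Fermat.Agent.S56lib.TW
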