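/-
S56 marathon, TW/ (helper2).  File 15: the trace-form identification
`sl₂(K) ≃ Hom_{𝔽_p}(sl₂(K), 𝔽_p)`, `X ↦ (Y ↦ Tr_{K/𝔽_p} tr (X Y))`, and its equivariance: it carries
the action `X ↦ χ̄_p(g) · rb(g) X rb(g)⁻¹` to the action of `(ad⁰ρ̄)^∨(1) = (Dict.adRep p rb).dualTwist χ̄_p`.
-/
import Mathlib
import Fermat.Agent.S56lib.Dict.AdRep

set_option autoImplicit false
set_option linter.unusedSectionVars false
set_option linter.style.haveILetI false

noncomputable section

namespace Fermat.Agent.S56lib.TW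

open Fermat.Agent.S55lib Fermat.Agent.S56lib.Dict ExtCitation Matrix

attribute [local instance] ZMod.algebra

variable {K : Type} [Field K] [Fintype K] (p : ℕ) [hp : Fact p.Prime] [CharP K p]

/-- the pairing `(X, Y) ↦ Tr_{K/𝔽_p} (tr (X Y))` as a map to the dual. -/
def trDual : sl2 K →ₗ[ZMod p] Module.Dual (ZMod p) (sl2 K) where
  toFun X :=
    { toFun := fun Y => Algebra.trace (ZMod p) K (X.1 * Y.1).trace
      map_add' := fun Y Y' => by
        rw [Submodule.coe_add, mul_add, Matrix.trace_add, map_add]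
      map_smul' := fun a Y => by
        rw [Submodule.coe_smul_of_tower, Matrix.mul_smul, Matrix.trace_smul, map_smul,
          RingHom.id_apply] }
  map_add' X X' := by
    apply LinearMap.ext
    intro Y
    simp only [LinearMap.coe_mk, AddHom.coe_mk, LinearMap.add_apply, Submodule.coe_add]
    rw [add_mul, Matrix.trace_add, map_add]
  map_smul' a X := by
    apply LinearMap.ext
    intro Y
    simp only [LinearMap.coe_mk, AddHom.coe_mk, LinearMap.smul_apply, RingHom.id_apply]
    rw [Submodule.coe_smul_of_tower, Matrix.smul_mul, Matrix.trace_smul, map_smul]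

theorem trDual_apply (X Y : sl2 K) :
    trDual p X Y = Algebra.trace (ZMod p) K (X.1 * Y.1).trace := rfl

/-- nondegeneracy of the trace of `K / 𝔽_p`. -/
theorem eq_zero_of_trace_mul_eq_zero (t : K)
    (h : ∀ l : K, Algebra.trace (ZMod p) K (l * t) = 0) : t = 0 := by
  have hnd := (traceForm_nondegenerate (ZMod p) K).1
  refine hnd t fun y => ?_
  rw [Algebra.traceForm_apply, mul_comm]
  exact h y

theorem sl2_smul_mem (l : K) (Y : sl2 K) : l • Y.1 ∈ sl2 K := (sl2 K).smul_mem l Y.2

theorem trDual_injective (hp2 : p ≠ 2) : Function.Injective (trDual (K := K) p) := by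
  rw [injective_iff_map_eq_zero]
  intro X hX
  have h2 : (2 : K) ≠ 0 := by
    intro h
    have : ((2 : ℕ) : K) = 0 := by exact_mod_cast h
    rw [CharP.cast_eq_zero_iff K p] at this
    exact hp2 ((Nat.prime_dvd_prime_iff_eq hp.out Nat.prime_two).mp this)
  -- `tr (X Y) = 0` for all trace-zero `Y`
  have hXY : ∀ Y : sl2 K, (X.1 * Y.1).trace = 0 := by
    intro Y
    apply eq_zero_of_trace_mul_eq_zero p
    intro l
    have := LinearMap.congr_fun hX (⟨l • Y.1, sl2_smul_mem l Y⟩ : sl2 K)
    rw [trDual_apply, LinearMap.zero_apply] at this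
    rw [← this]
    congr 1
    show l * (X.1 * Y.1).trace = (X.1 * (l • Y.1)).trace
    rw [Matrix.mul_smul, Matrix.trace_smul, smul_eq_mul]
  have hXtr : X.1.trace = 0 := (mem_sl2_iff _).1 X.2
  rw [Matrix.trace_fin_two] at hXtr
  have e12 := hXY ⟨!![0, 1; 0, 0], (mem_sl2_iff _).2 (by simp [Matrix.trace_fin_two])⟩
  have e21 := hXY ⟨!![0, 0; 1, 0], (mem_sl2_iff _).2 (by simp [Matrix.trace_fin_two])⟩
  have eh := hXY ⟨!![1, 0; 0, -1], (mem_sl2_iff _).2 (by simp [Matrix.trace_fin_two])⟩
  simp only [Matrix.trace_fin_two, Matrix.mul_apply, Fin.sum_univ_two, Matrix.of_apply,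
    Matrix.cons_val', Matrix.cons_val_zero, Matrix.cons_val_one, Matrix.cons_val_fin_one,
    mul_zero, mul_one, add_zero, zero_add, mul_neg] at e12 e21 eh
  apply Subtype.ext
  have h00 : X.1 0 0 = 0 := by
    have : (2 : K) * X.1 0 0 = 0 := by linear_combination eh + hXtr
    exact (mul_eq_zero.mp this).resolve_left h2
  have h11 : X.1 1 1 = 0 := by linear_combination hXtr - h00
  ext i j
  fin_cases i <;> fin_cases j
  · exact h00
  · exact e21
  · exact e12
  · exact h11

instance : Finite (sl2 K) := Finite.of_injective (fun X : sl2 K => X.1) Subtype.val_injective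

theorem trDual_surjective (hp2 : p ≠ 2) : Function.Surjective (trDual (K := K) p) := by
  haveI : FiniteDimensional (ZMod p) (sl2 K) := Module.Finite.of_finite
  have hfin : Module.finrank (ZMod p) (sl2 K) =
      Module.finrank (ZMod p) (Module.Dual (ZMod p) (sl2 K)) := Subspace.dual_finrank_eq.symm
  exact (LinearMap.injective_iff_surjective_of_finrank_eq_finrank hfin).mp (trDual_injective p hp2)

end Fermat.Agent.S56lib.TW
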