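/-
S56 marathon, TW/ (helper2).  File 16: from the abstract good-element theorem to cocycles of
`(ad⁰ρ̄)^∨(1) = (Dict.adRep p rb).dualTwist χ̄_p` on `G_ℚ`, in matrix form.
-/
import Mathlib
import Fermat.Agent.S56lib.TW.Abstract
import Fermat.Agent.S56lib.TW.Cyclo
import Fermat.Agent.S56lib.TW.Dual

set_option autoImplicit false
set_option linter.unusedSectionVars false
set_option linter.style.haveILetI false

noncomputable section

namespace Fermat.Agent.S56lib.TW

open Fermat.Agent.S55lib Fermat.Agent.S56lib.Dict ExtCitation Matrix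

attribute [local instance] ZMod.algebra

variable {K : Type} [Field K] [Fintype K] (p : ℕ) [hp : Fact p.Prime] [CharP K p]
  (rb : GQ →* Matrix (Fin 2) (Fin 2) K)

/-- `(ad⁰ρ̄)^∨(1)`. -/
abbrev adDual : Rep.{0} (ZMod p) GQ := (adRep p rb).dualTwist (cycloChar p)

/-- the trace-form map, with values in `(ad⁰ρ̄)^∨(1)`. -/
def toAdDual (X : sl2 K) : adDual p rb := trDual p X

theorem toAdDual_add (X Y : sl2 K) : toAdDual p rb (X + Y) = toAdDual p rb X + toAdDual p rb Y :=
  map_add (trDual p) X Y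

theorem toAdDual_sub (X Y : sl2 K) : toAdDual p rb (X - Y) = toAdDual p rb X - toAdDual p rb Y :=
  map_sub (trDual p) X Y

theorem toAdDual_injective (hp2 : p ≠ 2) : Function.Injective (toAdDual p rb) :=
  trDual_injective p hp2

theorem toAdDual_surjective (hp2 : p ≠ 2) : Function.Surjective (toAdDual p rb) :=
  trDual_surjective p hp2

/-- the twisted adjoint action on `sl₂(K)`. -/
def twAd (g : GQ) (X : sl2 K) : sl2 K := ((cycloChar p g : (ZMod p)ˣ) : ZMod p) • adRho p rb g X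

theorem twAd_val (g : GQ) (X : sl2 K) :
    (twAd p rb g X).1 = ((cycloChar p g : (ZMod p)ˣ) : ZMod p) • (rb g * X.1 * rb g⁻¹) := rfl

/-- **equivariance** of the trace-form map. -/
theorem toAdDual_equivariant (g : GQ) (X : sl2 K) :
    (adDual p rb).ρ g (toAdDual p rb X) = toAdDual p rb (twAd p rb g X) := by
  apply LinearMap.ext
  intro Y
  rw [Rep.dualTwist_ρ_apply]
  show ((cycloChar p g : (ZMod p)ˣ) : ZMod p) • trDual p X ((adRho p rb g⁻¹) Y) =
    trDual p (twAd p rb g X) Y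
  rw [trDual_apply, trDual_apply, twAd_val, adRho_apply_coe, inv_inv, Matrix.smul_mul,
    Matrix.trace_smul, map_smul]
  congr 2
  rw [← Matrix.mul_assoc, ← Matrix.mul_assoc, Matrix.trace_mul_cycle]
  simp only [Matrix.mul_assoc]


section TraceZero

/-- a trace-zero coboundary is the coboundary of a trace-zero matrix. -/
theorem exists_traceZero_of_isCob {k : Type*} [Field k] [NeZero (2 : k)] {G : Type*} [Group G]
    (r : G →* GL (Fin 2) k) (ψ : G → Matrix (Fin 2) (Fin 2) k) (htr : ∀ g, (ψ g).trace = 0)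
    (m : Matrix (Fin 2) (Fin 2) k) (hm : ∀ g, ψ g = tw (r g) m - m) :
    ∃ m₀ : Matrix (Fin 2) (Fin 2) k, m₀.trace = 0 ∧ ∀ g, ψ g = tw (r g) m₀ - m₀ := by
  have h2 : (2 : k) ≠ 0 := NeZero.ne 2
  refine ⟨m - (m.trace / 2) • (1 : Matrix (Fin 2) (Fin 2) k), ?_, fun g => ?_⟩
  · rw [Matrix.trace_sub, Matrix.trace_smul, Matrix.trace_one, Fintype.card_fin, smul_eq_mul]
    push_cast
    field_simp
    ring
  · have h1 : (tw (r g) m - m).trace = 0 := by rw [← hm g]; exact htr g
    rw [Matrix.trace_sub, trace_tw] at h1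
    have h3 : tw (r g) (1 : Matrix (Fin 2) (Fin 2) k) = (r g).1.det • 1 := by
      rw [tw_apply, Matrix.mul_one, Matrix.mul_adjugate]
    have h4 : (m.trace / 2) * (r g).1.det = m.trace / 2 := by
      have : (r g).1.det * m.trace = m.trace := by linear_combination h1
      rw [div_mul_eq_mul_div, mul_comm, this]
    rw [hm g, map_sub, map_smul, h3, smul_smul, h4]
    abel

end TraceZero

section Main

variable {p rb}

theorem toAdDual_apply (X Y : sl2 K) :
    (toAdDual p rb X : Module.Dual (ZMod p) (sl2 K)) Y =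
      Algebra.trace (ZMod p) K (X.1 * Y.1).trace := rfl

/-- an element of the form `σ f - f` kills the vectors fixed by `σ⁻¹`, when `χ̄_p(σ) = 1`. -/
theorem apply_eq_zero_of_eq (σ : GQ) (hχ : cycloChar p σ = 1) (f φ : adDual p rb)
    (hφ : φ = (adDual p rb).ρ σ f - f) (Y : sl2 K) (hY : rb σ⁻¹ * Y.1 * rb σ = Y.1) :
    (φ : Module.Dual (ZMod p) (sl2 K)) Y = 0 := by
  subst hφ
  show ((adDual p rb).ρ σ f : Module.Dual (ZMod p) (sl2 K)) Y -
    (f : Module.Dual (ZMod p) (sl2 K)) Y = 0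
  rw [Rep.dualTwist_ρ_apply, hχ, Units.val_one, one_smul]
  show (f : Module.Dual (ZMod p) (sl2 K)) (adRho p rb σ⁻¹ Y) - _ = 0
  have : adRho p rb σ⁻¹ Y = Y := Subtype.ext (by rw [adRho_apply_coe, inv_inv]; exact hY)
  rw [this, sub_self]

/-- **the good element, matrix form.**  For every cocycle `c : G_ℚ → (ad⁰ρ̄)^∨(1)` which is not a
coboundary there is `σ` fixing `μ_{p^{n+1}}` with `ρ̄(σ)` regular semisimple such that `c σ` is not
of the form `σ m - m`. -/
theorem goodSigma_matrix (hp2 : p ≠ 2) (r : GQ →* GL (Fin 2) K) (hr : ∀ g, (r g).1 = rb g)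
    (h : TWHyp r)
    (hdet : ∀ g, (rb g).det = algebraMap (ZMod p) K ((cycloChar p g : (ZMod p)ˣ) : ZMod p))
    (n : ℕ) (c : GQ → adDual p rb)
    (hc : ∀ g h, c (g * h) = c g + (adDual p rb).ρ g (c h))
    (hncob : ¬ ∃ m : adDual p rb, ∀ g, c g = (adDual p rb).ρ g m - m) :
    ∃ σ : GQ, (∀ μ : Qbar, μ ^ p ^ (n + 1) = 1 → σ μ = μ) ∧
      (rb σ).trace ^ 2 ≠ 4 * (rb σ).det ∧
      ¬ ∃ m : adDual p rb, c σ = (adDual p rb).ρ σ m - m := by
  classical
  haveI : NeZero (2 : K) := two_ne_zero_of_char p hp2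
  have h2 : (2 : K) ≠ 0 := NeZero.ne 2
  -- the matrix-valued cochain
  have hsurj := toAdDual_surjective p rb hp2
  have hinj := toAdDual_injective p rb hp2
  choose X hX using fun g => hsurj (c g)
  set ψ : GQ → Matrix (Fin 2) (Fin 2) K := fun g => (X g).1 with hψdef
  have hinv : ∀ g, ((r g)⁻¹).1 = rb g⁻¹ := fun g => by rw [← map_inv, hr]
  have htwad : ∀ g (Y : sl2 K), (twAd p rb g Y).1 = tw (r g) Y.1 := fun g Y => by
    rw [twAd_val, tw_eq_det_smul, hr, hinv, hdet, algebraMap_smul]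
  have hXmul : ∀ g h, X (g * h) = X g + twAd p rb g (X h) := fun g h => by
    apply hinj
    rw [toAdDual_add, ← toAdDual_equivariant, hX, hX, hX, hc]
  have hψ : IsCoc (tw.comp r) ψ := fun g h => by
    show (X (g * h)).1 = (X g).1 + tw (r g) (X h).1
    rw [hXmul, ← htwad]
    rfl
  have htr : ∀ g, (ψ g).trace = 0 := fun g => (mem_sl2_iff _).mp (X g).2
  -- not a coboundary
  have hncob' : ¬ IsCob (tw.comp r) ψ := by
    rintro ⟨m, hm⟩
    obtain ⟨m₀, hm₀, hm₀'⟩ := exists_traceZero_of_isCob r ψ htr m hm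
    apply hncob
    set M₀ : sl2 K := ⟨m₀, (mem_sl2_iff _).mpr hm₀⟩ with hM₀
    refine ⟨toAdDual p rb M₀, fun g => ?_⟩
    rw [toAdDual_equivariant, ← toAdDual_sub, ← hX]
    congr 1
    apply Subtype.ext
    rw [Submodule.coe_sub, htwad]
    exact hm₀' g
  -- the determinant conditions
  have hdetr : ∀ g, (r g).1.det = algebraMap (ZMod p) K ((cycloChar p g : (ZMod p)ˣ) : ZMod p) :=
    fun g => by rw [hr, hdet]
  have hdet1 : ∀ g, (r g).1.det ^ (p - 1) = 1 := fun g => by
    rw [hdetr, ← map_pow, ← Units.val_pow_eq_pow_val, ZMod.units_pow_card_sub_one_eq_one,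
      Units.val_one, map_one]
  have hdet2 : ∃ g, orderOf (r g).1.det = p - 1 := by
    obtain ⟨u, hu⟩ := IsCyclic.exists_generator (α := (ZMod p)ˣ)
    obtain ⟨g, hg⟩ := cycloChar_surjective p u
    refine ⟨g, ?_⟩
    have hord : orderOf u = p - 1 := by
      rw [orderOf_eq_card_of_forall_mem_zpowers hu, Nat.card_eq_fintype_card, ZMod.card_units]
    set f : (ZMod p)ˣ →* K :=
      ((algebraMap (ZMod p) K : ZMod p →+* K) : ZMod p →* K).comp (Units.coeHom (ZMod p)) with hf
    have hfinj : Function.Injective f := fun a b hab => by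
      apply Units.ext
      exact (algebraMap (ZMod p) K).injective hab
    have : (r g).1.det = f u := by rw [hdetr, hg]; rfl
    rw [this, orderOf_injective f hfinj, hord]
  -- the subgroup fixing `μ_{p^{n+1}}`
  have hpos : 0 < p ^ (n + 1) := pow_pos hp.out.pos _
  have hdetG' : ∀ g ∈ rootFixer (p ^ (n + 1)), (r g).1.det = 1 := by
    intro g hg
    have h1 : cycloChar p g = 1 := by
      apply cycloChar_eq_one_of_fixes
      intro μ hμ
      apply hg
      rw [pow_succ', pow_mul, hμ, one_pow]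
    rw [hdetr, h1, Units.val_one, map_one]
  obtain ⟨σ, hσG', hσreg, hσtr⟩ := exists_good_sigma p hp2 r h hdet1 hdet2
    (rootFixer (p ^ (n + 1))) (comm_mem_rootFixer _ hpos) hdetG' ψ hψ htr hncob'
  refine ⟨σ, hσG', ?_, ?_⟩
  · rw [← hr]; exact hσreg
  · rintro ⟨f, hf⟩
    have hχ : cycloChar p σ = 1 := by
      apply cycloChar_eq_one_of_fixes
      intro μ hμ
      apply hσG'
      rw [pow_succ', pow_mul, hμ, one_pow]
    set t : K := (ψ σ * rb σ).trace with ht
    have ht0 : t ≠ 0 := by rw [ht, ← hr]; exact hσtr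
    apply ht0
    apply eq_zero_of_trace_mul_eq_zero p t
    intro l
    -- the test vector
    set Y₀ : Matrix (Fin 2) (Fin 2) K := rb σ - ((rb σ).trace / 2) • (1 : Matrix (Fin 2) (Fin 2) K)
      with hY₀
    have hY₀tr : Y₀.trace = 0 := by
      rw [hY₀, Matrix.trace_sub, Matrix.trace_smul, Matrix.trace_one, Fintype.card_fin, smul_eq_mul]
      push_cast
      field_simp
      ring
    set Y : sl2 K := ⟨l • Y₀, (sl2 K).smul_mem l ((mem_sl2_iff _).mpr hY₀tr)⟩ with hY
    have hcomm : rb σ⁻¹ * (l • Y₀) * rb σ = l • Y₀ := by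
      have h1 : rb σ⁻¹ * rb σ = 1 := by rw [← map_mul, inv_mul_cancel, map_one]
      rw [hY₀, Matrix.mul_smul, Matrix.smul_mul, Matrix.mul_sub, Matrix.sub_mul, h1,
        Matrix.mul_smul, Matrix.smul_mul, Matrix.mul_one, h1, Matrix.one_mul]
    have h5 := apply_eq_zero_of_eq σ hχ f (c σ) hf Y hcomm
    rw [← hX σ, toAdDual_apply] at h5
    rw [← h5]
    congr 1
    show l * t = ((X σ).1 * (l • Y₀)).trace
    rw [Matrix.mul_smul, Matrix.trace_smul, smul_eq_mul, hY₀, Matrix.mul_sub, Matrix.mul_smul,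
      Matrix.mul_one, Matrix.trace_sub, Matrix.trace_smul, htr σ, smul_zero, sub_zero]

end Main

end Fermat.Agent.S56lib.TW
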