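/-
S56 marathon, TW/ (helper2).  File 17: the two Galois-side outputs of the `TW/` chain, in the form
consumed by `Main/Final.s56_of_inputs`:

* `goodSigma_of_vec` : `TWSel.GoodSigma p ρbar ((adRep p rb).dualTwist χ̄_p) S n` for every `n`, `S`;
* `card_invariants_adRep` : `Nat.card (adRep p rb).ρ.invariants = 1`  (N9),

from the Taylor–Wiles hypotheses on `rb : G_ℚ → M₂(k)` in vector form, the determinant relation
`det rb = χ̄_p` and the translation "regular semisimple ⇒ split characteristic polynomial with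
distinct roots".
-/
import Mathlib
import Fermat.Agent.S56lib.TW.Bridge
import Fermat.Agent.S56lib.TWSel.Kill

set_option autoImplicit false
set_option linter.unusedSectionVars false
set_option linter.style.haveILetI false

noncomputable section

namespace Fermat.Agent.S56lib.TW

open Fermat.Agent.S55lib Fermat.Agent.S56lib.Dict ExtCitation Matrix Polynomial
open scoped LinearAlgebra.Projectivization

attribute [local instance] ZMod.algebra

section OfVec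

variable {k : Type*} [Field k] {G : Type*} [Group G]

/-- the Taylor–Wiles hypotheses from their vector form. -/
theorem TWHyp.of_vec (r : G →* GL (Fin 2) k)
    (hsplit : ∀ g, ∃ v : Fin 2 → k, v ≠ 0 ∧ ∃ a : k, (r g).1 *ᵥ v = a • v)
    (hirr : ∀ v : Fin 2 → k, v ≠ 0 → ∃ g, ∀ a : k, (r g).1 *ᵥ v ≠ a • v)
    (hirr2 : ∀ H : Subgroup G, H.index = 2 → ∀ v : Fin 2 → k, v ≠ 0 →
      ∃ g ∈ H, ∀ a : k, (r g).1 *ᵥ v ≠ a • v) : TWHyp r := by
  have key : ∀ (g : G) (v : Fin 2 → k) (hv : v ≠ 0),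
      r g • Projectivization.mk k v hv = Projectivization.mk k v hv ↔
        ∃ a : k, (r g).1 *ᵥ v = a • v := by
    intro g v hv
    rw [smul_mk_eq, Projectivization.mk_eq_mk_iff']
    exact ⟨fun ⟨a, ha⟩ => ⟨a, ha.symm⟩, fun ⟨a, ha⟩ => ⟨a, ha.symm⟩⟩
  refine ⟨fun g => ?_, fun x => ?_, fun H hH x => ?_⟩
  · obtain ⟨v, hv, a, ha⟩ := hsplit g
    exact ⟨Projectivization.mk k v hv, (key g v hv).mpr ⟨a, ha⟩⟩
  · induction x using Projectivization.ind with
    | h v hv =>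
      obtain ⟨g, hg⟩ := hirr v hv
      refine ⟨g, fun hfix => ?_⟩
      obtain ⟨a, ha⟩ := (key g v hv).mp hfix
      exact hg a ha
  · induction x using Projectivization.ind with
    | h v hv =>
      obtain ⟨g, hgH, hg⟩ := hirr2 H hH v hv
      refine ⟨g, hgH, fun hfix => ?_⟩
      obtain ⟨a, ha⟩ := (key g v hv).mp hfix
      exact hg a ha

end OfVec

section Final

variable (p : ℕ) [hp : Fact p.Prime] {k : Type} [Field k] [CharP k p]

/-- **(N9), matrix form**: `ad⁰ρ̄` has no non-zero invariants. -/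
theorem invariants_adRep_eq_bot [NeZero (2 : k)] (rb : GQ →* Matrix (Fin 2) (Fin 2) k)
    (r : GQ →* GL (Fin 2) k) (hr : ∀ g, (r g).1 = rb g) (h : TWHyp r) :
    (adRep p rb).ρ.invariants = ⊥ := by
  rw [eq_bot_iff]
  intro X hX
  rw [Submodule.mem_bot]
  by_contra hne
  have hinv : ∀ g, ((r g)⁻¹).1 = rb g⁻¹ := fun g => by rw [← map_inv, hr]
  have hX0 : adVal p X ≠ 0 := fun h0 => hne (adVal_injective p (by rw [h0]; rfl))
  refine h.no_stable_line (adVal p X) (trace_adVal p X) hX0 fun g => ⟨1, ?_⟩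
  rw [one_smul, hr, hinv, ← adVal_ρ]
  exact congrArg (adVal p) (hX g)

/-- **(N9)** from `TWHyp`: `|H⁰(G_ℚ, ad⁰ρ̄)| = 1`. -/
theorem card_invariants_of_twHyp (hp2 : p ≠ 2) [Finite k] (rb : GQ →* Matrix (Fin 2) (Fin 2) k)
    (r : GQ →* GL (Fin 2) k) (hr : ∀ g, (r g).1 = rb g) (h : TWHyp r) :
    Nat.card (adRep p rb).ρ.invariants = 1 := by
  cases nonempty_fintype k
  haveI : NeZero (2 : k) := two_ne_zero_of_char p hp2
  rw [invariants_adRep_eq_bot p rb r hr h]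
  exact Nat.card_unique

/-- **the group-theoretic input of the Taylor–Wiles argument** from `TWHyp`, in the form of
`TWSel.GoodSigma`. -/
theorem goodSigma_of_twHyp (hp2 : p ≠ 2) [Finite k] (ρbar : ResidualGaloisRep k)
    (rb : GQ →* Matrix (Fin 2) (Fin 2) k)
    (r : GQ →* GL (Fin 2) k) (hr : ∀ g, (r g).1 = rb g) (h : TWHyp r)
    (hD : ∀ g, (rb g).det = algebraMap (ZMod p) k ((cycloChar p g : (ZMod p)ˣ) : ZMod p))
    (hC : ∀ σ, (rb σ).trace ^ 2 ≠ 4 * (rb σ).det →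
      ∃ α β : k, α ≠ β ∧ LinearMap.charpoly (ρbar.ρ σ) = (X - C α) * (X - C β))
    (S : Finset Nat.Primes) (n : ℕ) :
    TWSel.GoodSigma p ρbar ((adRep p rb).dualTwist (cycloChar p)) S n := by
  cases nonempty_fintype k
  intro c hc _ hncob
  obtain ⟨σ, hσ1, hσ2, hσ3⟩ := goodSigma_matrix (p := p) (rb := rb) hp2 r hr h hD n c
    (TWSel.cocycle_of_mem _ hc) hncob
  exact ⟨σ, hσ1, hC σ hσ2, hσ3⟩

/-- **(N9)**: `|H⁰(G_ℚ, ad⁰ρ̄)| = 1`. -/
theorem card_invariants_adRep (hp2 : p ≠ 2) [Finite k] (rb : GQ →* Matrix (Fin 2) (Fin 2) k)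
    (hV1 : ∀ g, ∃ v : Fin 2 → k, v ≠ 0 ∧ ∃ a : k, rb g *ᵥ v = a • v)
    (hV2 : ∀ v : Fin 2 → k, v ≠ 0 → ∃ g, ∀ a : k, rb g *ᵥ v ≠ a • v)
    (hV3 : ∀ H : Subgroup GQ, H.index = 2 → ∀ v : Fin 2 → k, v ≠ 0 →
      ∃ g ∈ H, ∀ a : k, rb g *ᵥ v ≠ a • v) :
    Nat.card (adRep p rb).ρ.invariants = 1 := by
  cases nonempty_fintype k
  haveI : NeZero (2 : k) := two_ne_zero_of_char p hp2
  have hr : ∀ g, (rb.toHomUnits g).1 = rb g := fun g => rfl
  have h : TWHyp rb.toHomUnits := TWHyp.of_vec _ hV1 hV2 hV3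
  rw [invariants_adRep_eq_bot p rb rb.toHomUnits hr h]
  exact Nat.card_unique

/-- **the group-theoretic input of the Taylor–Wiles argument**, in the form of
`TWSel.GoodSigma`. -/
theorem goodSigma_of_vec (hp2 : p ≠ 2) [Finite k] (ρbar : ResidualGaloisRep k)
    (rb : GQ →* Matrix (Fin 2) (Fin 2) k)
    (hV1 : ∀ g, ∃ v : Fin 2 → k, v ≠ 0 ∧ ∃ a : k, rb g *ᵥ v = a • v)
    (hV2 : ∀ v : Fin 2 → k, v ≠ 0 → ∃ g, ∀ a : k, rb g *ᵥ v ≠ a • v)
    (hV3 : ∀ H : Subgroup GQ, H.index = 2 → ∀ v : Fin 2 → k, v ≠ 0 →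
      ∃ g ∈ H, ∀ a : k, rb g *ᵥ v ≠ a • v)
    (hD : ∀ g, (rb g).det = algebraMap (ZMod p) k ((cycloChar p g : (ZMod p)ˣ) : ZMod p))
    (hC : ∀ σ, (rb σ).trace ^ 2 ≠ 4 * (rb σ).det →
      ∃ α β : k, α ≠ β ∧ LinearMap.charpoly (ρbar.ρ σ) = (X - C α) * (X - C β))
    (S : Finset Nat.Primes) (n : ℕ) :
    TWSel.GoodSigma p ρbar ((adRep p rb).dualTwist (cycloChar p)) S n := by
  cases nonempty_fintype k
  have hr : ∀ g, (rb.toHomUnits g).1 = rb g := fun g => rfl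
  have h : TWHyp rb.toHomUnits := TWHyp.of_vec _ hV1 hV2 hV3
  intro c hc _ hncob
  obtain ⟨σ, hσ1, hσ2, hσ3⟩ := goodSigma_matrix (p := p) (rb := rb) hp2 rb.toHomUnits hr h hD n c
    (TWSel.cocycle_of_mem _ hc) hncob
  exact ⟨σ, hσ1, hC σ hσ2, hσ3⟩

end Final

end Fermat.Agent.S56lib.TW
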