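/-
S56 marathon, TW/ (helper2).  File 18: **the two outputs of the `TW/` chain from the hypotheses of
S56, literally in the shape of `Main/Final.s56_of_inputs`**: `hgood_s56` (= `hgood`) and `hN9_s56`
(= `hN9`).  Uses helper7's `PT9a/BridgeHyp` (S56 hypotheses ⇒ `TWHyp`, `det ρ̄ = χ̄_p`, distinct roots).
-/
import Mathlib
import Fermat.Agent.S56lib.TW.GoodSigma
import Fermat.Agent.S56lib.PT9a.BridgeHyp
import Fermat.Agent.S56lib.Dict.TangentMap

set_option autoImplicit false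
set_option linter.unusedSectionVars false
set_option linter.style.haveILetI false

noncomputable section

namespace Fermat.Agent.S56lib.TW

open Fermat.Agent.S55lib Fermat.Agent.S56lib.Dict Fermat.Agent.S56lib.PT9a ExtCitation Matrix
  Polynomial IsLocalRing

attribute [local instance] ZMod.algebra

section Generic

variable (p : ℕ) [hp : Fact p.Prime] {K : Type} [Field K] [Finite K] [CharP K p]
  (ρbar : ResidualGaloisRep K) (b : Module.Basis (Fin 2) K ρbar.V)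
  (rb : GQ →* Matrix (Fin 2) (Fin 2) K) (hrb : ∀ g, rb g = LinearMap.toMatrix b b (ρbar.ρ g))

include hrb

/-- `TWSel.GoodSigma` from the hypotheses of S56 (generic residue field). -/
theorem goodSigma_of_s56 (hp2 : p ≠ 2) (habs : ρbar.IsAbsolutelyIrreducible)
    (hdet : (GaloisRepAdic.ofResidualGaloisRep ρbar).DetIsCyclotomic p)
    (hsplit : ∀ σ : GQ, ∃ α β : K, LinearMap.charpoly (ρbar.ρ σ) = (X - C α) * (X - C β))
    (hTW : ∀ (K' : Type) [Field K'] [Algebra K K'] (G : Subgroup GQ), G.index = 2 →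
      ∀ V : Submodule K' (ρbar.baseChange K').V,
        (∀ σ ∈ G, ∀ x ∈ V, (ρbar.baseChange K').ρ σ x ∈ V) → V = ⊥ ∨ V = ⊤)
    (S : Finset Nat.Primes) (n : ℕ) :
    TWSel.GoodSigma p ρbar ((adRep p rb).dualTwist (cycloChar p)) S n :=
  goodSigma_of_twHyp p hp2 ρbar rb (glHom rb) (glHom_val rb)
    (twHyp_of_s56 ρbar b rb hrb habs hsplit hTW) (det_eq_cycloChar p ρbar b rb hrb hdet)
    (fun σ hσ => by
      obtain ⟨α, β, h⟩ := hsplit σ
      exact ⟨α, β, ne_of_regular ρbar b rb hrb σ hσ h, h⟩) S n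

/-- (N9) from the hypotheses of S56 (generic residue field). -/
theorem card_invariants_of_s56 (hp2 : p ≠ 2) (habs : ρbar.IsAbsolutelyIrreducible)
    (hsplit : ∀ σ : GQ, ∃ α β : K, LinearMap.charpoly (ρbar.ρ σ) = (X - C α) * (X - C β))
    (hTW : ∀ (K' : Type) [Field K'] [Algebra K K'] (G : Subgroup GQ), G.index = 2 →
      ∀ V : Submodule K' (ρbar.baseChange K').V,
        (∀ σ ∈ G, ∀ x ∈ V, (ρbar.baseChange K').ρ σ x ∈ V) → V = ⊥ ∨ V = ⊤) :
    Nat.card (adRep p rb).ρ.invariants = 1 :=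
  card_invariants_of_twHyp p hp2 rb (glHom rb) (glHom_val rb)
    (twHyp_of_s56 ρbar b rb hrb habs hsplit hTW)

end Generic

section S56

variable {𝒪 : Type} [CommRing 𝒪] [IsDomain 𝒪] [IsDiscreteValuationRing 𝒪]
  [IsAdicComplete (maximalIdeal 𝒪) 𝒪] [Finite (ResidueField 𝒪)]
  (p : ℕ) [hp : Fact p.Prime] [CharP (ResidueField 𝒪) p]
  (ρbar : ResidualGaloisRep (ResidueField 𝒪))
  (bbar : Module.Basis (Fin 2) (ResidueField 𝒪) ρbar.V)

/-- **`hgood` of `Main.s56_of_inputs`.** -/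
theorem hgood_s56 (hp2 : p ≠ 2) (habs : ρbar.IsAbsolutelyIrreducible)
    (hdet : (GaloisRepAdic.ofResidualGaloisRep ρbar).DetIsCyclotomic p)
    (hsplit : ∀ σ : AlgebraicClosure ℚ ≃ₐ[ℚ] AlgebraicClosure ℚ,
      ∃ α β : ResidueField 𝒪, LinearMap.charpoly (ρbar.ρ σ) = (X - C α) * (X - C β))
    (hTW : ∀ (K : Type) [Field K] [Algebra (ResidueField 𝒪) K]
      (G : Subgroup (AlgebraicClosure ℚ ≃ₐ[ℚ] AlgebraicClosure ℚ)), G.index = 2 →
      ∀ V : Submodule K (ρbar.baseChange K).V,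
        (∀ σ ∈ G, ∀ x ∈ V, (ρbar.baseChange K).ρ σ x ∈ V) → V = ⊥ ∨ V = ⊤)
    (S : Finset Nat.Primes) (n : ℕ) :
    TWSel.GoodSigma p ρbar ((adRep p (resHom ρbar bbar)).dualTwist (cycloChar p)) S n :=
  goodSigma_of_s56 p ρbar bbar (resHom ρbar bbar) (fun _ => rfl) hp2 habs hdet hsplit hTW S n

/-- **`hN9` of `Main.s56_of_inputs`.** -/
theorem hN9_s56 (hp2 : p ≠ 2) (habs : ρbar.IsAbsolutelyIrreducible)
    (hsplit : ∀ σ : AlgebraicClosure ℚ ≃ₐ[ℚ] AlgebraicClosure ℚ,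
      ∃ α β : ResidueField 𝒪, LinearMap.charpoly (ρbar.ρ σ) = (X - C α) * (X - C β))
    (hTW : ∀ (K : Type) [Field K] [Algebra (ResidueField 𝒪) K]
      (G : Subgroup (AlgebraicClosure ℚ ≃ₐ[ℚ] AlgebraicClosure ℚ)), G.index = 2 →
      ∀ V : Submodule K (ρbar.baseChange K).V,
        (∀ σ ∈ G, ∀ x ∈ V, (ρbar.baseChange K).ρ σ x ∈ V) → V = ⊥ ∨ V = ⊤) :
    Nat.card (adRep p (resHom ρbar bbar)).ρ.invariants = 1 :=
  card_invariants_of_s56 p ρbar bbar (resHom ρbar bbar) (fun _ => rfl) hp2 habs hsplit hTW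

end S56

end Fermat.Agent.S56lib.TW
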