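/-
S56 marathon, TW/ (helper2).  File 20: two small lemmas for helper1's global Euler characteristic
(N3):
* (C1) complex conjugation inverts the `p`-th roots of unity: `cycloChar p c = -1`, and acts by `-1`
  on the `p`-torsion of `E_S`;
* (C2) a finite abelian group killed by an odd prime with an involution `σ` is the product of the
  fixed part and the anti-fixed part.
-/
import Mathlib
import Fermat.Prelude.Def_GaloisRep_ComplexConjugation
import Fermat.Agent.S55lib.Iface.Modules
import Fermat.Agent.S56lib.TW.Cyclo

set_option autoImplicit false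
set_option linter.unusedSectionVars false
set_option linter.style.haveILetI false

namespace Fermat.Agent.S56lib.TW

open ExtCitation Fermat.Agent.S55lib

section C1

/-- complex conjugation inverts roots of unity. -/
theorem complexConjugation_root (N : ℕ) (hN : N ≠ 0) (μ : AlgebraicClosure ℚ) (hμ : μ ^ N = 1) :
    complexConjugation μ = μ⁻¹ := by
  have hinj : Function.Injective complexEmbedding := complexEmbedding.toRingHom.injective
  apply hinj
  rw [complexEmbedding_complexConjugation, map_inv₀]
  have h1 : (complexEmbedding μ) ^ N = 1 := by rw [← map_pow, hμ, map_one]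
  have hnorm : ‖complexEmbedding μ‖ = 1 := Complex.norm_eq_one_of_pow_eq_one h1 hN
  rw [Complex.inv_def, Complex.normSq_eq_norm_sq, hnorm]
  simp

variable (p : ℕ) [hp : Fact p.Prime]

/-- **(C1)** the mod `p` cyclotomic character of complex conjugation is `-1`. -/
theorem cycloChar_complexConjugation : cycloChar p complexConjugation = -1 := by
  haveI : NeZero p := ⟨hp.out.ne_zero⟩
  haveI : Fact (1 < p) := ⟨hp.out.one_lt⟩
  refine cycloChar_eq_of_spec p complexConjugation (-1) fun μ hμ => ?_
  rw [complexConjugation_root p hp.out.ne_zero μ hμ]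
  have hval : (((-1 : (ZMod p)ˣ) : (ZMod p)ˣ) : ZMod p).val = p - 1 := by
    rw [Units.val_neg, Units.val_one, ZMod.val_neg_of_ne_zero, ZMod.val_one]
  rw [hval]
  have hμ0 : μ ≠ 0 := by
    rintro rfl
    rw [zero_pow hp.out.ne_zero] at hμ
    exact zero_ne_one hμ
  apply inv_eq_of_mul_eq_one_left
  rw [← pow_succ, Nat.sub_add_cancel hp.out.one_lt.le, hμ]

/-- **(C1), `E_S` form**: complex conjugation acts by `-1` on the `p`-torsion of `E_S`. -/
theorem ESrep_complexConjugation (S : Finset Nat.Primes) (x : ESrep S) (hx : p • x = 0) :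
    (ESrep S).ρ complexConjugation x = -x := by
  set u : ES S := Additive.toMul (x : Additive (ES S)) with hu
  have hup : u ^ p = 1 := by
    have hx' : p • (x : Additive (ES S)) = 0 := hx
    have h0 := congrArg Additive.toMul hx'
    exact h0
  have hroot : ((u : Qbarˣ) : Qbar) ^ p = 1 := by
    have := congrArg (fun v : ES S => ((v : Qbarˣ) : Qbar)) hup
    simpa using this
  show Additive.ofMul (complexConjugation • u) = -x
  have h1 : complexConjugation • u = u⁻¹ := by
    apply Subtype.ext
    apply Units.ext
    rw [ES.coe_smul, complexConjugation_root p hp.out.ne_zero _ hroot]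
    simp
  rw [h1]
  rfl

end C1

section C2

/-- **(C2)** a finite abelian group killed by an odd prime, with an involution: the order is the
product of the orders of the fixed part and of the anti-fixed part. -/
theorem card_eq_card_fixed_mul_card_anti {V : Type*} [AddCommGroup V] [Finite V] (p : ℕ)
    [hp : Fact p.Prime] (hp2 : p ≠ 2) (hV : ∀ v : V, p • v = 0) (σ : V →+ V)
    (hσ : ∀ v, σ (σ v) = v) :
    Nat.card V = Nat.card {v // σ v = v} * Nat.card {v // σ v = -v} := by
  -- `h = (p + 1) / 2` is an inverse of `2` on `V`
  obtain ⟨h, hh⟩ : ∃ h : ℕ, 2 * h = p + 1 := by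
    rcases hp.out.eq_two_or_odd' with h2 | hodd
    · exact absurd h2 hp2
    · obtain ⟨m, hm⟩ := hodd
      exact ⟨m + 1, by omega⟩
  have h2h : ∀ v : V, (2 * h) • v = v := fun v => by
    rw [hh, add_smul, hV, zero_add, one_smul]
  rw [← Nat.card_prod]
  refine Nat.card_congr
    { toFun := fun v => (⟨h • (v + σ v), ?_⟩, ⟨h • (v - σ v), ?_⟩)
      invFun := fun ab => ab.1.1 + ab.2.1
      left_inv := fun v => ?_
      right_inv := fun ab => ?_ }
  · rw [map_nsmul, map_add, hσ, add_comm]
  · rw [map_nsmul, map_sub, hσ, ← smul_neg, neg_sub]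
  · show h • (v + σ v) + h • (v - σ v) = v
    rw [← smul_add]
    have : v + σ v + (v - σ v) = 2 • v := by rw [two_smul]; abel
    rw [this, smul_smul, mul_comm, h2h]
  · obtain ⟨⟨a, ha⟩, ⟨b, hb⟩⟩ := ab
    apply Prod.ext
    · apply Subtype.ext
      show h • (a + b + σ (a + b)) = a
      rw [map_add, ha, hb]
      have : a + b + (a + -b) = 2 • a := by rw [two_smul]; abel
      rw [this, smul_smul, mul_comm, h2h]
    · apply Subtype.ext
      show h • (a + b - σ (a + b)) = b
      rw [map_add, ha, hb]
      have : a + b - (a + -b) = 2 • b := by rw [two_smul]; abel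
      rw [this, smul_smul, mul_comm, h2h]

end C2

end Fermat.Agent.S56lib.TW
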