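/-
S56 marathon, TW/ (helper2).  File 21: **(Irr-count)** for helper3's Flat/ chain: the count of the
trace-zero adjoint cocycles of `Γ = Gal(ℚ̄_p/ℚ_p)` vanishing on `Γ_L`, for `r : Γ → GL₂(k)` trivial
on `Γ_K` (`K ⊆ L` tame) with `r τ` diagonal with distinct eigenvalues and `r φ` anti-diagonal, in
terms of counts of spaces of homomorphisms on `Γ_K`.
-/
import Mathlib
import Fermat.Agent.S56lib.Flat.Char

set_option autoImplicit false
set_option linter.unusedSectionVars false
set_option linter.style.haveILetI false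

noncomputable section

namespace Fermat.Agent.S56lib.Flat

open Fermat.Agent.S56lib Fermat.Agent.S56lib.Kum Matrix

section General

variable {G : Type*} [Group G] {k : Type*} [Field k]

/-- `Zad r N` as a `k`-subspace. -/
def ZadS (r : G →* Matrix (Fin 2) (Fin 2) k) (N : Subgroup G) :
    Submodule k (G → Matrix (Fin 2) (Fin 2) k) :=
  { Zad r N with
    smul_mem' := fun a c hc => ⟨fun g => by
      simp only [Pi.smul_apply, Matrix.trace_smul]
      rw [hc.1 g, smul_zero], fun g h => by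
      simp only [Pi.smul_apply]
      rw [hc.2.1 g h, smul_add, Matrix.mul_smul, Matrix.smul_mul], fun n hn => by
      simp only [Pi.smul_apply]
      rw [hc.2.2 n hn, smul_zero]⟩ }

theorem mem_ZadS {r : G →* Matrix (Fin 2) (Fin 2) k} {N : Subgroup G}
    {c : G → Matrix (Fin 2) (Fin 2) k} : c ∈ ZadS r N ↔ c ∈ Zad r N := Iff.rfl

/-- the `(i, j)` entry of a matrix-valued function. -/
def entryL (i j : Fin 2) : (G → Matrix (Fin 2) (Fin 2) k) →ₗ[k] (G → k) where
  toFun c := fun g => c g i j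
  map_add' _ _ := rfl
  map_smul' _ _ := rfl

theorem entryL_apply (i j : Fin 2) (c : G → Matrix (Fin 2) (Fin 2) k) (g : G) :
    entryL i j c g = c g i j := rfl

variable {r : G →* Matrix (Fin 2) (Fin 2) k} {N : Subgroup G}
  {c : G → Matrix (Fin 2) (Fin 2) k}

theorem Zad_map_one (hc : c ∈ Zad r N) : c 1 = 0 := hc.2.2 1 (one_mem N)

theorem map_inv_eq_one {g : G} (hg : r g = 1) : r g⁻¹ = 1 := by
  have h1 : r g⁻¹ * r g = 1 := by rw [← map_mul, inv_mul_cancel, map_one]
  rwa [hg, mul_one] at h1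

/-- conjugation formula for adjoint cocycles at an element where `r` is trivial. -/
theorem Zad_conj (hc : c ∈ Zad r N) (δ g : G) (hg : r g = 1) :
    c (δ⁻¹ * g * δ) = r δ⁻¹ * c g * r δ := by
  have h1 : c (δ⁻¹ * δ) = c δ⁻¹ + r δ⁻¹ * c δ * r δ := by
    have := hc.2.1 δ⁻¹ δ
    rwa [inv_inv] at this
  rw [inv_mul_cancel, Zad_map_one hc] at h1
  rw [mul_assoc, hc.2.1 δ⁻¹ (g * δ), hc.2.1 g δ, hg, map_inv_eq_one hg, inv_inv, Matrix.one_mul,
    Matrix.mul_one, Matrix.mul_add, Matrix.add_mul, ← add_assoc, add_right_comm, ← h1, zero_add]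

end General

section Mat

variable {k : Type*} [Field k]

/-- conjugation by a diagonal matrix, entries `(0,0)` and `(0,1)`. -/
theorem diag_conj_entries (B X : Matrix (Fin 2) (Fin 2) k) (α β : k)
    (hB : B * Matrix.diagonal ![α, β] = 1) :
    (B * X * Matrix.diagonal ![α, β]) 0 0 = X 0 0 ∧
      (B * X * Matrix.diagonal ![α, β]) 0 1 = β / α * X 0 1 := by
  have h00 := congrFun (congrFun hB 0) 0
  have h01 := congrFun (congrFun hB 0) 1
  have h10 := congrFun (congrFun hB 1) 0
  have h11 := congrFun (congrFun hB 1) 1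
  simp only [Matrix.mul_apply, Fin.sum_univ_two, Matrix.diagonal_apply, Matrix.cons_val_zero,
    Matrix.cons_val_one, Matrix.one_apply, if_true, if_false, mul_zero, add_zero, zero_add,
    Fin.isValue, one_ne_zero, zero_ne_one, ↓reduceIte] at h00 h01 h10 h11
  have hα : α ≠ 0 := by
    rintro rfl
    rw [mul_zero] at h00
    exact zero_ne_one h00
  have hβ : β ≠ 0 := by
    rintro rfl
    rw [mul_zero] at h11
    exact zero_ne_one h11
  have hB01 : B 0 1 = 0 := (mul_eq_zero.mp h01).resolve_right hβ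
  have hB00 : B 0 0 = α⁻¹ := eq_inv_of_mul_eq_one_left h00
  constructor
  · simp only [Matrix.mul_apply, Fin.sum_univ_two, Matrix.diagonal_apply, Matrix.cons_val_zero,
      Matrix.cons_val_one, if_true, if_false, mul_zero, add_zero, zero_add, Fin.isValue,
      one_ne_zero, zero_ne_one, ↓reduceIte, hB01, hB00, zero_mul]
    field_simp
  · simp only [Matrix.mul_apply, Fin.sum_univ_two, Matrix.diagonal_apply, Matrix.cons_val_zero,
      Matrix.cons_val_one, if_true, if_false, mul_zero, add_zero, zero_add, Fin.isValue,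
      one_ne_zero, zero_ne_one, ↓reduceIte, hB01, hB00, zero_mul]
    field_simp

/-- conjugation by an anti-diagonal matrix, entries `(0,0)` and `(0,1)`. -/
theorem anti_conj_entries (B X : Matrix (Fin 2) (Fin 2) k) (b c : k)
    (hB : B * !![0, b; c, 0] = 1) :
    b ≠ 0 ∧ c ≠ 0 ∧ (B * X * !![0, b; c, 0]) 0 0 = X 1 1 ∧
      (B * X * !![0, b; c, 0]) 0 1 = b / c * X 1 0 := by
  have h00 := congrFun (congrFun hB 0) 0
  have h01 := congrFun (congrFun hB 0) 1
  have h10 := congrFun (congrFun hB 1) 0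
  have h11 := congrFun (congrFun hB 1) 1
  simp only [Matrix.mul_apply, Fin.sum_univ_two, Matrix.of_apply, Matrix.cons_val', Matrix.cons_val_zero,
    Matrix.cons_val_one, Matrix.cons_val_fin_one, Matrix.one_apply, if_true, if_false, mul_zero,
    add_zero, zero_add, Fin.isValue, one_ne_zero, zero_ne_one, ↓reduceIte] at h00 h01 h10 h11
  have hc : c ≠ 0 := by
    rintro rfl
    rw [mul_zero] at h00
    exact zero_ne_one h00
  have hb : b ≠ 0 := by
    rintro rfl
    rw [mul_zero] at h11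
    exact zero_ne_one h11
  have hB00 : B 0 0 = 0 := (mul_eq_zero.mp h01).resolve_right hb
  have hB01 : B 0 1 = c⁻¹ := eq_inv_of_mul_eq_one_left h00
  refine ⟨hb, hc, ?_, ?_⟩
  · simp only [Matrix.mul_apply, Fin.sum_univ_two, Matrix.of_apply, Matrix.cons_val', Matrix.cons_val_zero,
      Matrix.cons_val_one, Matrix.cons_val_fin_one, mul_zero, add_zero, zero_add, Fin.isValue,
      hB00, hB01, zero_mul]
    field_simp
  · simp only [Matrix.mul_apply, Fin.sum_univ_two, Matrix.of_apply, Matrix.cons_val', Matrix.cons_val_zero,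
      Matrix.cons_val_one, Matrix.cons_val_fin_one, mul_zero, add_zero, zero_add, Fin.isValue,
      hB00, hB01, zero_mul]
    field_simp

/-- conjugation by a scalar matrix is trivial. -/
theorem scalar_conj (B X : Matrix (Fin 2) (Fin 2) k) (s : k)
    (hB : B * (s • (1 : Matrix (Fin 2) (Fin 2) k)) = 1) :
    B * X * (s • (1 : Matrix (Fin 2) (Fin 2) k)) = X := by
  rw [Matrix.mul_smul, Matrix.mul_one, ← Matrix.smul_mul] 
  rw [Matrix.mul_smul, Matrix.mul_one] at hB
  rw [hB, Matrix.one_mul]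

end Mat

section Padic

variable {p : ℕ} [hp : Fact p.Prime] {k : Type*} [Field k]
variable (K L : IntermediateField ℚ_[p] (PadicAlgCl p)) [FiniteDimensional ℚ_[p] K]
  [Normal ℚ_[p] K] [FiniteDimensional ℚ_[p] L]
  (r : (PadicAlgCl p ≃ₐ[ℚ_[p]] PadicAlgCl p) →* Matrix (Fin 2) (Fin 2) k)

/-- the space of restrictions to `Γ_K` of the `(i, j)` entries of the adjoint cocycles vanishing on
`Γ_L`. -/
def entrySpace (i j : Fin 2) : Submodule k ((PadicAlgCl p ≃ₐ[ℚ_[p]] PadicAlgCl p) → k) :=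
  (ZadS r L.fixingSubgroup).map ((cut K.fixingSubgroup).comp (entryL i j))

variable {K L r}

theorem mem_entrySpace {i j : Fin 2} {f : (PadicAlgCl p ≃ₐ[ℚ_[p]] PadicAlgCl p) → k} :
    f ∈ entrySpace K L r i j ↔
      ∃ c ∈ Zad r L.fixingSubgroup, cut K.fixingSubgroup (fun g => c g i j) = f := Iff.rfl

theorem isHomSpace_entrySpace (hKL : K ≤ L) (hrK : ∀ g ∈ K.fixingSubgroup, r g = 1) (i j : Fin 2) :
    IsHomSpace K L (entrySpace K L r i j) := by
  have hLK : L.fixingSubgroup ≤ K.fixingSubgroup := IntermediateField.fixingSubgroup_antitone hKL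
  refine ⟨?_, ?_, ?_⟩
  · intro f hf g hg h hh
    obtain ⟨c, hc, rfl⟩ := mem_entrySpace.mp hf
    rw [cut_of_mem _ (mul_mem hg hh), cut_of_mem _ hg, cut_of_mem _ hh, hc.2.1 g h, hrK g hg,
      map_inv_eq_one (hrK g hg), Matrix.one_mul, Matrix.mul_one, Matrix.add_apply]
  · intro f hf g s hs
    obtain ⟨c, hc, rfl⟩ := mem_entrySpace.mp hf
    by_cases hg : g ∈ K.fixingSubgroup
    · rw [cut_of_mem _ (mul_mem hg (hLK hs)), cut_of_mem _ hg, Zad_apply_mul_of_mem hc g hs]
    · have hgs : g * s ∉ K.fixingSubgroup := by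
        intro h
        apply hg
        have := mul_mem h (inv_mem (hLK hs))
        rwa [mul_inv_cancel_right] at this
      rw [cut_of_not_mem _ hgs, cut_of_not_mem _ hg]
  · intro f hf h0
    obtain ⟨c, hc, rfl⟩ := mem_entrySpace.mp hf
    funext g
    by_cases hg : g ∈ K.fixingSubgroup
    · exact h0 g hg
    · rw [cut_of_not_mem _ hg]; rfl

/-- the conjugation multiplier of `δ` on an entry space, from the matrix identity. -/
theorem conjMul_entrySpace (hrK : ∀ g ∈ K.fixingSubgroup, r g = 1)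
    (δ : PadicAlgCl p ≃ₐ[ℚ_[p]] PadicAlgCl p) (i j : Fin 2) (m : k)
    (hm : ∀ X : Matrix (Fin 2) (Fin 2) k, X.trace = 0 → (r δ⁻¹ * X * r δ) i j = m * X i j) :
    ConjMul K (entrySpace K L r i j) δ m := by
  intro f hf g hg
  obtain ⟨c, hc, rfl⟩ := mem_entrySpace.mp hf
  have hg' : δ⁻¹ * g * δ ∈ K.fixingSubgroup := by
    have := conj_mem_fixingSubgroup K δ⁻¹ hg
    rwa [inv_inv] at this
  rw [cut_of_mem _ hg', cut_of_mem _ hg]
  show (c (δ⁻¹ * g * δ)) i j = m * (c g) i j
  rw [Zad_conj hc δ g (hrK g hg)]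
  exact hm (c g) (hc.1 g)

/-- **(Irr-count)**: the count of the adjoint cocycles in the tamely irreducible case. -/
theorem card_Zad_le_of_irr [Finite k] [CharP k p] (K L : IntermediateField ℚ_[p] (PadicAlgCl p))
    [FiniteDimensional ℚ_[p] K] [Normal ℚ_[p] K] [FiniteDimensional ℚ_[p] L] (hKL : K ≤ L)
    (hdeg : ¬ p ∣ Module.finrank ℚ_[p] K)
    (r : (PadicAlgCl p ≃ₐ[ℚ_[p]] PadicAlgCl p) →* Matrix (Fin 2) (Fin 2) k)
    (hrK : ∀ g ∈ K.fixingSubgroup, r g = 1) (τ φ : PadicAlgCl p ≃ₐ[ℚ_[p]] PadicAlgCl p)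
    {α β b c : k} (hαβ : α ≠ β) (hτ : r τ = Matrix.diagonal ![α, β]) (hφ : r φ = !![0, b; c, 0])
    (h₀ : ∀ 𝓗 : Submodule k ((PadicAlgCl p ≃ₐ[ℚ_[p]] PadicAlgCl p) → k), IsHomSpace K L 𝓗 →
      ConjMul K 𝓗 τ 1 → ConjMul K 𝓗 φ (-1) → ∀ f ∈ 𝓗, f = 0)
    (h₁ : ∀ 𝓗 : Submodule k ((PadicAlgCl p ≃ₐ[ℚ_[p]] PadicAlgCl p) → k), IsHomSpace K L 𝓗 →
      ConjMul K 𝓗 τ (β / α) → ConjMul K 𝓗 (φ * φ) 1 → Nat.card 𝓗 ≤ Nat.card k) :
    Nat.card (Zad r L.fixingSubgroup) ≤ Nat.card k ^ 4 := by
  classical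
  haveI := finite_quotient_fixingSubgroup (p := p) L
  haveI := finite_quotient_fixingSubgroup (p := p) K
  -- the inverses
  have hτinv : r τ⁻¹ * Matrix.diagonal ![α, β] = 1 := by
    rw [← hτ, ← map_mul, inv_mul_cancel, map_one]
  have hφinv : r φ⁻¹ * !![0, b; c, 0] = 1 := by
    rw [← hφ, ← map_mul, inv_mul_cancel, map_one]
  obtain ⟨hb, hc0, -, -⟩ := anti_conj_entries (r φ⁻¹) 0 b c hφinv
  have hφφ : r (φ * φ) = (b * c) • (1 : Matrix (Fin 2) (Fin 2) k) := by
    rw [map_mul, hφ]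
    ext i j
    fin_cases i <;> fin_cases j <;> simp [Matrix.mul_apply, Fin.sum_univ_two, mul_comm]
  have hφφinv : r (φ * φ)⁻¹ * ((b * c) • (1 : Matrix (Fin 2) (Fin 2) k)) = 1 := by
    rw [← hφφ, ← map_mul, inv_mul_cancel, map_one]
  -- the spaces
  have hsp := isHomSpace_entrySpace (K := K) (L := L) (r := r) hKL hrK
  -- `(0,0)` entries vanish on `Γ_K`
  have h00 : ∀ f ∈ entrySpace K L r 0 0, f = 0 := by
    refine h₀ _ (hsp 0 0) ?_ ?_
    · refine conjMul_entrySpace hrK τ 0 0 1 fun X _ => ?_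
      rw [hτ, (diag_conj_entries (r τ⁻¹) X α β hτinv).1, one_mul]
    · refine conjMul_entrySpace hrK φ 0 0 (-1) fun X hX => ?_
      rw [hφ, (anti_conj_entries (r φ⁻¹) X b c hφinv).2.2.1]
      rw [Matrix.trace_fin_two] at hX
      linear_combination hX
  -- the `(0,1)` space is small
  have h01 : Nat.card (entrySpace K L r 0 1) ≤ Nat.card k := by
    refine h₁ _ (hsp 0 1) ?_ ?_
    · refine conjMul_entrySpace hrK τ 0 1 (β / α) fun X _ => ?_
      rw [hτ, (diag_conj_entries (r τ⁻¹) X α β hτinv).2]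
    · refine conjMul_entrySpace hrK (φ * φ) 0 1 1 fun X _ => ?_
      rw [hφφ, scalar_conj _ X _ hφφinv, one_mul]
  -- the map to the `(0,1)` space
  let T : ((PadicAlgCl p ≃ₐ[ℚ_[p]] PadicAlgCl p) → Matrix (Fin 2) (Fin 2) k) →ₗ[k]
      ((PadicAlgCl p ≃ₐ[ℚ_[p]] PadicAlgCl p) → k) := (cut K.fixingSubgroup).comp (entryL 0 1)
  let Φ : Zad r L.fixingSubgroup →+ entrySpace K L r 0 1 :=
    { toFun := fun z => ⟨T z.1, Submodule.mem_map_of_mem (f := T) (mem_ZadS.mpr z.2)⟩
      map_zero' := Subtype.ext (map_zero T)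
      map_add' := fun z z' => Subtype.ext (map_add T z.1 z'.1) }
  haveI : Finite (entrySpace K L r 0 1) := by
    refine Finite.of_surjective Φ ?_
    rintro ⟨f, hf⟩
    obtain ⟨z, hz, rfl⟩ := mem_entrySpace.mp hf
    exact ⟨⟨z, hz⟩, rfl⟩
  -- the kernel consists of coboundaries
  have hker : ∀ c : Φ.ker, ∃ m : Matrix (Fin 2) (Fin 2) k, m.trace = 0 ∧
      ∀ g, c.1.1 g = r g * m * r g⁻¹ - m := by
    rintro ⟨⟨z, hz⟩, hzker⟩
    have hcut : cut K.fixingSubgroup (fun g => z g 0 1) = 0 := congrArg Subtype.val hzker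
    have hv01 : ∀ g ∈ K.fixingSubgroup, z g 0 1 = 0 := fun g hg => by
      have := congrFun hcut g
      rwa [cut_of_mem _ hg] at this
    have hv00 : ∀ g ∈ K.fixingSubgroup, z g 0 0 = 0 := fun g hg => by
      have h1 := h00 _ (mem_entrySpace.mpr ⟨z, hz, rfl⟩)
      have := congrFun h1 g
      rwa [cut_of_mem _ hg] at this
    have hv11 : ∀ g ∈ K.fixingSubgroup, z g 1 1 = 0 := fun g hg => by
      have h1 := hz.1 g
      rw [Matrix.trace_fin_two, hv00 g hg, zero_add] at h1
      exact h1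
    have hv10 : ∀ g ∈ K.fixingSubgroup, z g 1 0 = 0 := fun g hg => by
      have hg' : φ⁻¹ * g * φ ∈ K.fixingSubgroup := by
        have := conj_mem_fixingSubgroup K φ⁻¹ hg
        rwa [inv_inv] at this
      have h1 := hv01 _ hg'
      rw [Zad_conj hz φ g (hrK g hg), hφ, (anti_conj_entries (r φ⁻¹) (z g) b c hφinv).2.2.2] at h1
      rcases mul_eq_zero.mp h1 with h | h
      · exact absurd h (div_ne_zero hb hc0)
      · exact h
    have hzK : z ∈ Zad r K.fixingSubgroup := by
      refine ⟨hz.1, hz.2.1, fun g hg => ?_⟩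
      ext i j
      fin_cases i <;> fin_cases j
      · exact hv00 g hg
      · exact hv01 g hg
      · exact hv10 g hg
      · exact hv11 g hg
    exact exists_cob_of_mem_Zad K.fixingSubgroup r (natCast_index_ne_zero hdeg) hzK
  choose m hm0 hm using hker
  have hcard := card_le_mul_of_ker_inj (A' := Fin 3 → k) Φ
    (fun c => ![m c 0 0, m c 0 1, m c 1 0]) (by
      intro c c' h
      have e00 : m c 0 0 = m c' 0 0 := by simpa using congrFun h 0
      have e01 : m c 0 1 = m c' 0 1 := by simpa using congrFun h 1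
      have e10 : m c 1 0 = m c' 1 0 := by simpa using congrFun h 2
      have e11 : m c 1 1 = m c' 1 1 := by
        have h1 := hm0 c
        have h2 := hm0 c'
        rw [Matrix.trace_fin_two] at h1 h2
        linear_combination h1 - h2 - e00
      have hmm : m c = m c' := by
        ext i j
        fin_cases i <;> fin_cases j
        · exact e00
        · exact e01
        · exact e10
        · exact e11
      apply Subtype.ext
      apply Subtype.ext
      funext g
      rw [hm c g, hm c' g, hmm])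
  have h3 : Nat.card (Fin 3 → k) = Nat.card k ^ 3 := by
    rw [Nat.card_fun, Nat.card_eq_fintype_card (α := Fin 3), Fintype.card_fin]
  calc Nat.card (Zad r L.fixingSubgroup)
      ≤ Nat.card (Fin 3 → k) * Nat.card (entrySpace K L r 0 1) := hcard
    _ ≤ Nat.card k ^ 3 * Nat.card k := by rw [h3]; exact Nat.mul_le_mul_left _ h01
    _ = Nat.card k ^ 4 := by ring

end Padic

end Fermat.Agent.S56lib.Flat
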